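/-
S59, unit F1p: the transfer of a unit of exponent one, and the bound it gives on the exponent of an
eigen Kummer function.

Justification: `Models.Gamma0.TransferUnit` and `GalRep.WildModel.dvd_exponent_level` with `1` for
`12`, the expansions being replaced by their orders.
-/
import Fermat.Agent.GalRep.WildModel.GapA

set_option autoImplicit false
set_option linter.style.haveILetI false
set_option linter.unusedSectionVars false

noncomputable section

namespace Fermat.Agent.R59.AtP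

open UpperHalfPlane CongruenceSubgroup IsLocalRing
open Fermat.Agent.GalRep Fermat.Agent.GalRep.Level Fermat.Agent.ModField
open Fermat.Agent.GalRep.Model (chartRing SeriesField C_pi_prime)
open Fermat.Agent.NewVec (HasOrd exists_hasOrd)
open Fermat.Agent.Models (IsU ExpEq HasRootAt)
open scoped MatrixGroups

variable {O : Type} [CommRing O] [IsDomain O] [IsDiscreteValuationRing O] {M : ℕ} [NeZero M]
  {E : Emb O M} {π : O} {ℓ : ℕ} [NeZero ℓ]

/-- A member of a Gauss place has order at least zero. -/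
theorem ord_nonneg (hπ : Irreducible π) {δ : SL(2, ℤ)} {x : Fld E} (h : x ∈ gaussP E hπ δ) {d : ℤ}
    (hd : HasOrd E π (toLS E (fShift E δ x)) d) : 0 ≤ d := by
  rw [mem_gaussP, mem_gaussRing] at h
  obtain ⟨a, b, hb, hab⟩ := h
  have e := congrArg E.toC hab
  rw [map_mul, serAt_eq, toC_serF, E.toC_algebraMap, E.toC_algebraMap] at e
  have ha : a ≠ 0 := fun h0 => by
    rw [h0, map_zero, mul_eq_zero] at e
    exact e.elim (hd.ne_zero hπ) (NewVec.gO_ne_zero E hb)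
  obtain ⟨i, a', ha', rfl⟩ := exists_gauss_form hπ ha
  have hi : HasOrd E π (toLS E (fShift E δ x)) i := by
    refine ⟨a', b, ha', hb, ?_⟩
    rw [e, map_mul, map_pow, NewVec.gO_C, zpow_natCast]
  have := hd.unique hπ hi
  omega

/-- A unit of a Gauss place has order zero. -/
theorem hasOrd_zero_of_isU (hπ : Irreducible π) {δ : SL(2, ℤ)} {x : Fld E}
    (h : IsU (gaussP E hπ δ) x) : HasOrd E π (toLS E (fShift E δ x)) 0 := by
  obtain ⟨h0, h1, h2⟩ := Models.isU_iff.mp h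
  obtain ⟨d, hd⟩ := exists_hasOrd E hπ (toLS_mem E (fShift E δ x))
    ((_root_.map_ne_zero _).mpr ((_root_.map_ne_zero _).mpr h0))
  have hi : HasOrd E π (toLS E (fShift E δ x⁻¹)) (-d) := by
    obtain ⟨a, b, ha, hb, he⟩ := hd
    have hs : toLS E (fShift E δ x) ≠ 0 :=
      (_root_.map_ne_zero _).mpr ((_root_.map_ne_zero _).mpr h0)
    have hC := zpow_ne_zero d (NewVec.C_phi_ne_zero E hπ)
    refine ⟨b, a, hb, ha, ?_⟩
    rw [map_inv₀, map_inv₀, zpow_neg, inv_mul_eq_div, inv_mul_eq_div, div_eq_div_iff hs hC]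
    linear_combination -he
  have e : d = 0 := le_antisymm (by have := ord_nonneg hπ h2 hi; omega) (ord_nonneg hπ h1 hd)
  exact e ▸ hd

/-- The expansion of a transfer from the order of the function. -/
theorem exists_ord_transfer_of_ord (hℓ : ℓ.Prime) (hℓM : (ℓ : ZMod M) = 1) (hπ : Irreducible π)
    {z : O} (hz : E.φ z = (zetaU ℓ : ℂ)) (hzu : IsUnit z) {φ ψ : MF M}
    (hψT : (ψ : ℍ → ℂ) = transferProd (heckeRepG M ℓ 1)
      (fun i => by rw [det_heckeRepG]; exact_mod_cast hℓ.pos) (φ : ℍ → ℂ))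
    (hψ : ψ ∈ bddMF E) (δ : SL(2, ℤ)) {c : ℂ} (hc0 : c ≠ 0) (hcK : c ∈ E.K)
    {s : LaurentSeries ℂ} (hs : HasOrd E π s 0)
    (e : serAlg M (shift M δ φ) = HahnSeries.C c * s) :
    ∃ t, HasOrd E π t 0 ∧ serAlg M (shift M δ ψ) = HahnSeries.C (c ^ (ℓ + 1)) * t := by
  have h1 := NewVec.serAlg_shift_transfer hℓ hℓM (φ := φ) (ψ := ψ)
    (fun i => by rw [det_heckeRepG]; exact_mod_cast hℓ.pos) hψT (zetaU ℓ) rfl δ
  rw [e] at h1
  set s' : LaurentSeries ℂ := HahnSeries.C (c ^ (ℓ + 1))⁻¹ * serAlg M (shift M δ ψ) with hs'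
  have hexpC : ∀ (x : ℂ), GalRep.expand ℓ (NeZero.ne ℓ) (HahnSeries.C x) = HahnSeries.C x :=
    fun x => by rw [HahnSeries.C_apply, expand_single', mul_zero]
  have htwC : ∀ (w : ℂˣ) (x : ℂ), GalRep.twist w (HahnSeries.C x) = HahnSeries.C x := by
    intro w x
    ext k
    rw [twist_coeff, HahnSeries.C_apply, HahnSeries.coeff_single]
    split_ifs with h
    · subst h; simp
    · simp
  set A := GalRep.expand ℓ (NeZero.ne ℓ) (GalRep.expand ℓ (NeZero.ne ℓ) s)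
  set T := ∏ b : Fin ℓ, GalRep.twist (zetaU ℓ ^ (b : ℕ)) s
  have hC : (HahnSeries.C (c ^ (ℓ + 1))⁻¹ : LaurentSeries ℂ) *
      HahnSeries.C (c ^ (ℓ + 1)) = 1 := by
    rw [← map_mul, inv_mul_cancel₀ (pow_ne_zero _ hc0), map_one]
  have hexp : GalRep.expand ℓ (NeZero.ne ℓ) s' = A * T := by
    rw [hs', map_mul, h1, hexpC, map_mul, map_mul, hexpC, hexpC]
    simp only [map_mul, htwC, Finset.prod_mul_distrib, Finset.prod_const, Finset.card_univ,
      Fintype.card_fin]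
    rw [pow_succ, map_mul, map_pow] at hC
    calc _ = (HahnSeries.C (c ^ (ℓ + 1))⁻¹ * (HahnSeries.C c ^ ℓ * HahnSeries.C c)) * (A * T) := by
          ring
      _ = A * T := by rw [pow_succ, hC, one_mul]
  have hord : HasOrd E π (GalRep.expand ℓ (NeZero.ne ℓ) s') 0 := by
    rw [hexp]
    have htw : ∀ b : Fin ℓ, HasOrd E π (GalRep.twist (zetaU ℓ ^ (b : ℕ)) s) 0 := fun b => by
      have hzb : E.φ (z ^ (b : ℕ)) = ((zetaU ℓ ^ (b : ℕ) : ℂˣ) : ℂ) := by
        rw [map_pow, hz, Units.val_pow_eq_pow_val]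
      exact NewVec.HasOrd.twist (E := E) (π := π) (s := s) (e := 0) hs
        (u := zetaU ℓ ^ (b : ℕ)) (z := z ^ (b : ℕ)) hzb (hzu.pow _)
    have hp := NewVec.HasOrd.prod (E := E) hπ
      (fun b : Fin ℓ => GalRep.twist (zetaU ℓ ^ (b : ℕ)) s) 0 htw
    rw [mul_zero] at hp
    have h2 : HasOrd E π A 0 :=
      NewVec.HasOrd.expand (E := E) (NewVec.HasOrd.expand (E := E) hs (NeZero.ne ℓ)) (NeZero.ne ℓ)
    have := h2.mul hπ hp
    rwa [zero_add] at this
  have hs'F : s' ∈ E.sFld :=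
    mul_mem (E.C_mem (inv_mem (pow_mem hcK _))) ((mem_bddMF E).mp hψ δ)
  have hs'0 : s' ≠ 0 := fun h0 => by
    have := hord.ne_zero hπ
    rw [h0, map_zero] at this
    exact this rfl
  obtain ⟨d, hd⟩ := exists_hasOrd E hπ hs'F hs'0
  have hd0 : d = 0 := (NewVec.HasOrd.expand (E := E) hd (NeZero.ne ℓ)).unique hπ hord
  refine ⟨s', hd0 ▸ hd, ?_⟩
  rw [hs', ← mul_assoc, ← map_mul, mul_inv_cancel₀ (pow_ne_zero _ hc0), map_one, one_mul]

variable {q m : ℕ} [hq' : Fact q.Prime]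

set_option synthInstance.maxHeartbeats 200000 in
set_option maxHeartbeats 1000000 in
/-- The transfers of a unit of exponent one and of its partner. -/
theorem exists_unit_transfer_one [Fact ℓ.Prime] (hℓM : (ℓ : ZMod M) = 1) (hqM : q ∣ M) (hmM : m ∣ M)
    (hbase : baseK O E = E.K) (hπ : Irreducible π) {z : O} (hz : E.φ z = (zetaU ℓ : ℂ))
    (hzu : IsUnit z) {φ : MF M} (hφK : serAlg M φ ∈ kSer E.K)
    (hφG : ∀ g ∈ levelG q m, shift M g φ = φ) {U V : Fld₀ O E q m}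
    (hU : (U : Fld E) = ofMF E φ hφK) (hV : (V : Fld E) = (q : Fld E) / ofMF E φ hφK)
    (hUB : U ∈ chartRing O (jF₀ O E q m)) (hVB : V ∈ chartRing O (jF₀ O E q m))
    (hS : IsU (gaussP E hπ ModularGroup.S) (ofMF E φ hφK))
    (h1 : IsU (gaussP E hπ 1) ((q : Fld E) / ofMF E φ hφK)) :
    ∃ X Y : Fld₀ O E q m, X ∈ chartRing O (jF₀ O E q m) ∧ Y ∈ chartRing O (jF₀ O E q m) ∧
      X * Y = (q : Fld₀ O E q m) ^ (ℓ + 1) ∧
      IsU (twoP O E q m hπ true) X ∧ IsU (twoP O E q m hπ false) Y ∧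
      GalRep.expand ℓ (NeZero.ne ℓ) (toLS E (X : Fld E)) =
        ∏ i, conjSer ℓ i (toLS E (U : Fld E)) := by
  classical
  have hℓ : ℓ.Prime := Fact.out
  have hzK : (zetaU ℓ : ℂ) ∈ E.K := hz ▸ E.φ_mem z
  have hq0 : (q : ℂ) ≠ 0 := Nat.cast_ne_zero.mpr hq'.out.ne_zero
  obtain ⟨ψ, hψK, hψG, hψ, hψT⟩ := exists_transfer_mf hℓ hℓM hqM hmM hzK hφK hφG
  have hXmem : ofMF E ψ hψK ∈ Fld₀ O E q m := by
    refine mem_levelFld.mpr ⟨fun g hg => ?_, ?_⟩
    · rw [ofMF, fShift_toFld]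
      exact congrArg _ (Subtype.ext (hψG g hg))
    · rw [ofMF, toLS_toFld, hbase]; exact hψK
  set X : Fld₀ O E q m := ⟨_, hXmem⟩
  have hXser : GalRep.expand ℓ (NeZero.ne ℓ) (toLS E (X : Fld E)) =
      ∏ i, conjSer ℓ i (toLS E (U : Fld E)) := by
    rw [hU]
    show GalRep.expand ℓ (NeZero.ne ℓ) (toLS E (ofMF E ψ hψK)) = _
    rw [ofMF, ofMF, toLS_toFld, toLS_toFld]
    exact hψ
  have hsh : ∀ (χ : MF M) (hK : serAlg M χ ∈ kSer E.K) (δ : SL(2, ℤ)),
      toLS E (fShift E δ (ofMF E χ hK)) = serAlg M (shift M δ χ) := fun χ hK δ => by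
    rw [ofMF, fShift_toFld, toLS_toFld]
  have hTS : HasOrd E π (serAlg M (shift M ModularGroup.S ψ)) 0 := by
    obtain ⟨t, ht, e⟩ := exists_ord_transfer_of_ord (E := E) hℓ hℓM hπ hz hzu hψT
      (bdd_of_kSer E hψK) ModularGroup.S one_ne_zero (one_mem _)
      (hasOrd_zero_of_isU hπ hS) (by rw [map_one, one_mul, hsh])
    rw [one_pow, map_one, one_mul] at e
    rwa [e]
  have hT1 : ∃ t, HasOrd E π t 0 ∧
      serAlg M (shift M 1 ψ) = HahnSeries.C ((q : ℂ) ^ (ℓ + 1)) * t := by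
    have h1' := hasOrd_zero_of_isU hπ h1.inv
    rw [inv_div, map_div₀, map_div₀, hsh, map_natCast, map_natCast] at h1'
    refine exists_ord_transfer_of_ord (E := E) hℓ hℓM hπ hz hzu hψT (bdd_of_kSer E hψK) 1 hq0
      (natCast_mem _ q) h1' ?_
    have : (q : LaurentSeries ℂ) ≠ 0 := by
      rw [← map_natCast HahnSeries.C]; exact (_root_.map_ne_zero _).mpr hq0
    rw [map_natCast, mul_div_cancel₀ _ this]
  have hXB : X ∈ chartRing O (jF₀ O E q m) := transfer_mem_chart (ℓ := ℓ) hUB hXser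
  have hX0 : (X : Fld E) ≠ 0 := fun h0 => by
    refine hTS.ne_zero hπ ?_
    rw [← hsh ψ hψK, show ofMF E ψ hψK = 0 from h0, map_zero, map_zero]
  obtain ⟨Y, hY⟩ : ∃ Y : Fld₀ O E q m, (Y : Fld E) = (q : Fld E) ^ (ℓ + 1) / (X : Fld E) :=
    ⟨⟨_, div_mem (pow_mem (natCast_mem _ q) _) X.2⟩, rfl⟩
  have hYB : Y ∈ chartRing O (jF₀ O E q m) := by
    refine transfer_mem_chart (ℓ := ℓ) (x := V) hVB ?_
    have hprod : GalRep.expand ℓ (NeZero.ne ℓ) (toLS E ((q : Fld E) ^ (ℓ + 1))) =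
        ∏ i, conjSer ℓ i (toLS E (q : Fld E)) := by
      simp only [map_pow, map_natCast, Finset.prod_const, Finset.card_univ, Fintype.card_option,
        Fintype.card_fin]
    rw [hY, hV, ← hU, map_div₀, map_div₀, hXser, hprod, ← Finset.prod_div_distrib]
    exact Finset.prod_congr rfl fun i _ => by rw [map_div₀, map_div₀]
  have hXY : X * Y = (q : Fld₀ O E q m) ^ (ℓ + 1) := Subtype.ext (by
    rw [Subfield.coe_mul, hY, mul_div_cancel₀ _ hX0, SubmonoidClass.coe_pow]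
    congr 1)
  refine ⟨X, Y, hXB, hYB, hXY, ?_, ?_, hXser⟩
  · rw [twoP, comp, isU_comap_iff]
    refine isU_gaussP_of_ord hπ ?_
    show HasOrd E π (toLS E (fShift E ModularGroup.S (ofMF E ψ hψK))) 0
    rw [hsh]
    exact hTS
  · rw [twoP, comp, isU_comap_iff]
    show IsU (gaussP E hπ 1) (Y : Fld E)
    refine isU_gaussP_of_ord hπ ?_
    obtain ⟨t, ht, e⟩ := hT1
    have e2 : toLS E (fShift E 1 (Y : Fld E)) = t⁻¹ := by
      rw [hY, map_div₀, map_div₀, show fShift E 1 (X : Fld E) = fShift E 1 (ofMF E ψ hψK) from rfl,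
        hsh, e, map_pow, map_pow, map_natCast, map_natCast, map_pow HahnSeries.C, map_natCast,
        div_mul_cancel_left₀]
      exact pow_ne_zero _ (by
        rw [← map_natCast HahnSeries.C]
        exact (_root_.map_ne_zero _).mpr hq0)
    rw [e2]
    obtain ⟨a, b, ha, hb, he⟩ := ht
    rw [zpow_zero, one_mul] at he
    have ht0 : t ≠ 0 := fun h0 => NewVec.gO_ne_zero E ha (by rw [← he, h0, zero_mul])
    exact ⟨b, a, hb, ha, by rw [zpow_zero, one_mul, ← he, inv_mul_cancel_left₀ ht0]⟩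

local notation "F₁" => Fld₀ O E q m
set_option quotPrecheck false in
local notation "Bl" => (model₀ O E q m).B₀
local notation "al" => algebraMap O (Fld₀ O E q m)

set_option maxHeartbeats 800000 in
/-- The exponent bound on a level model with a unit of exponent one. -/
theorem dvd_exponent_level_one [Fact ℓ.Prime] {e : ℕ} {F₀ : Subfield (Fld₀ O E q m)}
    (hπ : Irreducible π)
    (h : Models.IsWildModel (model₀ O E q m) π (twoP O E q m hπ) e q F₀)
    (hqM : q ∣ M) (hmM : m ∣ M) (hbase : baseK O E = E.K)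
    (hl : (ℓ : ZMod M) = 1) {z : O} (hz : E.φ z = (zetaU ℓ : ℂ)) (hzu : IsUnit z)
    {φ : MF M} (hφK : serAlg M φ ∈ kSer E.K) (hφG : ∀ g ∈ levelG q m, shift M g φ = φ)
    (hφB : ofMF E φ hφK ∈ chartRing O (jF E))
    (hφB' : (q : Fld E) / ofMF E φ hφK ∈ chartRing O (jF E))
    (hφ0 : ofMF E φ hφK ≠ 0)
    (hS : IsU (gaussP E hπ ModularGroup.S) (ofMF E φ hφK))
    (h1 : IsU (gaussP E hπ 1) ((q : Fld E) / ofMF E φ hφK))
    {f : Fld₀ O E q m} (hf0 : f ≠ 0)
    (hoff : ∀ Q : Ideal (model₀ O E q m).B₀, Q.IsPrime → Q ≠ ⊥ →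
      algebraMap O (model₀ O E q m).B₀ π ∉ Q → HasRootAt (model₀ O E q m).B₀ q f Q)
    {s : ℕ} (hs : ExpEq (model₀ O E q m).B₀ π (twoP O E q m hπ) e F₀ q f s)
    {a : ZMod q} (ha : a ≠ (ℓ : ZMod q) + 1) {g H : Fld₀ O E q m} {c₁ c₂ : O} (hc₁ : c₁ ≠ 0)
    (hc₂ : c₂ ≠ 0) (hH : H ≠ 0)
    (hgser : GalRep.expand ℓ (NeZero.ne ℓ) (toLS E (g : Fld E)) =
      ∏ i, conjSer ℓ i (toLS E (f : Fld E)))
    (hgeq : algebraMap O (Fld₀ O E q m) c₁ * g =
      algebraMap O (Fld₀ O E q m) c₂ * (f ^ a.val * H ^ q)) : q ∣ s := by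
  have hq : q.Prime := hq'.out
  have hzK : (zetaU ℓ : ℂ) ∈ E.K := hz ▸ E.φ_mem z
  have hUmem : ofMF E φ hφK ∈ Fld₀ O E q m := by
    refine mem_levelFld.mpr ⟨fun g hg => ?_, ?_⟩
    · rw [ofMF, fShift_toFld]
      exact congrArg _ (Subtype.ext (hφG g hg))
    · rw [ofMF, toLS_toFld, hbase]; exact hφK
  obtain ⟨U, hU⟩ : ∃ U : F₁, (U : Fld E) = ofMF E φ hφK := ⟨⟨_, hUmem⟩, rfl⟩
  obtain ⟨V, hV⟩ : ∃ V : F₁, (V : Fld E) = (q : Fld E) / ofMF E φ hφK :=
    ⟨⟨_, div_mem (natCast_mem _ q) hUmem⟩, rfl⟩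
  have hUB : U ∈ chartRing O (jF₀ O E q m) := mem_chart₀_iff'.2 (by rw [hU]; exact hφB)
  have hVB : V ∈ chartRing O (jF₀ O E q m) := mem_chart₀_iff'.2 (by rw [hV]; exact hφB')
  have hUV : U * V = (q : F₁) := Subtype.ext (by
    rw [Subfield.coe_mul, hU, hV, mul_div_cancel₀ _ hφ0]; rfl)
  obtain ⟨cq, hcq⟩ := h.natCast_eq
  have hUU : IsU (twoP O E q m hπ true) U := by
    rw [twoP, comp, isU_comap_iff]; show IsU _ (U : Fld E); rw [hU]; exact hS
  have hVU : IsU (twoP O E q m hπ false) V := by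
    rw [twoP, comp, isU_comap_iff]; show IsU _ (V : Fld E); rw [hV]; exact h1
  have huv : (⟨U, hUB⟩ : Bl) * ⟨V, hVB⟩ = algebraMap O Bl ((cq : O) * π ^ (1 * e)) :=
    Subtype.ext (by
      show U * V = al _
      rw [hUV, one_mul, ← map_natCast al, hcq])
  have hu : ∀ (mm : Ideal Bl) (x y w : Bl), mm.IsMaximal →
      Models.IsNodeParam Bl π (twoP O E q m hπ) e F₀ mm x y w →
      ∃ c d : Bl, c ∉ mm ∧ d ∉ mm ∧ c * ⟨U, hUB⟩ * x ^ 1 = d * algebraMap O Bl π ^ (1 * e) :=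
    fun mm x y w hmm hn => h.exists_unit_form h.chart₀ huv hUU hVU hmm hn
  obtain ⟨t, ht⟩ := h.exists_roots_mul_unit hf0 hoff hs huv hu
  obtain ⟨X, Y, hXB, hYB, hXY, hXU, hYU, hXser⟩ := exists_unit_transfer_one (O := O)
    (E := E) (q := q) (m := m) (π := π) hl hqM hmM hbase hπ hz hzu hφK hφG hU hV hUB hVB hS h1
  -- the transfer has roots
  have hT : ∀ Q : Ideal Bl, Q.IsMaximal →
      HasRootAt Bl q ((al π ^ t) ^ (ℓ + 1) * (g * X ^ s)) Q := by
    intro Q hQ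
    refine hasRootAt_hecke (ℓ := ℓ) hl hqM hmM hzK hbase hq.pos
      (f := al π ^ t * (f ^ 1 * U ^ s)) ?_ ?_ ht hQ
    · exact mul_ne_zero (pow_ne_zero _ h.pi_ne_zero) (mul_ne_zero (pow_ne_zero _ hf0)
        (pow_ne_zero _ fun h0 => hφ0 (by rw [← hU, h0]; rfl)))
    · have hC : ∀ (i : Option (Fin ℓ)), conjSer ℓ i (toLS E
          ((al π : Fld₀ O E q m) : Fld E)) =
          GalRep.expand ℓ (NeZero.ne ℓ) (toLS E
            ((al π : Fld₀ O E q m) : Fld E)) := fun i => by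
        simp only [coe_algebraMap_fld₀, toLS_algebraMap, conjSer_C]
        rw [HahnSeries.C_apply, expand_single', mul_zero]
      simp only [pow_one, Subfield.coe_mul, SubmonoidClass.coe_pow, map_mul, map_pow, hgser, hXser,
        hC, Finset.prod_mul_distrib, Finset.prod_pow, Finset.prod_const, Finset.card_univ,
        Fintype.card_option, Fintype.card_fin]
      rw [← pow_mul, ← pow_mul, mul_comm t]
  -- the exponent
  have hcX : ∀ (mm : Ideal Bl) (x y w : Bl), mm.IsMaximal →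
      Models.IsNodeParam Bl π (twoP O E q m hπ) e F₀ mm x y w →
      ∃ c d : Bl, c ∉ mm ∧ d ∉ mm ∧ c * (⟨X, hXB⟩ : Bl) * x ^ (ℓ + 1) =
        d * algebraMap O Bl π ^ ((ℓ + 1) * e) := by
    intro mm x y w hmm hn
    refine h.exists_unit_form h.chart₀ (u := ⟨X, hXB⟩) (v := ⟨Y, hYB⟩)
      (c₀ := cq ^ (ℓ + 1)) ?_ hXU hYU hmm hn
    refine Subtype.ext ?_
    show X * Y = al _
    rw [hXY, ← map_natCast al, ← map_pow, hcq, mul_pow, ← pow_mul, Units.val_pow_eq_pow_val,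
      mul_comm e]
  have hdvd := h.dvd_of_roots_transfer hf0 hs (u := ⟨X, hXB⟩) (k := ℓ + 1) hcX
    (A₁ := a.val) (B₁ := s) (c₁ := (π ^ t) ^ (ℓ + 1) * c₂ * c₁ ^ (q - 1)) ?_
    (H := H / al c₁) ?_ ?_
  · have hint : (q : ℤ) ∣ ((a.val : ℤ) - ((ℓ : ℤ) + 1)) * s := by
      convert hdvd using 1
      push_cast
      ring
    rcases (Nat.prime_iff_prime_int.mp hq).dvd_or_dvd hint with h2 | h2
    · exfalso
      apply ha
      have h3 := (ZMod.intCast_zmod_eq_zero_iff_dvd _ _).mpr h2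
      push_cast at h3
      rw [ZMod.natCast_zmod_val] at h3
      exact sub_eq_zero.mp h3
    · exact_mod_cast h2
  · exact mul_ne_zero (mul_ne_zero (pow_ne_zero _ (pow_ne_zero _ h.irreducible.ne_zero)) hc₂)
      (pow_ne_zero _ hc₁)
  · exact div_ne_zero hH ((map_ne_zero_iff al algebraMap_fld₀_injective).mpr hc₁)
  · intro mm hmm
    have h2 := hT mm hmm
    have hc : al c₁ ≠ 0 := (map_ne_zero_iff al algebraMap_fld₀_injective).mpr hc₁
    have he : al ((π ^ t) ^ (ℓ + 1) * c₂ * c₁ ^ (q - 1)) *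
        (f ^ a.val * ((⟨X, hXB⟩ : Bl) : Fld₀ O E q m) ^ s * (H / al c₁) ^ q) =
        (al π ^ t) ^ (ℓ + 1) * (g * X ^ s) := by
      have hcq : al c₁ ^ (q - 1) * al c₁ = al c₁ ^ q := by
        rw [← pow_succ, Nat.sub_add_cancel hq.pos]
      rw [map_mul, map_mul, map_pow, map_pow, map_pow, div_pow, mul_div_assoc',
        mul_div_assoc', div_eq_iff (pow_ne_zero _ hc), ← hcq]
      have hgeq' : al c₁ * g = al c₂ * (f ^ a.val * H ^ q) := hgeq
      linear_combination -((al π ^ t) ^ (ℓ + 1) * X ^ s * al c₁ ^ (q - 1)) * hgeq'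
    rw [he]
    exact h2

end Fermat.Agent.R59.AtP
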