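/-
S59, unit F1p: at `p = 3` the inverse abscissa of a point of order three on the line is a unit off
the special fibre, of order `e` along the component over infinity and `0` along the other.

Justification: it is a root of `Y⁴ - 6 Y² / l + 4 (1 + l) Y / l² - 3 / l²`, whose linear coefficient
is a unit on both components, so exactly one of the four roots is small on each of them.
-/
import Fermat.Agent.Models.Gamma0.TwoComps
import Fermat.Agent.Models.Gamma0.OrdNorm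
import Fermat.Agent.Models.Gamma0.Interior
import Fermat.Agent.Moduli.TwoField

set_option autoImplicit false
set_option linter.style.haveILetI false
set_option linter.unusedSectionVars false

noncomputable section

namespace Fermat.Agent.R59.AtP

open IsLocalRing
open Fermat.Agent.Models (IsU isU_iff rs)

theorem isUnit_two {O : Type} [CommRing O] [IsLocalRing O] (h3O : (3 : O) ∈ maximalIdeal O) :
    IsUnit (2 : O) := by
  by_contra h
  have h1 : (3 : O) - 2 ∈ maximalIdeal O := sub_mem h3O ((mem_maximalIdeal _).mpr h)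
  exact (mem_maximalIdeal _).mp h1 (by norm_num)

/-! ## Quartics with a unit linear coefficient -/

section Quartic

variable {F : Type} [Field F] {p r s a b c d : F}

theorem two_roots (hab : a ≠ b) (ha : a ^ 4 + p * a ^ 2 + r * a + s = 0)
    (hb : b ^ 4 + p * b ^ 2 + r * b + s = 0) :
    a ^ 3 + a ^ 2 * b + a * b ^ 2 + b ^ 3 + p * (a + b) + r = 0 :=
  mul_left_cancel₀ (sub_ne_zero.mpr hab) (by linear_combination ha - hb)

theorem three_roots (hab : a ≠ b) (hac : a ≠ c) (hbc : b ≠ c)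
    (ha : a ^ 4 + p * a ^ 2 + r * a + s = 0) (hb : b ^ 4 + p * b ^ 2 + r * b + s = 0)
    (hc : c ^ 4 + p * c ^ 2 + r * c + s = 0) :
    a ^ 2 + b ^ 2 + c ^ 2 + a * b + b * c + c * a + p = 0 :=
  mul_left_cancel₀ (sub_ne_zero.mpr hac)
    (by linear_combination two_roots hab ha hb - two_roots hbc hb hc)

theorem four_roots (hab : a ≠ b) (hac : a ≠ c) (had : a ≠ d) (hbc : b ≠ c) (hbd : b ≠ d)
    (hcd : c ≠ d) (ha : a ^ 4 + p * a ^ 2 + r * a + s = 0)
    (hb : b ^ 4 + p * b ^ 2 + r * b + s = 0) (hc : c ^ 4 + p * c ^ 2 + r * c + s = 0)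
    (hd : d ^ 4 + p * d ^ 2 + r * d + s = 0) : a * b * c * d = s := by
  have h3 := three_roots hab hac hbc ha hb hc
  have hsum : a + b + c + d = 0 := mul_left_cancel₀ (sub_ne_zero.mpr had)
    (by linear_combination h3 - three_roots hbc hbd hcd hb hc hd)
  linear_combination -ha - a * b * h3 + a * two_roots hab ha hb + a * b * c * hsum

/-- Of four roots, three of which are small together, only the fourth is small. -/
theorem isU_of_roots (G : ValuationSubring F) (hab : a ≠ b) (hac : a ≠ c) (had : a ≠ d)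
    (hbc : b ≠ c) (hbd : b ≠ d) (hcd : c ≠ d) (ha : a ^ 4 + p * a ^ 2 + r * a + s = 0)
    (hb : b ^ 4 + p * b ^ 2 + r * b + s = 0) (hc : c ^ 4 + p * c ^ 2 + r * c + s = 0)
    (hd : d ^ 4 + p * d ^ 2 + r * d + s = 0) (hpG : p ∈ G) (hr : IsU G r)
    (hs0 : s ≠ 0) (hbG : b ∈ G) (hcG : c ∈ G) (hdG : d ∈ G)
    (ebc : b ∈ G.nonunits ↔ c ∈ G.nonunits) (ecd : c ∈ G.nonunits ↔ d ∈ G.nonunits) :
    IsU G b ∧ IsU G (s / a) := by
  have hnu : ∀ {x : F} (hx : x ∈ G), x ∈ G.nonunits ↔ residue G ⟨x, hx⟩ = 0 := fun {x} hx => by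
    rw [residue_eq_zero_iff, ← G.coe_mem_nonunits_iff]
  have hprod := four_roots hab hac had hbc hbd hcd ha hb hc hd
  have htwo : ∀ {x y : F}, x ≠ y → x ^ 4 + p * x ^ 2 + r * x + s = 0 →
      y ^ 4 + p * y ^ 2 + r * y + s = 0 → x ∈ G.nonunits → y ∈ G.nonunits → False := by
    intro x y hxy h1 h2 hxn hyn
    have hxG := G.nonunits_subset hxn
    have hyG := G.nonunits_subset hyn
    have e : (⟨x, hxG⟩ : G) ^ 3 + ⟨x, hxG⟩ ^ 2 * ⟨y, hyG⟩ + ⟨x, hxG⟩ * ⟨y, hyG⟩ ^ 2 +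
        ⟨y, hyG⟩ ^ 3 + ⟨p, hpG⟩ * (⟨x, hxG⟩ + ⟨y, hyG⟩) + ⟨r, hr.1⟩ = 0 :=
      Subtype.ext (by push_cast; exact two_roots hxy h1 h2)
    have e' := congrArg (residue G) e
    simp only [map_add, map_mul, map_pow, (hnu hxG).mp hxn, (hnu hyG).mp hyn, map_zero, ne_eq,
      OfNat.ofNat_ne_zero, not_false_eq_true, zero_pow, mul_zero, add_zero, zero_add] at e'
    exact hr.2 (Models.rs_eq_zero_of_nonunit ((hnu hr.1).mpr e'))
  have hbn : b ∉ G.nonunits := fun h => htwo hbc hb hc h (ebc.mp h)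
  have hU : ∀ {x : F}, x ∈ G → x ∉ G.nonunits → IsU G x := fun {x} hx hn =>
    ⟨hx, fun h0 => hn ((Models.rs_eq_zero hx).mp h0)⟩
  have hbU := hU hbG hbn
  have hcU := hU hcG (fun h => hbn (ebc.mpr h))
  have hdU := hU hdG (fun h => hbn (ebc.mpr (ecd.mpr h)))
  have ha0 : a ≠ 0 := fun h => hs0 (by rw [← hprod, h]; ring)
  refine ⟨hbU, ?_⟩
  rw [show s / a = b * c * d by rw [← hprod]; field_simp]
  exact (hbU.mul hcU).mul hdU

end Quartic

open Polynomial UpperHalfPlane CongruenceSubgroup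
open Fermat.Agent.GalRep Fermat.Agent.GalRep.Level Fermat.Agent.Moduli Fermat.Agent.ModField
open Fermat.Agent.GalRep.Model (chartRing Quad Lev NZ PM rowMul nz_rowMul)
open Fermat.Agent.Models (IsU)
open scoped MatrixGroups

section Integral

variable {O : Type} [CommRing O] {F : Type} [Field F] [Algebra O F] {w z : F}

/-- A parameter over `w` is integral over it when two is invertible. -/
theorem lam_mem_chart (h2 : IsUnit (2 : O))
    (h : w * (z ^ 2 * (z - 1) ^ 2) = 256 * (z ^ 2 - z + 1) ^ 3) : z ∈ chartRing O w := by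
  obtain ⟨u, hu⟩ := h2
  set R := Algebra.adjoin O ({w} : Set F)
  set c : R := algebraMap O R ((u⁻¹ ^ 8 : Oˣ) : O) * ⟨w, Algebra.self_mem_adjoin_singleton O w⟩
  rw [mem_chart_iff]
  refine ⟨X ^ 6 + C (-3 : R) * X ^ 5 + C (6 - c) * X ^ 4 + C (2 * c - 7) * X ^ 3 + C (6 - c) * X ^ 2 +
    C (-3 : R) * X + C 1, by monicity!, ?_⟩
  simp only [eval₂_add, eval₂_mul, eval₂_pow, eval₂_X, eval₂_C]
  simp only [map_sub, map_mul, map_neg, map_one, map_ofNat]
  have hc : algebraMap R F c * 256 = w := by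
    have e : (algebraMap O F ((u⁻¹ ^ 8 : Oˣ) : O)) * 256 = 1 := by
      rw [← map_ofNat (algebraMap O F) 256, ← map_mul,
        show (256 : O) = ((u ^ 8 : Oˣ) : O) by rw [Units.val_pow_eq_pow_val, hu]; norm_num,
        ← Units.val_mul, inv_pow, inv_mul_cancel, Units.val_one, map_one]
    show algebraMap O F _ * w * 256 = w
    rw [mul_right_comm, e, one_mul]
  have h256 : (256 : F) ≠ 0 := by
    rw [← map_ofNat (algebraMap O F) 256,
      show (256 : O) = ((u ^ 8 : Oˣ) : O) by rw [Units.val_pow_eq_pow_val, hu]; norm_num]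
    exact ((Units.isUnit _).map _).ne_zero
  refine mul_left_cancel₀ h256 ?_
  linear_combination (-(z ^ 2 * (z - 1) ^ 2)) * hc - h

end Integral

variable {O : Type} [CommRing O] [IsDomain O] {M : ℕ} [NeZero M] (E : Emb O M) {m : ℕ}

/-- The point of order three with coordinates `z` at level `3 m`. -/
def pt (m : ℕ) (z : ℤ × ℤ) : ℤ × ℤ := ((m : ℤ) * z.1, (m : ℤ) * z.2)

theorem rowMul_pt (z : ℤ × ℤ) (g : SL(2, ℤ)) : rowMul (pt m z) g = pt m (rowMul z g) := by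
  simp only [rowMul, pt, Prod.mk.injEq]; constructor <;> ring

variable (hM : M = 3 * m)
include hM

theorem m_ne : (m : ℤ) ≠ 0 := fun h => NeZero.ne M (by
  rw [hM, Int.natCast_eq_zero.mp h, mul_zero])

theorem pm_pt_iff (z z' : ℤ × ℤ) : PM M (pt m z) (pt m z') ↔ PM 3 z z' := by
  have e : (M : ℤ) = (m : ℤ) * 3 := by rw [hM]; push_cast; ring
  simp only [PM, pt, e, ← mul_sub, ← mul_add, mul_dvd_mul_iff_left (m_ne hM), Nat.cast_ofNat]

theorem nz_pt {z : ℤ × ℤ} (hz : NZ 3 z) : NZ M (pt m z) := by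
  have e : (M : ℤ) = (m : ℤ) * 3 := by rw [hM]; push_cast; ring
  simpa only [NZ, pt, e, mul_dvd_mul_iff_left (m_ne hM), Nat.cast_ofNat] using hz

variable {L : Lev M} (hLm : L.m = 2)
include hLm

theorem not_pm_pt (z : ℤ × ℤ) : ¬ PM M (pt m z) (L.V 0) := by
  intro h
  have e : (M : ℤ) = (m : ℤ) * 3 := by rw [hM]; push_cast; ring
  have e2 := lev_eq_mul_two hLm
  have hV : (L.V 0).1 = (L.e : ℤ) := by simp [Lev.V, Model.base]
  have he : (L.e : ℤ) ≠ 0 := fun h0 => NeZero.ne M (by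
    rw [h0, zero_mul] at e2; exact_mod_cast e2)
  have key : (M : ℤ) ∣ 3 * (L.e : ℤ) := by
    rcases h with ⟨⟨k, hk⟩, -⟩ | ⟨⟨k, hk⟩, -⟩
    · refine ⟨z.1 - 3 * k, ?_⟩
      simp only [pt, hV] at hk
      linear_combination (-z.1) * e - 3 * hk
    · refine ⟨3 * k - z.1, ?_⟩
      simp only [pt, hV] at hk
      linear_combination z.1 * e + 3 * hk
  obtain ⟨k, hk⟩ := key
  have : (3 : ℤ) = 2 * k := mul_left_cancel₀ he (by linear_combination hk + k * e2)
  omega

/-- The abscissa of the point `z`. -/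
def xF (L : Lev M) (hM : M = 3 * m) (z : ℤ × ℤ) (hz : NZ 3 z) : Fld E :=
  absF E L (pt m z) (nz_pt hM hz)

/-- The inverse abscissa, as a modular function. -/
def yMF (z : ℤ × ℤ) (hz : NZ 3 z) : MF M :=
  quadMF ⟨L.V 2, L.V 0, pt m z, L.V 0, L.nz_V 2, L.nz_V 0, nz_pt hM hz, L.nz_V 0,
    not_pm_pt hM hLm z⟩

theorem xF_mul_yF (z : ℤ × ℤ) (hz : NZ 3 z) :
    xF E L hM z hz * ofMF E (yMF hM hLm z hz) (quadMF_mem E _) = 1 := by
  apply fldGerm_injective E
  show fldGerm E (absF E L _ _ * quadF E _) = _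
  rw [map_mul, map_one, absF, fldGerm_quadF, fldGerm_quadF]
  refine Filter.Germ.coe_eq.2 (Filter.Eventually.of_forall fun τ => ?_)
  simp only [Quad.fn, absQuad]
  have h1 := Model.wpDiff_ne_zero (nz_pt hM hz) (L.nz_V 0) (not_pm_pt hM hLm z) τ
  have h2 := Model.wpDiff_ne_zero (L.nz_V 2) (L.nz_V 0)
    (L.not_pm L.valid2 L.valid0 (by decide)) τ
  field_simp

theorem xF_ne (z : ℤ × ℤ) (hz : NZ 3 z) : xF E L hM z hz ≠ 0 :=
  left_ne_zero_of_mul_eq_one (xF_mul_yF E hM hLm z hz)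

theorem xF_injective {z z' : ℤ × ℤ} (hz : NZ 3 z) (hz' : NZ 3 z') (h : ¬ PM 3 z z') :
    xF E L hM z hz ≠ xF E L hM z' hz' := by
  intro e
  obtain ⟨τ, hτ⟩ := exists_eq_of_quadF_eq E e
  simp only [Quad.fn, absQuad] at hτ
  have hne := Model.wpDiff_ne_zero (L.nz_V 2) (L.nz_V 0)
    (L.not_pm L.valid2 L.valid0 (by decide)) τ
  rw [div_left_inj' hne] at hτ
  refine Model.wpDiff_ne_zero (nz_pt hM hz) (nz_pt hM hz') ((pm_pt_iff hM z z').not.mpr h) τ ?_
  simp only [Model.wpDiff] at hτ ⊢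
  rw [← sub_eq_zero, ← sub_div] at hτ
  linear_combination hτ

/-- The relation of the abscissae of points of order three. -/
theorem xF_equation (z : ℤ × ℤ) (hz : NZ 3 z) :
    3 * xF E L hM z hz ^ 4 - 4 * (1 + lamF E L) * xF E L hM z hz ^ 3 +
      6 * lamF E L * xF E L hM z hz ^ 2 - lamF E L ^ 2 = 0 := by
  classical
  haveI := charZero_germC ultraInf
  obtain ⟨P, hP0, hP⟩ := exists_divisionHom E L hLm
  obtain ⟨y, hns, hy⟩ := hP (pt m z) (nz_pt hM hz)
  have h3 : 3 • P (pt m z) = 0 := by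
    rw [← map_nsmul]
    refine (hP0 _).2 fun h => h ⟨Dvd.intro z.1 ?_, Dvd.intro z.2 ?_⟩ <;>
      simp [pt, hM, mul_assoc]
  rw [hy] at h3
  obtain ⟨-, s, d, f⟩ := flex_of_order_three hns h3
  have he := (WeierstrassCurve.Affine.equation_iff ..).1 hns.1
  simp only [legendre, zero_mul, add_zero] at he
  apply fldGerm_injective E
  simp only [map_sub, map_add, map_mul, map_pow, map_zero, map_one, map_ofNat]
  show 3 * fldGerm E (quadF E (absQuad L (pt m z) (nz_pt hM hz))) ^ 4 - _ + _ - _ = 0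
  rw [show xF E L hM z hz = quadF E (absQuad L (pt m z) (nz_pt hM hz)) from rfl]
  simp only [lamG] at d f he ⊢
  linear_combination -(4 * s ^ 2) * he +
    (2 * s * y + 3 * fldGerm E (quadF E (absQuad L (pt m z) (nz_pt hM hz))) ^ 2 -
      2 * (1 + fldGerm E (lamF E L)) * fldGerm E (quadF E (absQuad L (pt m z) (nz_pt hM hz))) +
      fldGerm E (lamF E L)) * d -
    4 * (fldGerm E (quadF E (absQuad L (pt m z) (nz_pt hM hz))) ^ 3 -
      (1 + fldGerm E (lamF E L)) * fldGerm E (quadF E (absQuad L (pt m z) (nz_pt hM hz))) ^ 2 +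
      fldGerm E (lamF E L) * fldGerm E (quadF E (absQuad L (pt m z) (nz_pt hM hz)))) * f

/-- The equation of the inverse abscissae. -/
theorem yF_equation (z : ℤ × ℤ) (hz : NZ 3 z) :
    (xF E L hM z hz)⁻¹ ^ 4 + (-6 / lamF E L) * (xF E L hM z hz)⁻¹ ^ 2 +
      (4 * (1 + lamF E L) / lamF E L ^ 2) * (xF E L hM z hz)⁻¹ + (-3 / lamF E L ^ 2) = 0 := by
  have h := xF_equation E hM hLm z hz
  have hx := xF_ne E hM hLm z hz
  have hl := (lamF_ne E (L := L) hLm).1
  field_simp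
  linear_combination -h

theorem fShift_xF {g : SL(2, ℤ)} (hg : g ∈ Gamma 2) (z : ℤ × ℤ) (hz : NZ 3 z)
    (z' : ℤ × ℤ) (hz' : NZ 3 z') (e : PM 3 (rowMul z g) z') :
    fShift E g (xF E L hM z hz) = xF E L hM z' hz' := by
  rw [xF, fShift_absF E hLm hg]
  refine absF_congr E _ _ ?_
  rw [rowMul_pt]
  exact (pm_pt_iff hM _ _).mpr e

variable [IsDiscreteValuationRing O] {π : O} (h3O : (3 : O) ∈ maximalIdeal O)
include h3O

theorem lamF_chart :
    lamF E L ∈ chartRing O (jF E) ∧ (lamF E L)⁻¹ ∈ chartRing O (jF E) := by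
  have hj := jF_mul_lamF E (L := L) hLm
  have hl := (lamF_ne E (L := L) hLm).1
  refine ⟨lam_mem_chart (isUnit_two h3O) hj, lam_mem_chart (isUnit_two h3O) ?_⟩
  field_simp
  linear_combination hj

/-- The inverse abscissa and three times the abscissa are in the chart. -/
theorem yF_chart (z : ℤ × ℤ) (hz : NZ 3 z) :
    (xF E L hM z hz)⁻¹ ∈ chartRing O (jF E) ∧ 3 * xF E L hM z hz ∈ chartRing O (jF E) := by
  set B := chartRing O (jF E)
  obtain ⟨hl, hl'⟩ := lamF_chart E hM hLm h3O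
  have hn : ∀ k : ℕ, (k : Fld E) ∈ B := fun k => natCast_mem B k
  have h4 : (4 : Fld E) ∈ B := hn 4
  have h3 : (3 : Fld E) ∈ B := hn 3
  have h6 : (6 : Fld E) ∈ B := hn 6
  constructor
  · have hp : -6 / lamF E L ∈ B := by rw [div_eq_mul_inv]; exact mul_mem (neg_mem h6) hl'
    have hr : 4 * (1 + lamF E L) / lamF E L ^ 2 ∈ B := by
      rw [div_eq_mul_inv, ← inv_pow]; exact mul_mem (mul_mem h4 (add_mem (one_mem _) hl)) (pow_mem hl' 2)
    have hs : -3 / lamF E L ^ 2 ∈ B := by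
      rw [div_eq_mul_inv, ← inv_pow]; exact mul_mem (neg_mem h3) (pow_mem hl' 2)
    refine chart_closed ⟨X ^ 4 + C (⟨_, hp⟩ : B) * X ^ 2 + C (⟨_, hr⟩ : B) * X + C (⟨_, hs⟩ : B),
      by monicity!, ?_⟩
    simp only [eval₂_add, eval₂_mul, eval₂_pow, eval₂_X, eval₂_C]
    exact yF_equation E hM hLm z hz
  · have hp : -4 * (1 + lamF E L) ∈ B := mul_mem (neg_mem h4) (add_mem (one_mem _) hl)
    have hr : 18 * lamF E L ∈ B := mul_mem (hn 18) hl
    have hs : -27 * lamF E L ^ 2 ∈ B := mul_mem (neg_mem (hn 27)) (pow_mem hl 2)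
    refine chart_closed ⟨X ^ 4 + C (⟨_, hp⟩ : B) * X ^ 3 + C (⟨_, hr⟩ : B) * X ^ 2 +
      C (⟨_, hs⟩ : B), by monicity!, ?_⟩
    simp only [eval₂_add, eval₂_mul, eval₂_pow, eval₂_X, eval₂_C]
    show (3 * xF E L hM z hz) ^ 4 + -4 * (1 + lamF E L) * (3 * xF E L hM z hz) ^ 3 +
      18 * lamF E L * (3 * xF E L hM z hz) ^ 2 + -27 * lamF E L ^ 2 = 0
    linear_combination 27 * xF_equation E hM hLm z hz

/-- Units and non-units at a Gauss place. -/
theorem coeff_gauss (hπ : Irreducible π) (δ : SL(2, ℤ)) :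
    -6 / lamF E L ∈ gaussP E hπ δ ∧
      IsU (gaussP E hπ δ) (4 * (1 + lamF E L) / lamF E L ^ 2) ∧
      -3 / lamF E L ^ 2 ∈ (gaussP E hπ δ).nonunits ∧ IsU (gaussP E hπ δ) (lamF E L) := by
  set G := gaussP E hπ δ
  obtain ⟨hl, hl'⟩ := lamF_chart E hM hLm h3O
  have hlG : lamF E L ∈ G := (chart_le_gaussP E hπ δ).1 _ hl
  have hlG' : (lamF E L)⁻¹ ∈ G := (chart_le_gaussP E hπ δ).1 _ hl'
  have hlU : IsU G (lamF E L) := Models.isU_iff.mpr ⟨(lamF_ne E (L := L) hLm).1, hlG, hlG'⟩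
  have hjU : IsU G (jF E) := Models.isU_iff.mpr ⟨jF_ne_zero E,
    (chart_le_gaussP E hπ δ).1 _ (Model.self_mem_chartRing _),
    (chart_le_gaussP E hπ δ).2 _ (Model.self_mem_chartRing _)⟩
  have hn : ∀ k : ℕ, (k : Fld E) ∈ G := fun k => natCast_mem G k
  have h3n : (3 : Fld E) ∈ G.nonunits := by
    obtain ⟨c, hc⟩ := Ideal.mem_span_singleton.mp (hπ.maximalIdeal_eq ▸ h3O)
    rw [← map_ofNat (algebraMap O (Fld E)) 3, hc, map_mul, ValuationSubring.mem_nonunits_iff, map_mul]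
    refine mul_lt_one_of_lt_of_le ((G.mem_nonunits_iff).mp (uniformizer_gaussP E hπ δ).1)
      ((ValuationSubring.valuation_le_one_iff _ _).mpr ?_)
    rw [mem_gaussP, serAt_algebraMap]
    exact algebraMap_mem_gaussRing hπ _
  have h4U : IsU G (4 : Fld E) := by
    obtain ⟨u, hu⟩ := (isUnit_two h3O).pow 2
    have e : (4 : Fld E) = algebraMap O (Fld E) u := by rw [hu, map_pow, map_ofNat]; norm_num
    refine Models.isU_iff.mpr ⟨by rw [e]; exact ((u.isUnit).map _).ne_zero, hn 4, ?_⟩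
    rw [e, ← map_units_inv, mem_gaussP, serAt_algebraMap]
    exact algebraMap_mem_gaussRing hπ _
  have hN : ∀ k : ℕ, (((k : ℕ) : G) : Fld E) = (k : Fld E) := fun k => map_natCast G.subtype k
  have h1U : IsU G (1 + lamF E L) := by
    refine ⟨add_mem G.one_mem hlG, fun h0 => hjU.2 ?_⟩
    rw [Models.rs_of_mem hjU.1]
    rw [Models.rs_of_mem (add_mem G.one_mem hlG)] at h0
    have hj := jF_mul_lamF E (L := L) hLm
    have e : (⟨_, hjU.1⟩ : G) * ((⟨_, hlG⟩ : G) ^ 2 * ((⟨_, hlG⟩ : G) - 1) ^ 2) =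
        ((256 : ℕ) : G) * (((⟨_, hlG⟩ : G) + 1) ^ 2 - ((3 : ℕ) : G) * ⟨_, hlG⟩) ^ 3 :=
      Subtype.ext (by
        simp only [MulMemClass.coe_mul, SubmonoidClass.coe_pow, AddSubgroupClass.coe_sub,
          AddMemClass.coe_add, OneMemClass.coe_one, hN]
        push_cast; linear_combination hj)
    have h3r : residue G ((3 : ℕ) : G) = 0 := by
      rw [residue_eq_zero_iff, ← G.coe_mem_nonunits_iff]
      exact_mod_cast h3n
    have hl1 : residue G (⟨_, hlG⟩ : G) = -1 := by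
      refine eq_neg_of_add_eq_zero_left ?_
      rw [← map_one (residue G), ← map_add]
      refine Eq.trans (congrArg _ (Subtype.ext ?_)) h0
      push_cast; ring
    have e' := congrArg (residue G) e
    simp only [map_mul, map_sub, map_pow, map_add, map_one, hl1, h3r] at e'
    have h4 : ((4 : ℕ) : ResidueField G) ≠ 0 := by
      intro hz
      rw [← map_natCast (residue G), residue_eq_zero_iff, ← G.coe_mem_nonunits_iff, hN] at hz
      exact h4U.2 (Models.rs_eq_zero_of_nonunit (by exact_mod_cast hz))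
    push_cast at h4
    refine (mul_eq_zero.mp (?_ : residue G (⟨_, hjU.1⟩ : G) * 4 = 0)).resolve_right h4
    linear_combination e'
  refine ⟨?_, (h4U.mul h1U).div (hlU.pow 2), ?_, hlU⟩
  · rw [div_eq_mul_inv]; exact mul_mem (neg_mem (hn 6)) hlG'
  · rw [ValuationSubring.mem_nonunits_iff, div_eq_mul_inv, map_mul, Valuation.map_neg]
    exact mul_lt_one_of_lt_of_le ((G.mem_nonunits_iff).mp h3n)
      ((ValuationSubring.valuation_le_one_iff _ _).mpr (by rw [← inv_pow]; exact pow_mem hlG' 2))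

theorem three_fld_ne : (3 : Fld E) ≠ 0 := fun h => by
  have h1 := congrArg (toLS E) h
  rw [map_zero, map_ofNat, ← map_ofNat (HahnSeries.C : ℂ →+* LaurentSeries ℂ) 3] at h1
  exact three_ne_zero (HahnSeries.C_injective (h1.trans HahnSeries.C.map_zero.symm))

variable (h2m : 2 ∣ m) (h3m : ¬ 3 ∣ m)
include h2m h3m

/-- The values at the places over zero and over infinity. -/
theorem yF_gauss (hπ : Irreducible π) (h01 : NZ 3 (0, 1)) :
    IsU (gaussP E hπ ModularGroup.S) (xF E L hM (0, 1) h01)⁻¹ ∧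
      IsU (gaussP E hπ 1) (3 * xF E L hM (0, 1) h01) := by
  have h3 : ¬ (3 : ℤ) ∣ m := fun h => h3m (Int.natCast_dvd_natCast.mp h)
  obtain ⟨k, hk⟩ := h2m
  have h10 : NZ 3 (1, 0) := by simp [NZ]
  have key : ∀ (δ h : SL(2, ℤ)) (hh : h ∈ Gamma 2) (r : ℤ) (_ : h * δ = δ * ModularGroup.T ^ r)
      (za zb zc zd : ℤ × ℤ) (ha : NZ 3 za) (hb : NZ 3 zb) (hc : NZ 3 zc) (hd : NZ 3 zd),
      PM 3 (rowMul zb h) zc → PM 3 (rowMul zc h) zd →
      ¬ PM 3 za zb → ¬ PM 3 za zc → ¬ PM 3 za zd → ¬ PM 3 zb zc → ¬ PM 3 zb zd → ¬ PM 3 zc zd →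
      IsU (gaussP E hπ δ) (xF E L hM zb hb)⁻¹ ∧ IsU (gaussP E hπ δ) (3 * xF E L hM za ha) := by
    intro δ h hh r hδ za zb zc zd ha hb hc hd ebc ecd nab nac nad nbc nbd ncd
    obtain ⟨hp, hr, -, hlU⟩ := coeff_gauss E hM hLm h3O hπ δ
    have hinj : ∀ {z z'} (hz : NZ 3 z) (hz' : NZ 3 z'), ¬ PM 3 z z' →
        (xF E L hM z hz)⁻¹ ≠ (xF E L hM z' hz')⁻¹ := fun hz hz' hn e =>
      xF_injective E hM hLm hz hz' hn (inv_injective e)
    have hmem : ∀ z hz, (xF E L hM z hz)⁻¹ ∈ gaussP E hπ δ := fun z hz =>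
      (chart_le_gaussP E hπ δ).1 _ (yF_chart E hM hLm h3O z hz).1
    have hinv : ∀ {z z'} (hz : NZ 3 z) (hz' : NZ 3 z'), PM 3 (rowMul z h) z' →
        ((xF E L hM z hz)⁻¹ ∈ (gaussP E hπ δ).nonunits ↔
          (xF E L hM z' hz')⁻¹ ∈ (gaussP E hπ δ).nonunits) := fun {z z'} hz hz' e => by
      rw [← fShift_xF E hM hLm hh z hz z' hz' e, ← map_inv₀, mem_nonunits_gaussP E hπ δ
        (x := fShift E h _), serAt_fShift, hδ, ← mem_nonunits_gaussP, gaussP_mul_T]
    have hl := (lamF_ne E (L := L) hLm).1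
    have hs0 : -3 / lamF E L ^ 2 ≠ 0 :=
      div_ne_zero (neg_ne_zero.mpr (three_fld_ne E hM hLm h3O)) (pow_ne_zero _ hl)
    obtain ⟨hU, hV⟩ := isU_of_roots (gaussP E hπ δ) (hinj ha hb nab) (hinj ha hc nac)
      (hinj ha hd nad) (hinj hb hc nbc) (hinj hb hd nbd) (hinj hc hd ncd)
      (yF_equation E hM hLm za ha) (yF_equation E hM hLm zb hb) (yF_equation E hM hLm zc hc)
      (yF_equation E hM hLm zd hd) hp hr hs0 (hmem _ _) (hmem _ _) (hmem _ _)
      (hinv hb hc ebc) (hinv hc hd ecd)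
    refine ⟨hU, ?_⟩
    have hneg : IsU (gaussP E hπ δ) (-(lamF E L ^ 2)) := by
      obtain ⟨h0, h1, h2⟩ := Models.isU_iff.mp (hlU.pow 2)
      exact Models.isU_iff.mpr ⟨neg_ne_zero.mpr h0, neg_mem h1, by rw [inv_neg]; exact neg_mem h2⟩
    have := hV.mul hneg
    rwa [show -3 / lamF E L ^ 2 / (xF E L hM za ha)⁻¹ * -(lamF E L ^ 2) =
      3 * xF E L hM za ha by field_simp] at this
  have hT : ModularGroup.T ^ (m : ℤ) ∈ Gamma 2 := ModularGroup_T_pow_mem_Gamma 2 m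
    (by exact_mod_cast (⟨k, hk⟩ : 2 ∣ m))
  let h : SL(2, ℤ) := ⟨!![1, 0; -(m : ℤ), 1], by simp [Matrix.det_fin_two]⟩
  have hh : h ∈ Gamma 2 := by
    refine Gamma_mem.mpr ⟨by simp [h], by simp [h], ?_, by simp [h]⟩
    have : ((-(m : ℤ) : ℤ) : ZMod 2) = 0 := (ZMod.intCast_zmod_eq_zero_iff_dvd _ 2).mpr
      (dvd_neg.mpr (by exact_mod_cast (⟨k, hk⟩ : 2 ∣ m)))
    simpa [h] using this
  have hhS : h * ModularGroup.S = ModularGroup.S * ModularGroup.T ^ (m : ℤ) := by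
    ext i j
    fin_cases i <;> fin_cases j <;>
      simp [h, -zpow_natCast, ModularGroup.coe_S, ModularGroup.coe_T_zpow, Matrix.mul_apply,
        Fin.sum_univ_two]
  constructor
  · refine (key ModularGroup.S h hh m hhS (1, 0) (0, 1) (-(m : ℤ), 1) (-2 * (m : ℤ), 1) h10 h01
      ?_ ?_ ?_ ?_ ?_ ?_ ?_ ?_ ?_ ?_).1
    all_goals simp only [NZ, PM, rowMul, h, Matrix.cons_val', Matrix.cons_val_zero,
      Matrix.cons_val_one, Matrix.of_apply, Nat.cast_ofNat, Matrix.cons_val_fin_one]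
    all_goals omega
  · refine (key 1 (ModularGroup.T ^ (m : ℤ)) hT m (by rw [mul_one, one_mul]) (0, 1) (1, 0)
      (1, (m : ℤ)) (1, 2 * (m : ℤ)) h01 h10 ?_ ?_ ?_ ?_ ?_ ?_ ?_ ?_ ?_ ?_).2
    all_goals simp only [NZ, PM, rowMul, ModularGroup.coe_T_zpow, Matrix.cons_val',
      Matrix.cons_val_zero, Matrix.cons_val_one, Matrix.of_apply, Nat.cast_ofNat,
      Matrix.cons_val_fin_one]
    all_goals omega

/-- A unit off the special fibre with orders `e` over infinity and `0` over zero. -/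
theorem exists_unit_three (hπ : Irreducible π) :
    ∃ (φ : MF M) (hK : serAlg M φ ∈ kSer E.K), (∀ g ∈ levelG 3 m, shift M g φ = φ) ∧
      ofMF E φ hK ∈ chartRing O (jF E) ∧ 3 / ofMF E φ hK ∈ chartRing O (jF E) ∧
      ofMF E φ hK ≠ 0 ∧ IsU (gaussP E hπ ModularGroup.S) (ofMF E φ hK) ∧
      IsU (gaussP E hπ 1) (3 / ofMF E φ hK) := by
  have h01 : NZ 3 (0, 1) := by simp [NZ]
  have hy : ofMF E (yMF hM hLm (0, 1) h01) (quadMF_mem E _) = (xF E L hM (0, 1) h01)⁻¹ :=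
    eq_inv_of_mul_eq_one_right (xF_mul_yF E hM hLm _ h01)
  have hg := yF_gauss E hM hLm h3O h2m h3m hπ h01
  have hc := yF_chart E hM hLm h3O (0, 1) h01
  refine ⟨yMF hM hLm (0, 1) h01, quadMF_mem E _, fun g hgG => ?_, ?_, ?_, ?_, ?_, ?_⟩
  rotate_left
  · rw [hy]; exact hc.1
  · rw [hy, div_inv_eq_mul]; exact hc.2
  · rw [hy]; exact inv_ne_zero (xF_ne E hM hLm _ h01)
  · rw [hy]; exact hg.1
  · rw [hy, div_inv_eq_mul]; exact hg.2
  have hg2 : g ∈ Gamma 2 := gamma_mono_mem h2m (mem_levelG.mp hgG).2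
  have e : PM 3 (rowMul (0, 1) g) (0, 1) := by
    have hc3 : ((g 1 0 : ℤ) : ZMod 3) = 0 := Gamma0_mem.mp (mem_levelG.mp hgG).1
    have hdet := congrArg (fun x : ℤ => (x : ZMod 3)) g.det_coe
    rw [Matrix.det_fin_two] at hdet
    push_cast at hdet
    rw [hc3, mul_zero, sub_zero] at hdet
    have hd : ((g 1 1 : ℤ) : ZMod 3) = 1 ∨ ((g 1 1 : ℤ) : ZMod 3) = -1 :=
      (show ∀ a d : ZMod 3, a * d = 1 → d = 1 ∨ d = -1 by decide) _ _ hdet
    have hc' : (3 : ℤ) ∣ g 1 0 := (ZMod.intCast_zmod_eq_zero_iff_dvd _ 3).mp hc3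
    rcases hd with hd | hd
    · refine Or.inl ⟨by simpa [rowMul] using hc', ?_⟩
      refine (ZMod.intCast_zmod_eq_zero_iff_dvd _ 3).mp ?_
      simp [rowMul, hd]
    · refine Or.inr ⟨by simpa [rowMul] using hc', ?_⟩
      refine (ZMod.intCast_zmod_eq_zero_iff_dvd _ 3).mp ?_
      simp [rowMul, hd]
  have hx : fShift E g (ofMF E (yMF hM hLm (0, 1) h01) (quadMF_mem E _)) =
      ofMF E (yMF hM hLm (0, 1) h01) (quadMF_mem E _) := by
    rw [hy, map_inv₀, fShift_xF E hM hLm hg2 _ h01 _ h01 e]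
  rw [ofMF, fShift_toFld] at hx
  exact congrArg Subtype.val (toFld_injective E hx)

end Fermat.Agent.R59.AtP
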