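/-
S59, unit F1p: a constant exponent of an eigen Kummer function vanishes also at `q = 3`.

Justification: `GalRep/WildModel/GapA` with, instead of the unit `Δ(qτ)/Δ(τ)` (node exponent
`12`), the inverse abscissa of a point of order three (exponent `1`, `AtP/ExpUnit`), and
`GalRep/Ordinary/OffRootsOdd` for the roots off the special fibre.
-/
import Fermat.Agent.R59.Lower.AtP.ExpUnit
import Fermat.Agent.R59.Lower.AtP.ExpTransfer
import Fermat.Agent.GalRep.Ordinary.OffRootsOdd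

set_option autoImplicit false
set_option linter.style.haveILetI false
set_option linter.unusedSectionVars false

noncomputable section

namespace Fermat.Agent.R59.AtP

open UpperHalfPlane CongruenceSubgroup IsLocalRing
open Fermat.Agent.GalRep Fermat.Agent.GalRep.Level
open Fermat.Agent.ModField
open Fermat.Agent.NewVec
open Fermat.Agent.GalRep.InertiaBase
open Fermat.Agent.GalRep.Semistable (ChartsSemi)
open Fermat.Agent.GalRep.WildModel (irreducible_rUnif exists_rBase_zeta exists_transfer_eq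
  levelG_le_gamma0 isWildModel expEq_of_dvd)
open Fermat.Agent.Models (ExpEq)
open scoped MatrixGroups

variable {A : ValuationSubring (AlgebraicClosure ℚ)} {L : IntermediateField ℚ (AlgebraicClosure ℚ)}
  [FiniteDimensional ℚ L] [Normal ℚ L] {q m N : ℕ} [NeZero (q * m)] [NeZero N] [Fact q.Prime]
  [NeZero q]

/-- `GalRep.WildModel.expEq_zero` at `q = 3`. -/
theorem expEq_zero_three (hq : q.Prime) (hA : A.LiesOverPrime q) (hq3 : q = 3) (hqm : ¬ q ∣ m)
    (h2 : 2 ∣ m) (h6 : 6 ≤ m)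
    (hζ : zetaQ (q * m) ∈ L) (hcharts : ChartsSemi A q m) [IsDiscreteValuationRing (rBase A L)]
    (hN : N ∣ q * m) (l : GoodPrime N) (hl : ((l : ℕ) : ZMod (q * m)) = 1) {a : ZMod q}
    (ha : a ≠ ((l : ℕ) : ZMod q) + 1) {χ : ParHom N (ZMod q)} (heig : heckeHomAt l χ = a • χ)
    {F : ℍ → ℂ} (hF : IsRepG (Gamma0 N) q χ F) {b : bddMF (embR A L hζ)}
    (hb : ((b : MF (q * m)) : ℍ → ℂ) = F ^ q) {f : rTop A L hζ q m} (hf0 : f ≠ 0)
    (hf : (f : Fld (embR A L hζ)) = toFld (embR A L hζ) b) {s : ℕ}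
    (hs₀ : ExpEq (model₀ (rBase A L) (embR A L hζ) q m).B₀ (rUnif hq hA)
      (twoP (rBase A L) (embR A L hζ) q m (irreducible_rUnif hq hA)) (rIdx (L := L) hq hA)
      (algebraMap (wTop A (q * m) q m) (rTop A L hζ q m)).fieldRange q f s)
    (hs₁ : ExpEq (model₀ (rBase A L) (embR A L hζ) q m).B₁ (rUnif hq hA)
      (twoP (rBase A L) (embR A L hζ) q m (irreducible_rUnif hq hA)) (rIdx (L := L) hq hA)
      (algebraMap (wTop A (q * m) q m) (rTop A L hζ q m)).fieldRange q f s) :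
    ExpEq (model₀ (rBase A L) (embR A L hζ) q m).B₀ (rUnif hq hA)
        (twoP (rBase A L) (embR A L hζ) q m (irreducible_rUnif hq hA)) (rIdx (L := L) hq hA)
        (algebraMap (wTop A (q * m) q m) (rTop A L hζ q m)).fieldRange q f 0 ∧
      ExpEq (model₀ (rBase A L) (embR A L hζ) q m).B₁ (rUnif hq hA)
        (twoP (rBase A L) (embR A L hζ) q m (irreducible_rUnif hq hA)) (rIdx (L := L) hq hA)
        (algebraMap (wTop A (q * m) q m) (rTop A L hζ q m)).fieldRange q f 0 := by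
  suffices h0 : q ∣ s from ⟨expEq_of_dvd hs₀ h0, expEq_of_dvd hs₁ h0⟩
  set ℓ : ℕ := (l : ℕ)
  have hg := goodIndex l
  haveI : Fact ℓ.Prime := ⟨hg.prime⟩
  haveI : NeZero ℓ := ⟨hg.prime.ne_zero⟩
  have hqM : q ∣ q * m := dvd_mul_right q m
  have hmM : m ∣ q * m := dvd_mul_left m q
  have hql : ¬ q ∣ ℓ := fun h => by
    have hℓq : ((ℓ : ℕ) : ZMod q) = 1 := by
      have := congrArg (ZMod.castHom hqM (ZMod q)) hl
      rwa [map_natCast, map_one] at this
    rw [(ZMod.natCast_eq_zero_iff ℓ q).mpr h] at hℓq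
    exact zero_ne_one hℓq
  obtain ⟨z, hz, hzu⟩ := exists_rBase_zeta (A := A) (L := L) hζ hq hA hql
  obtain ⟨g, H, c₁, c₂, hc₁, hc₂, hH, hgser, hgeq⟩ := exists_transfer_eq hqM hmM
    (baseK_self (hζ := hζ)) (fun γ hγ => levelG_le_gamma0 hq hqm hN hγ) hg hl
    (hz ▸ (embR A L hζ).φ_mem z) heig hF hb hf
  have hW := isWildModel hq hA hqm hζ hcharts
  obtain ⟨n, hn⟩ := h2
  let Lv : GalRep.Model.Lev (q * m) :=
    { m := 2, e := 3 * n, hm := Or.inl rfl, eq := by rw [hq3, hn]; ring, five := by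
        rw [hq3]; omega }
  have h3O : (3 : rBase A L) ∈ maximalIdeal (rBase A L) := by
    obtain ⟨u, hu⟩ := hW.natCast_eq
    rw [show ((q : ℕ) : rBase A L) = 3 from (congrArg Nat.cast hq3).trans Nat.cast_ofNat] at hu
    rw [hu, IsLocalRing.mem_maximalIdeal]
    exact fun hu' => hW.irreducible.not_isUnit ((isUnit_pow_iff hW.e_pos.ne').mp
      (isUnit_of_mul_isUnit_right hu'))
  obtain ⟨φ, hK, hG, hB, hB', hφ0, hS, h1⟩ := exists_unit_three (embR A L hζ) (m := m)
    (show q * m = 3 * m by rw [hq3]) (L := Lv) rfl h3O ⟨n, hn.trans (by ring)⟩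
    (fun h => hqm (hq3 ▸ h)) (irreducible_rUnif hq hA)
  have h3 : ((q : ℕ) : Fld (embR A L hζ)) = 3 := (congrArg Nat.cast hq3).trans Nat.cast_ofNat
  exact dvd_exponent_level_one (irreducible_rUnif hq hA) hW hqM hmM (baseK_self (hζ := hζ)) hl hz
    hzu hK (hq3 ▸ hG) hB (by rw [h3]; exact hB') hφ0 hS (by rw [h3]; exact h1) hf0
    (Ordinary.off_roots_kummer_odd hq hA (by omega) ⟨n, hn.trans (by ring)⟩ hqm rfl hN hF hb hf0 hf).1
    hs₀ ha hc₁ hc₂ hH hgser hgeq

end Fermat.Agent.R59.AtP
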