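/-
S59, unit F1p: climbing past the critical level. A class with a trivialisation modulo the
uniformiser whose norms vanish climbs to the critical level; there `s x - ω(s) x` climbs once more
for every element of inertia, so it vanishes.
-/
import Fermat.Agent.GalRep.Ordinary.NoOrdInKer
import Fermat.Agent.GalRep.WildModel.Restrict

set_option autoImplicit false
set_option linter.style.haveILetI false
set_option linter.unusedSectionVars false

noncomputable section

namespace Fermat.Agent.R59.AtP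

open UpperHalfPlane CongruenceSubgroup IsLocalRing
open Fermat.Agent.Galois (GQ)
open Fermat.Agent.GalRep Fermat.Agent.GalRep.Level
open Fermat.Agent.GalRep.InertiaBase
open Fermat.Agent.GalRep.Semistable
open Fermat.Agent.GalRep.Ordinary
open Fermat.Agent.ModField
open Fermat.Agent.NewVec
open Fermat.Agent.Models (Triv IsClass TrivialMod)
open scoped MatrixGroups

local notation "Qb" => AlgebraicClosure ℚ

variable {A : ValuationSubring (AlgebraicClosure ℚ)} {L : IntermediateField ℚ (AlgebraicClosure ℚ)}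
  [FiniteDimensional ℚ L]

/-- On the critical power of the uniformiser inertia acts through the character. -/
theorem residue_pow_tame {p m M : ℕ} [Fact p.Prime] [NeZero M] [Normal ℚ L]
    [IsLocalRing (rBase A L)]
    (hA : A.LiesOverPrime p) (hMm : M = p * m) (hζ : zetaQ M ∈ L)
    (s : A.inertiaSubgroupIn ℚ) {k : ℕ} {u : rBase A L} (hu : IsUnit u) (hk0 : 0 < k)
    (he : rVal A L u * rVal A L (rUnif (Fact.out : p.Prime) hA) ^ k = zetaQ M ^ m - 1)
    {v : rBase A L}
    (hv : rAct L s (rUnif (Fact.out : p.Prime) hA) = rUnif (Fact.out : p.Prime) hA * v) :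
    residue (rBase A L) (v ^ k) = omegaNat (p := p) (s : GQ) := by
  have hp : p.Prime := Fact.out
  haveI := (rBase_dvr (L := L) hp hA).1
  have hirr := (rBase_dvr (L := L) hp hA).2.2
  set ϖ := rUnif (L := L) hp hA
  set j := omegaNat (p := p) (s : GQ)
  have hsum : rAct L s u * v ^ k = u * ∑ i ∈ Finset.range j, (u * ϖ ^ k + 1) ^ i := by
    refine mul_left_cancel₀ (pow_ne_zero k hirr.ne_zero) (rVal_injective A L ?_)
    have h1 : rVal A L (u * ϖ ^ k + 1) = zetaQ M ^ m := by
      rw [map_add, map_mul, map_pow, he, map_one, sub_add_cancel]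
    calc rVal A L (ϖ ^ k * (rAct L s u * v ^ k))
        = rVal A L (rAct L s (u * ϖ ^ k)) := by rw [map_mul (rAct L s), map_pow, hv]; ring_nf
      _ = (zetaQ M ^ m) ^ j - 1 := by
          rw [rVal_rAct, map_mul, map_pow, he, map_sub, map_one,
            apply_root (p := p) (s : GQ) ((isPrimitiveRoot_mu hp hMm).pow_eq_one)]
      _ = rVal A L (ϖ ^ k * (u * ∑ i ∈ Finset.range j, (u * ϖ ^ k + 1) ^ i)) := by
          rw [← mul_assoc, mul_comm (ϖ ^ k) u]
          simp only [map_mul, map_sum, map_pow, h1]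
          rw [he, mul_geom_sum]
  have hres : residue (rBase A L) (rAct L s u) = residue (rBase A L) u := by
    rw [← sub_eq_zero, ← map_sub, residue_eq_zero_iff]
    exact rAct_sub_mem s u
  have hϖr : residue (rBase A L) ϖ = 0 :=
    (residue_eq_zero_iff _).mpr ((IsLocalRing.mem_maximalIdeal _).mpr hirr.not_isUnit)
  have h2 := congrArg (residue (rBase A L)) hsum
  simp only [map_mul, map_sum, map_pow, map_add, map_one, hres, hϖr, zero_pow hk0.ne', mul_zero,
    zero_add, one_pow, Finset.sum_const, Finset.card_range, nsmul_eq_mul, mul_one] at h2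
  rw [map_pow]
  exact mul_left_cancel₀ ((residue_ne_zero_iff_isUnit u).mpr hu) h2

omit [FiniteDimensional ℚ L] in
/-- At the critical level, modulo `π`, the class of `τ x * x ^ j` is `(u ^ k + j) δ`. -/
theorem triv_tame_sub {O F : Type} [CommRing O] [IsDomain O] [IsDiscreteValuationRing O] [Field F]
    [Algebra O F] {M : Models.Model O F} {π : O} {P : Bool → ValuationSubring F} {e p : ℕ}
    {F₀ : Subfield F} (h : Models.IsWildModel M π P e p F₀) {τ : F →+* F}
    (h₀ : ∀ b ∈ M.B₀, τ b ∈ M.B₀) (h₁ : ∀ b ∈ M.B₁, τ b ∈ M.B₁)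
    (t₀₁ : TrivialMod M.B₀₁ π τ) {u : O}
    (hu : τ (algebraMap O F π) = algebraMap O F (π * u)) {k : ℕ} (hk : 0 < k) (j : ℕ) {w : O}
    (hw : u ^ k + (j : O) = π * w) {hn : 0 < p} {x δ r₀ r₁ : F}
    (hc : IsClass M hn π x k δ r₀ r₁) : Triv M π p (τ x * x ^ j) (k + 1) := by
  have h1 := hc.map_of h₀ h₁ (fun z hz => t₀₁.map_mem hz) hu
  have hsplit : algebraMap O F (u ^ k) * τ δ + j • δ ∈ M.splitSub π := by
    obtain ⟨e', he, hee⟩ := t₀₁ δ hc.mem
    have h2 := congrArg (algebraMap O F) hw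
    rw [map_add, map_natCast, map_mul] at h2
    have e1 : algebraMap O F (u ^ k) * τ δ + j • δ =
        π • (algebraMap O F (u ^ k) * e' + algebraMap O F w * δ) := by
      rw [sub_eq_iff_eq_add'] at hee
      rw [hee, nsmul_eq_mul]
      simp only [Algebra.smul_def]
      linear_combination δ * h2
    rw [e1]
    exact h.smul_mem_splitSub (add_mem (mul_mem (M.B₀₁.algebraMap_mem _) he)
      (mul_mem (M.B₀₁.algebraMap_mem _) hc.mem))
  rcases Nat.eq_zero_or_pos j with hj | hj
  · rw [hj, pow_zero, mul_one]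
    rw [hj, zero_smul, add_zero] at hsplit
    exact h.triv_succ hk h1 hsplit
  · obtain ⟨i, hi⟩ := Nat.exists_eq_add_of_le' hj
    rw [hi] at hsplit ⊢
    exact h.triv_succ hk (h1.mul hk (hc.npow hk i)) hsplit

omit [FiniteDimensional ℚ L] in
theorem alg_sub {R T : Type} [CommRing R] [CommRing T] [Algebra R T] (τ : T →+* T) (a : R ≃+* R)
    (ha : ∀ r, τ (algebraMap R T r) = algebraMap R T (a r)) (c : R) (f : T) (j : ℕ) :
    algebraMap R T (a c * c ^ j) * (τ f * f ^ j) =
      τ (algebraMap R T c * f) * (algebraMap R T c * f) ^ j := by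
  rw [map_mul τ, ha, map_mul, map_pow, mul_pow]
  ring

variable [Normal ℚ L] {p m m' k : ℕ} [Fact p.Prime] [NeZero (p * m')] [NeZero p] [NeZero m]
  [NeZero m'] {g g' : SL(2, ℤ)} {hζ : zetaQ (p * m') ∈ L}
  [IsDiscreteValuationRing (rBase A L)]

local notation "hp" => (Fact.out : p.Prime)
local notation "EL" => embR A L hζ
local notation "RO" => rBase A L
local notation "FT" => rTop A L hζ p m'
local notation "Md" => model₀ RO EL p m'
local notation "Gl" => KummerGalois.galois (kummerGalois (p * m) p)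

/-- A representative of a multiple of a class. -/
theorem repG_nsmul {N : ℕ} [NeZero N] {χ : ParHom N (ZMod p)} {F : ℍ → ℂ}
    (hF : IsKummerRep N p χ F) : ∀ j : ℕ, IsKummerRep N p (j • χ) (F ^ j)
  | 0 => by rw [zero_smul, pow_zero]; exact IsKummerRep.one
  | j + 1 => by rw [succ_nsmul, pow_succ]; exact (repG_nsmul hF j).mul hF

variable (S : OrdSetup A p m m' g g')
include S

/-- At the critical level `σ x - ω(σ) x` climbs one step. -/
theorem goodAt_tame_sub {χ : ParHom (p * m) (ZMod p)} (hχ : GoodAt S.hA hζ χ k) (hk : 0 < k)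
    (σ : A.inertiaSubgroupIn ℚ) (n : ℕ) (hn : n ≤ p)
    (hu : ∀ v : RO, rAct L σ (rUnif hp S.hA) = rUnif hp S.hA * v →
      residue RO (v ^ k) = (n : ResidueField RO)) :
    GoodAt S.hA hζ (Gl (σ : GQ) χ + (p - n) • χ) (k + 1) := by
  obtain ⟨F, b, f, c, hF, hb, hf, hf0, hc, r₀, r₁, hr⟩ := hχ
  have hw := S.isWild (hζ := hζ)
  have hinj := hw.injective
  have hN : p * m ∣ p * m' := mul_dvd_mul_left p S.hmm
  set x := algebraMap RO FT c * f
  have hx : x ≠ 0 := mul_ne_zero ((map_ne_zero_iff _ hinj).mpr hc) hf0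
  obtain ⟨δ, hδ⟩ := hr.exists_class hx hw.prime.pos
  obtain ⟨F', b', hF', hb', hf'⟩ := WildModel.exists_conj_kummerFun rfl hN hF hb hf σ
  obtain ⟨v, hv⟩ := exists_rAct_rUnif (L := L) hp S.hA σ
  obtain ⟨t₀, t₁, t₀₁⟩ := tauTop_trivial (hζ := hζ) S.hA S.hpm' S.hcharts σ
  have hτπ : tauTop hζ rfl σ (algebraMap RO FT (rUnif hp S.hA)) =
      algebraMap RO FT (rUnif hp S.hA * (v : RO)) := by
    rw [tauTop_algebraMap, hv]
  set j := p - n
  refine ⟨F' * F ^ j, b' * b ^ j, tauTop hζ rfl σ f * f ^ j, rAct L σ c * c ^ j,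
    repG_of_kummer ((IsRepG.kummer hF').mul (repG_nsmul (IsRepG.kummer hF) j)), ?_, ?_,
    mul_ne_zero ((map_ne_zero (tauTop hζ rfl σ)).mpr hf0) (pow_ne_zero _ hf0),
    mul_ne_zero ((map_ne_zero_iff _ (rAct L σ).injective).mpr hc) (pow_ne_zero _ hc), ?_⟩
  · rw [mul_pow, ← hb', ← pow_mul, mul_comm j p, pow_mul, ← hb]
    rfl
  · rw [map_mul, map_pow, ← hf', ← hf]
    rfl
  obtain ⟨w, hw'⟩ : rUnif hp S.hA ∣ (v : RO) ^ k + (j : RO) := by
    rw [← Ideal.mem_span_singleton, ← hw.irreducible.maximalIdeal_eq, ← residue_eq_zero_iff,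
      map_add, map_natCast, hu v hv, ← Nat.cast_add, Nat.add_sub_cancel' hn,
      ← map_natCast (residue RO), residue_eq_zero_iff]
    exact S.natCast_mem
  exact (alg_sub (tauTop hζ rfl σ) (rAct L σ) (fun r => tauTop_algebraMap rfl σ r) c f j).symm ▸
    triv_tame_sub hw (fun z hz => t₀.map_mem hz) (fun z hz => t₁.map_mem hz) t₀₁ hτπ hk j hw' hδ

/-- Below the critical level a class with vanishing norms climbs. -/
theorem goodAt_climb {x : ParHom (p * m) (ZMod p)} (hx : GoodAt S.hA hζ x 1)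
    (h1 : corR S.hg S.hpm x = 0) (h2 : corR S.hg S.hpm (alR S.hg x) = 0)
    {k : ℕ} (hk : 0 < k) (hcrit : k * (p - 1) = rIdx (L := L) hp S.hA) :
    GoodAt S.hA hζ x k := by
  suffices h : ∀ j, 0 < j → j ≤ k → GoodAt S.hA hζ x j from h k hk le_rfl
  intro j
  induction j with
  | zero => exact fun h => absurd h (lt_irrefl 0)
  | succ j ih =>
    intro _ hjk
    rcases Nat.eq_zero_or_pos j with rfl | hj
    · exact hx
    · exact S.goodAt_new (ih hj (by omega)) hj ((crit_arith (j := j) hcrit).1 (by omega)) h1 h2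

omit [IsDiscreteValuationRing (rBase A L)] in
/-- A class with vanishing norms and a trivialisation modulo the uniformiser has inertia acting
through the cyclotomic character, given an auxiliary prime. -/
theorem inertia_eq_omega_of_goodAt {x : ParHom (p * m) (ZMod p)}
    (hG : ∀ [IsDiscreteValuationRing (rBase A L)], GoodAt S.hA hζ x 1)
    (h1 : corR S.hg S.hpm x = 0) (h2 : corR S.hg S.hpm (alR S.hg x) = 0)
    (l : GoodPrime (p * m)) (hl : ((l : ℕ) : ZMod (p * m')) = 1) {a : ℤ}
    (hla : (a : ZMod p) ≠ ((l : ℕ) : ZMod p) + 1) (heig : heckeHomAt l x = a • x)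
    {s : GQ} (hs : s ∈ A.inertiaSubgroupIn ℚ) :
    Gl s x = omegaNat (p := p) s • x := by
  haveI := (rBase_dvr (L := L) hp S.hA).1
  obtain ⟨k, u, hk0, hk, hu, he⟩ := exists_crit (L := L) (M := p * m') S.hA rfl hζ
  set n := omegaNat (p := p) s
  have hn : n ≤ p := (ZMod.val_lt _).le
  have hG' := goodAt_tame_sub S (goodAt_climb S hG h1 h2 hk0 hk) hk0 ⟨s, hs⟩ n hn
    fun v hv => residue_pow_tame S.hA rfl hζ ⟨s, hs⟩ hu hk0 he hv
  have hcomm : heckeHomAt l (Gl s x) = Gl s (heckeHomAt l x) :=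
    (eq_heckeHom (goodIndex l) (kummerHeckeComm (p * m) p (kummerGalois (p * m) p) l s _ _
      (isHeckeTransfer_heckeHom (goodIndex l) x))).symm
  have hz := WildModel.eq_zero_of_heckeHomAt (M := p * m') S.dvd_level l hl hla _
    (show heckeHomAt l (Gl s x + (p - n) • x) = (a : ZMod p) • (Gl s x + (p - n) • x) by
      rw [map_add, map_nsmul, hcomm, heig, map_zsmul, Int.cast_smul_eq_zsmul, smul_add,
        smul_comm])
    fun γ hγ => S.eq_zero_of_goodAt S.dvd_level hG' (Nat.succ_pos k)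
      ((crit_arith (j := k) hk).2) γ hγ
  have hp0 : p • x = 0 := Semistable.parHom_nsmul_self x
  rw [← add_zero (n • x), ← hz]
  have : n • x + (p - n) • x = 0 := by rw [← add_nsmul, Nat.add_sub_cancel' hn, hp0]
  rw [add_left_comm, this, add_zero]

end Fermat.Agent.R59.AtP
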