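import Fermat.Agent.GalRep.Wild.DlogZero
import Fermat.Agent.LL.Mazur.RedOrd

/-!
S59, unit F1p: orders of the reduced series in characteristic three.
-/

set_option autoImplicit false
set_option linter.style.haveILetI false
set_option linter.unusedSectionVars false

noncomputable section

namespace Fermat.Agent.R59.AtP

open IsLocalRing ModularCurve AlgebraicCurve
open Fermat.Agent.MCurve Fermat.Agent.MCurve.Spec Fermat.Agent.MCurve.SpecialDifferential
open Fermat.Agent.ModField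
open Fermat.Agent.Models (IsWildModel HasRootAt)
open Fermat.Agent.GalRep Fermat.Agent.GalRep.Level

section Theta

variable {k : Type} [Field k] [IsAlgClosed k] {p : ℕ} [Fact p.Prime] {m : ℕ} [NeZero m]

/-- `thetaL_eq_zero_of_no_theta` with the hypothesis on orders at places. -/
theorem thetaL_eq_zero_of_ord [CharP k p] (hind : RedIndependent k m)
    (hpm : ¬ p ∣ m) (h : LaurentSeries k)
    (hF : h ∈ modularFunctionFieldFullC k m) (h0 : h ≠ 0)
    (hord : ∀ Q : Place k (modularFunctionFieldFullC k m),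
      (p : ℤ) ∣ Q.ord (⟨h, hF⟩ : modularFunctionFieldFullC k m))
    (S : Finset ℕ) (hmS : ∀ q : ℕ, q.Prime → q ∣ m → q ∈ S) (a : ℕ → k)
    (heig : ∀ w : PowerSeries k,
      HahnSeries.ofPowerSeries ℤ k w * h = thetaL h →
      ∀ ℓ : ℕ, ℓ.Prime → ¬ ℓ ∣ m → ℓ ∉ S → ∀ n : ℕ, PowerSeries.coeff (n * ℓ) w +
        (if ℓ ∣ n then (ℓ : k) * PowerSeries.coeff (n / ℓ) w else 0) =
          a ℓ * PowerSeries.coeff n w)
    (hno : ∀ θ : CuspForm.heckeAlgebra m 2 (↑S : Set ℕ) →+* k,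
      ∃ (ℓ : ℕ) (hℓ : ℓ.Prime) (hℓm : ¬ ℓ ∣ m) (hℓS : ℓ ∉ (↑S : Set ℕ)),
        θ (CuspForm.heckeAlgebra.T hℓ hℓm hℓS) ≠ a ℓ) :
    thetaL h = 0 := by
  obtain ⟨w, hw, hwh⟩ := exists_dlog_mem_redSpace_of_ord hpm hind h hF h0 hord
  rcases eq_or_ne w 0 with rfl | hw0
  · rw [map_zero, zero_mul] at hwh
    exact hwh.symm
  obtain ⟨θ, hθ⟩ := Newform.exists_theta_of_series (↑S : Set ℕ) (fun q hq hqm => hmS q hq hqm) w hw0
    hw a fun ℓ hℓ hℓm hℓS n => heig w hwh ℓ hℓ hℓm (by simpa using hℓS) n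
  obtain ⟨ℓ, hℓ, hℓm, hℓS, hne⟩ := hno θ
  exact absurd (hθ ℓ hℓ hℓm hℓS) hne

end Theta

section Below

variable {k : Type} [Field k] [IsAlgClosed k] {K : Type} [Field K] {p m₀ : ℕ} [NeZero m₀]

/-- Under a zero of `jF` of order divisible by `p` whose exponent above is not divisible by `p²`, the
uniformiser below has exponent prime to `p`. -/
theorem exists_uniformiser_below (ι₀ : modularFunctionFieldFullC k m₀ →+* K)
    (Wv : ValuationSubring K) {u : K} (hu : u ≠ 0) (hu1 : Wv.valuation u < 1)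
    (hgen : ∀ x : K, x ≠ 0 → ∃ n : ℤ, Wv.valuation x = Wv.valuation u ^ n)
    (Q : Place k (modularFunctionFieldFullC k m₀)) (hWv : Wv.comap ι₀ = Q.toValuationSubring)
    (jF : modularFunctionFieldFullC k m₀) {n : ℕ} (hn0 : 0 < n) (hn : ¬ p * p ∣ n)
    (hv : Wv.valuation (ι₀ jF) = Wv.valuation u ^ n)
    (hzero : ∀ R : Place k (modularFunctionFieldFullC k m₀), 0 < R.ord jF → (p : ℤ) ∣ R.ord jF) :
    ∃ (n₁ : ℕ) (t : modularFunctionFieldFullC k m₀), ¬ p ∣ n₁ ∧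
      Wv.valuation (ι₀ t) = Wv.valuation u ^ n₁ := by
  have hne : Wv.valuation u ^ n ≠ 0 := pow_ne_zero n ((_root_.map_ne_zero _).mpr hu)
  have hlt : Wv.valuation u ^ n < 1 := pow_lt_one₀ zero_le hu1 hn0.ne'
  have hjm : jF ∈ Q.toValuationSubring := by
    rw [← hWv]
    exact (Wv.valuation_le_one_iff _).mp (hv ▸ hlt.le)
  have hj0 : jF ≠ 0 := fun h' => hne (by rw [← hv, h', map_zero, map_zero])
  have hunit : ∀ f : modularFunctionFieldFullC k m₀, f ≠ 0 → Q.ord f = 0 →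
      Wv.valuation (ι₀ f) = 1 := by
    intro f hf' h0
    have h1 := (MCurve.mem_iff_ord_nonneg Q hf').mpr h0.ge
    have h2 := (MCurve.mem_iff_ord_nonneg Q (inv_ne_zero hf')).mpr (by rw [Q.ord_inv, h0, neg_zero])
    rw [← hWv, ValuationSubring.mem_comap, ← Wv.valuation_le_one_iff] at h1 h2
    rw [map_inv₀, map_inv₀] at h2
    exact le_antisymm h1 ((inv_le_one₀ (zero_lt_iff.mpr
      ((_root_.map_ne_zero _).mpr ((_root_.map_ne_zero _).mpr hf')))).mp h2)
  have hpos : 0 < Q.ord jF := by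
    refine lt_of_le_of_ne ((MCurve.mem_iff_ord_nonneg Q hj0).mp hjm) fun h0 => ?_
    rw [hunit _ hj0 h0.symm] at hv
    exact hlt.ne hv.symm
  obtain ⟨t, ht, ht1⟩ := MCurve.exists_ord_eq_one Q
  obtain ⟨a, ha⟩ := hgen (ι₀ t) ((_root_.map_ne_zero ι₀).mpr ht)
  have hf1 : jF * t ^ (-Q.ord jF) ≠ 0 := mul_ne_zero hj0 (zpow_ne_zero _ ht)
  have h1 := hunit _ hf1 (by rw [Q.ord_mul hj0 (zpow_ne_zero _ ht), Q.ord_zpow, ht1]; ring)
  rw [map_mul, map_mul, map_zpow₀, map_zpow₀, ha, hv, ← zpow_mul, ← zpow_natCast,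
    ← zpow_add₀ ((_root_.map_ne_zero _).mpr hu)] at h1
  have he : (n : ℤ) + a * -Q.ord jF = 0 :=
    zpow_right_injective₀ (zero_lt_iff.mpr ((_root_.map_ne_zero _).mpr hu)) hu1.ne
      (h1.trans (zpow_zero _).symm)
  obtain ⟨b, hb'⟩ := hzero Q hpos
  change Q.ord jF = _ at hb'
  rw [hb'] at he hpos
  have hnab : (n : ℤ) = a * ((p : ℤ) * b) := by linear_combination he
  have ha0 : 0 ≤ a := le_of_lt (pos_of_mul_pos_left (by rw [← hnab]; exact_mod_cast hn0) hpos.le)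
  obtain ⟨a', rfl⟩ := Int.eq_ofNat_of_zero_le ha0
  refine ⟨a', t, fun hpa => hn ?_, by rw [ha, zpow_natCast]⟩
  refine Int.natCast_dvd_natCast.mp ?_
  rw [hnab, Nat.cast_mul]
  exact mul_dvd_mul (Int.natCast_dvd_natCast.mpr hpa) (dvd_mul_right _ _)

end Below

section Div

variable {k : Type} [Field k] {K : Subfield (LaurentSeries k)} {O : Type} [CommRing O] [IsDomain O] [IsDiscreteValuationRing O]
  {M : ℕ} [NeZero M] {E : Emb O M} {p m : ℕ} [Fact p.Prime] [NeZero m]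
  {m₀ : ℕ} [NeZero m₀] {π : O} {hπ : Irreducible π} {e : ℕ}
  {F₀ : Subfield (Fld₀ O E p m)}

/-- Roots everywhere make the orders of the reduced series divisible by `p`, tameness failing only
over `j = 0` where all orders below are divisible by `p`. -/
theorem hdiv_of_roots_triple [IsAlgClosed k] (hw : IsWildModel (model₀ O E p m) π (twoP O E p m hπ) e p F₀)
    (res : O →+* k) (hsurj : Function.Surjective res)
    (ρ : twoP O E p m hπ false →+* LaurentSeries k)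
    (hker : ∀ z, ρ z = 0 ↔ (z : Fld₀ O E p m) ∈ (twoP O E p m hπ false).nonunits)
    (hcst : ∀ o : O, ρ ⟨algebraMap O _ o, hw.algebraMap_mem false o⟩ =
      HahnSeries.C (res o))
    (hj : ∀ hmem : jF₀ O E p m ∈ twoP O E p m hπ false,
      ρ ⟨jF₀ O E p m, hmem⟩ = qExpand k m (jqModC k))
    (hK : ∀ z, ρ z ∈ K)
    (hqK : ∀ y ∈ modularFunctionFieldFullC k m₀, qExpand k m y ∈ K)
    (htame : ∀ Wv : ValuationSubring (K),
      (∀ (c : k) (hc : HahnSeries.C c ∈ K), (⟨_, hc⟩ : K) ∈ Wv) → Wv ≠ ⊤ →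
      ∃ u : K, u ≠ 0 ∧ Wv.valuation u < 1 ∧
        (∀ x : K, x ≠ 0 → ∃ n : ℤ, Wv.valuation x = Wv.valuation u ^ n) ∧
        ∃ n : ℕ, 0 < n ∧ ∀ (J : K),
          (J : LaurentSeries k) = qExpand k m (jqModC k) →
          ((∃ (c : k) (C : K), (C : LaurentSeries k) = HahnSeries.C c ∧
              Wv.valuation (J - C) = Wv.valuation u ^ n ∧ (¬ p ∣ n ∨ ¬ p * p ∣ n ∧ c = 0)) ∨
            ¬ p ∣ n ∧ Wv.valuation J⁻¹ = Wv.valuation u ^ n))
    (hzero : ∀ Q : AlgebraicCurve.Place k (modularFunctionFieldFullC k m₀),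
      0 < Q.ord (jFullC k m₀) → (p : ℤ) ∣ Q.ord (jFullC k m₀))
    {f : Fld₀ O E p m} (hf : f ∈ twoP O E p m hπ false)
    (hroots : Models.RootsEverywhere (model₀ O E p m) p f) (h : LaurentSeries k)
    (hF : h ∈ modularFunctionFieldFullC k m₀) (h0 : h ≠ 0)
    (hh : ρ ⟨f, hf⟩ = qExpand k m h)
    (Q : AlgebraicCurve.Place k (modularFunctionFieldFullC k m₀)) :
    (p : ℤ) ∣ Q.ord (⟨h, hF⟩ : modularFunctionFieldFullC k m₀) := by
  let ι : modularFunctionFieldFullC k m₀ →+* K :=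
    ((qExpand k m).comp (modularFunctionFieldFullC k m₀).val.toRingHom).codRestrict _
      fun y => hqK _ y.2
  obtain ⟨Wv, hWv⟩ := Models.exists_comap_eq ι Q.toValuationSubring
  have hιc : ∀ c : k, (ι (algebraMap k _ c) : LaurentSeries k) = HahnSeries.C c := fun c => by
    show qExpand k m (algebraMap k (LaurentSeries k) c) = _
    rw [algebraMap_laurentSeries_eq_single, ← HahnSeries.C_apply, qExpand_C]
  have hW : ∀ (c : k) (hc : HahnSeries.C c ∈ K), (⟨_, hc⟩ : K) ∈ Wv := by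
    intro c hc
    rw [show (⟨_, hc⟩ : K) = ι (algebraMap k _ c) from Subtype.ext (hιc c).symm]
    have := Q.algebraMap_mem' c
    rw [← hWv] at this
    exact this
  have htop : Wv ≠ ⊤ := fun h' => Q.ne_top' (by
    rw [← hWv, h']
    ext x
    simp only [ValuationSubring.mem_top, ValuationSubring.mem_comap])
  obtain ⟨u, hu, hu1, hgen, n, hn0, hJ⟩ := htame Wv hW htop
  let ρK : twoP O E p m hπ false →+* K := ρ.codRestrict _ hK
  have hkerK : ∀ z, ρK z = 0 ↔ (z : Fld₀ O E p m) ∈ (twoP O E p m hπ false).nonunits := fun z => by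
    rw [← hker z]
    exact ⟨fun h' => congrArg Subtype.val h', fun h' => Subtype.ext h'⟩
  set jF : modularFunctionFieldFullC k m₀ := jFullC k m₀
  have hιj : (ι jF : LaurentSeries k) = qExpand k m (jqModC k) := rfl
  have hcW : ∀ o : O, ρK ⟨algebraMap O _ o, hw.algebraMap_mem false o⟩ ∈ Wv := fun o => by
    have hC : HahnSeries.C (res o) ∈ K := hcst o ▸ hK _
    rw [show ρK _ = ⟨_, hC⟩ from Subtype.ext (hcst o)]
    exact hW _ hC
  have hjP : jF₀ O E p m ∈ twoP O E p m hπ false :=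
    hw.chart₀.fibre.le false _ (model₀ O E p m).w_mem
  have hρj : ρK ⟨jF₀ O E p m, hjP⟩ = ι jF := Subtype.ext ((hj hjP).trans hιj.symm)
  have hlt : Wv.valuation u ^ n < 1 := pow_lt_one₀ zero_le hu1 hn0.ne'
  have hne : Wv.valuation u ^ n ≠ 0 := pow_ne_zero n ((_root_.map_ne_zero _).mpr hu)
  have hfK : ρK ⟨f, hf⟩ = ι ⟨h, hF⟩ := Subtype.ext hh
  have hf0 : ρK ⟨f, hf⟩ ≠ 0 := fun h' => h0 (qExpand_injective m (by
    rw [← hh, map_zero]; exact congrArg Subtype.val h'))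
  obtain ⟨n₁, hn₁, y, hy, z, hz, hval⟩ : ∃ n₁ : ℕ, ¬ p ∣ n₁ ∧
      ∃ y, Wv.valuation (ι y) = Wv.valuation u ^ n₁ ∧
      ∃ z : K, z ≠ 0 ∧ Wv.valuation (ι ⟨h, hF⟩) = Wv.valuation z ^ p := by
    rcases hJ (ι jF) hιj with ⟨c, C, hC, hv, hn⟩ | ⟨hn, hv⟩
    · obtain ⟨o, ho⟩ := hsurj c
      have hC' : C = ι (algebraMap k _ c) := Subtype.ext (hC.trans (hιc c).symm)
      suffices hz' : ∃ z : K, z ≠ 0 ∧ Wv.valuation (ι ⟨h, hF⟩) = Wv.valuation z ^ p by
        rcases hn with hn | ⟨hn, hc⟩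
        · exact ⟨n, hn, jF - algebraMap k _ c, by rw [map_sub, ← hC']; exact hv, hz'⟩
        rw [show C = 0 from Subtype.ext (hC.trans (by rw [hc, map_zero]; rfl)), sub_zero] at hv
        obtain ⟨n₁, t, hn₁, ht⟩ :=
          exists_uniformiser_below ι Wv hu hu1 hgen Q hWv jF hn0 hn hv hzero
        exact ⟨n₁, hn₁, t, ht, hz'⟩
      have hb : ρK ⟨((⟨jF₀ O E p m, (model₀ O E p m).w_mem⟩ : (model₀ O E p m).B₀) -
          algebraMap O _ o : (model₀ O E p m).B₀),
            hw.chart₀.fibre.le false _ (Subtype.mem _)⟩ = ι jF - C := by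
        rw [← hρj, show C = ρK ⟨algebraMap O _ o, hw.algebraMap_mem false o⟩ from Subtype.ext
          (hC.trans ((hcst o).trans (congrArg _ ho)).symm), ← map_sub]
        exact congrArg ρK (Subtype.ext rfl)
      have hjW : ρK ⟨jF₀ O E p m, hjP⟩ ∈ Wv := by
        rw [hρj, ← sub_add_cancel (ι jF) C]
        exact add_mem ((Wv.valuation_le_one_iff _).mp (hv ▸ hlt.le))
          (by
            have := hW c (hC ▸ C.2)
            rwa [show (⟨HahnSeries.C c, hC ▸ C.2⟩ : K) = C from Subtype.ext hC.symm] at this)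
      obtain ⟨z, hz, hzv⟩ := hw.exists_reduced_pow hw.chart₀ (model₀ O E p m).w_mem false ρK hkerK
        Wv hcW (fun _ => hjW)
        ⟨_, fun h' => hne (by rw [← hv, ← hb, h', map_zero]), by rw [hb, hv]; exact hlt⟩
        hroots.1 hf hf0
      exact ⟨z, hz, hfK ▸ hzv⟩
    · refine ⟨n, hn, jF⁻¹, by rw [map_inv₀]; exact hv, ?_⟩
      have hinv : ∀ (x : Fld₀ O E p m) (hmem : x ∈ twoP O E p m hπ false),
          x = (jF₀ O E p m)⁻¹ → ρK ⟨x, hmem⟩ = (ι jF)⁻¹ := fun x hmem hx => by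
        subst hx
        refine eq_inv_of_mul_eq_one_left ?_
        rw [← hρj, ← map_mul, ← map_one ρK]
        exact congrArg ρK (Subtype.ext (inv_mul_cancel₀ (jF₀_ne_zero O E p m)))
      obtain ⟨z, hz, hzv⟩ := hw.exists_reduced_pow hw.chart₁ (model₀ O E p m).w_inv_mem false ρK
        hkerK Wv hcW
        (fun hmem => by
          rw [hinv _ hmem rfl]
          exact (Wv.valuation_le_one_iff _).mp (hv ▸ hlt.le))
        ⟨⟨_, (model₀ O E p m).w_inv_mem⟩, fun h' => hne (by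
            have h'' : (ι jF)⁻¹ = 0 := (hinv _ (hw.chart₁.fibre.le false _
              (model₀ O E p m).w_inv_mem) rfl).symm.trans h'
            rw [← hv, h'', map_zero]),
          by
            rw [← hv] at hlt
            exact lt_of_eq_of_lt (congrArg Wv.valuation (hinv _ (hw.chart₁.fibre.le false _
              (model₀ O E p m).w_inv_mem) rfl)) hlt⟩
        hroots.2 hf hf0
      exact ⟨z, hz, hfK ▸ hzv⟩
  obtain ⟨t, ht, h1, h2⟩ :=
    Models.exists_pow_mul_unit ι Wv (Fact.out : p.Prime) hu hu1 hgen hn₁ hy hz hval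
  exact LL.Mazur.dvd_ord_of_unit Q (fun e => h0 (congrArg Subtype.val e)) ht (hWv ▸ h1) (hWv ▸ h2)

end Div

end Fermat.Agent.R59.AtP
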