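import Fermat.Agent.GalRep.Wild.EigenPow
import Fermat.Agent.R59.Lower.AtP.TameThree
import Fermat.Agent.R59.Lower.AtP.DivThree
import Fermat.Agent.R59.Mazur.Three.Elliptic

/-!
S59, unit F1p: the scaled Kummer function is a `p`-th power on the component at infinity, `p = 3`.
-/

set_option autoImplicit false
set_option linter.style.haveILetI false
set_option linter.unusedSectionVars false

noncomputable section

namespace Fermat.Agent.R59.AtP

open IsLocalRing ModularCurve UpperHalfPlane CongruenceSubgroup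
open Fermat.Agent.MCurve Fermat.Agent.MCurve.Spec Fermat.Agent.MCurve.SpecialDifferential
open Fermat.Agent.ModField
open Fermat.Agent.NewVec
open Fermat.Agent.GalRep Fermat.Agent.GalRep.Level
open Fermat.Agent.GalRep.InertiaBase
open Fermat.Agent.GalRep.Semistable (ChartsSemi)
open Fermat.Agent.GalRep.WildModel (irreducible_rUnif)
open Fermat.Agent.GalRep.Wild hiding thetaL_eq_zero_of_no_theta hdiv_of_roots exists_root_false_eigen
open Fermat.Agent.Models (IsWildModel IsU HasRootAt RootsEverywhere)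
open scoped MatrixGroups

variable {A : ValuationSubring (AlgebraicClosure ℚ)} {L : IntermediateField ℚ (AlgebraicClosure ℚ)}
  [FiniteDimensional ℚ L] [Normal ℚ L]

local notation "Qb" => AlgebraicClosure ℚ

variable {p m m' : ℕ} [Fact p.Prime] [NeZero (p * m')] [NeZero m] [NeZero m']

set_option maxHeartbeats 1000000 in
/-- The component at infinity. -/
theorem exists_root_false_eigen_three (hA : A.LiesOverPrime p) (hp3 : p = 3) (hpm' : ¬ p ∣ m')
    (hneat : ∃ r : ℕ, r.Prime ∧ r ∣ m ∧ r % 3 = 2)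
    (h2 : 2 ∣ m') (h6 : 6 ≤ m') (hmm : m ∣ m') (hζ : zetaQ (p * m') ∈ L)
    (hcharts : ChartsSemi A p m') [IsDiscreteValuationRing (rBase A L)]
    (S : Finset ℕ) (hmS : ∀ r : ℕ, r.Prime → r ∣ m → r ∈ S) (a : ℕ → ResidueField A)
    (hno : ∀ θ : CuspForm.heckeAlgebra m 2 (↑S : Set ℕ) →+* ResidueField A,
      ∃ (ℓ : ℕ) (hℓ : ℓ.Prime) (hℓm : ¬ ℓ ∣ m) (hℓS : ℓ ∉ (↑S : Set ℕ)),
        θ (CuspForm.heckeAlgebra.T hℓ hℓm hℓS) ≠ a ℓ)
    {χ : ParHom (p * m) (ZMod p)} {F : ℍ → ℂ} (hF : IsRepG (Gamma0 (p * m)) p χ F)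
    {b : bddMF (embR A L hζ)} (hb : ((b : MF (p * m')) : ℍ → ℂ) = F ^ p)
    {f : rTop A L hζ p m'} (hf0 : f ≠ 0) (hfb : (f : Fld (embR A L hζ)) = toFld (embR A L hζ) b)
    (hdlog : ∀ (c : ℂ) (sA : LaurentSeries A), c ≠ 0 →
      HasQSeries 1 (fun τ => c * F τ ^ p) (lmap (qbarToC.comp A.subtype) sA) →
      lmap (residue A) sA ≠ 0 → ∀ w : PowerSeries (ResidueField A),
      HahnSeries.ofPowerSeries ℤ _ w * lmap (residue A) sA = thetaL (lmap (residue A) sA) →
      ∀ ℓ : ℕ, ℓ.Prime → ¬ ℓ ∣ m → ℓ ∉ S → ∀ n : ℕ, PowerSeries.coeff (n * ℓ) w +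
        (if ℓ ∣ n then (ℓ : ResidueField A) * PowerSeries.coeff (n / ℓ) w else 0) =
          a ℓ * PowerSeries.coeff n w)
    {t : ℕ}
    (hroots : RootsEverywhere (model₀ (rBase A L) (embR A L hζ) p m') p
      (algebraMap (rBase A L) _ (rUnif (Fact.out : p.Prime) hA) ^ t * f))
    (hord : ∃ G : rTop A L hζ p m',
      IsU (twoP (rBase A L) (embR A L hζ) p m' (irreducible_rUnif (Fact.out : p.Prime) hA) false)
        (G ^ p / (algebraMap (rBase A L) _ (rUnif (Fact.out : p.Prime) hA) ^ t * f))) :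
    ∃ T : rTop A L hζ p m',
      T ^ p / (algebraMap (rBase A L) _ (rUnif (Fact.out : p.Prime) hA) ^ t * f) - 1 ∈
        (twoP (rBase A L) (embR A L hζ) p m'
          (irreducible_rUnif (Fact.out : p.Prime) hA) false).nonunits := by
  classical
  let hq : p.Prime := Fact.out
  let E := embR A L hζ
  let π := rUnif (L := L) hq hA
  have hπ := irreducible_rUnif (L := L) hq hA
  let al := algebraMap (rBase A L) (rTop A L hζ p m')
  have hw := WildModel.isWildModel hq hA hpm' hζ hcharts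
  haveI := GalRep.charP_residue (A := A) hq hA
  haveI : IsAlgClosed (ResidueField A) := GalRep.Model.residue_isAlgClosed A
  haveI : Fact (IsUnit (m' : A)) := ⟨by
    by_contra h
    have h1 : residue A (m' : A) = 0 :=
      (residue_eq_zero_iff _).mpr ((IsLocalRing.mem_maximalIdeal _).mpr h)
    exact hpm' ((CharP.cast_eq_zero_iff (ResidueField A) p m').mp
      ((map_natCast (residue A) m').symm.trans h1))⟩
  have hpm : ¬ p ∣ m := fun h => hpm' (h.trans hmm)
  obtain ⟨ρ, hker, hcst, hj, hK, hρ⟩ :=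
    exists_redComp A (baseA A L) (fun o => rfl) rfl hpm' h2 h6 hw
  let res := (residue A).comp (baseA A L)
  -- a unit at infinity
  let g := al π ^ t * f
  have hg0 : g ≠ 0 := mul_ne_zero (pow_ne_zero _ hw.pi_ne_zero) hf0
  obtain ⟨v, z, hz, hzU, hzroots⟩ := exists_unit_scaled hw false hg0 hord hroots
  -- a multiple in the chart
  obtain ⟨N₀, hN₀⟩ := exists_pow_mul_mem_chart (E := E) hπ b
  have hN₀B : al π ^ N₀ * f ∈ (model₀ (rBase A L) E p m').B₀ :=
    mem_B₀_iff.mpr (by
      rw [Subfield.coe_mul, SubmonoidClass.coe_pow, hfb, coe_algebraMap_fld₀]; exact hN₀)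
  obtain ⟨N, hN'⟩ := exists_pow_mul_mem_scaled hw.pi_ne_zero hN₀B t p v
  have hN : al π ^ N * z ∈ (model₀ (rBase A L) E p m').B₀ := hz.symm ▸ hN'
  -- the invariance
  have hinv : ∀ γ ∈ Gamma0 (p * m), fShift E γ (z : Fld E) = (z : Fld E) := fun γ hγ => by
    have hfγ : fShift E γ (f : Fld E) = (f : Fld E) := by
      rw [hfb, fShift_toFld]
      refine congrArg _ (Subtype.ext (Subtype.ext (funext fun τ => ?_)))
      rw [shift_apply]
      show ((b : MF (p * m')) : ℍ → ℂ) (γ • τ) = ((b : MF (p * m')) : ℍ → ℂ) τ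
      rw [hb]
      exact hF.isModFun_pow.invariant γ hγ τ
    have hzE : (z : Fld E) = algebraMap (rBase A L) (Fld E) π ^ t * (f : Fld E) /
        (algebraMap (rBase A L) (Fld E) π ^ v) ^ p := by
      have h1 := congrArg (rTop A L hζ p m').subtype hz
      simp only [g, al, map_div₀, map_mul, map_pow, map_zpow₀, Subfield.coe_subtype,
        coe_algebraMap_fld₀] at h1
      exact h1
    simp only [hzE, map_div₀, map_mul, map_pow, map_zpow₀, fShift_algebraMap, hfγ]
  obtain ⟨y, hy, hρy⟩ := ModField.mem_of_invariant A (baseA A L) (fun o => rfl) rfl hpm' h2 h6 hA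
    hw ρ hker hρ hmm ⟨z, hzU.1⟩ N (by rw [Algebra.smul_def, map_pow]; exact hN) hinv
  have hy0 : y ≠ 0 := fun h0 => hzU.2 ((Models.rs_eq_zero hzU.1).mpr ((hker ⟨z, hzU.1⟩).mp
    (by rw [hρy, h0, map_zero])))
  -- its series
  obtain ⟨s, hs⟩ := exists_series_of_mem hw hzU.1 hN
  have hρs := hρ ⟨z, hzU.1⟩ s hs
  let M := p * m'
  have hM : M = p * m' := rfl
  obtain ⟨G₁, hG₁⟩ : ∃ G₁, HasQSeries 1 (F ^ p) G₁ := by
    have h1 := hasQSeries_serHom (b : MF M)
    rw [hb] at h1
    refine exists_hasQSeries_of_periodic (N := 1) (hF.holo.pow p) (fun τ => ?_) (NeZero.pos M) h1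
    have h2 := hF.periodic 1 1 (by
      rw [one_mul, inv_one, mul_one, Gamma0_mem]
      simp [ModularGroup.coe_T_zpow]) τ
    simp only [one_smul, Int.cast_one] at h2
    simp only [Nat.cast_one, Pi.pow_apply]
    rw [h2]
  have hbser : toLS E (toFld E b) = GalRep.expand M (NeZero.ne M) G₁ := by
    rw [toLS_toFld]
    have h1 := hG₁.refine_width one_pos M (NeZero.ne M)
    rw [one_mul] at h1
    have h2 := hasQSeries_serHom (b : MF M)
    rw [hb] at h2
    exact h2.unique (NeZero.pos M) h1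
  obtain ⟨c, hc, hzc⟩ : ∃ c : ℂ, c ≠ 0 ∧
      toLS E (z : Fld E) = HahnSeries.C c * GalRep.expand M (NeZero.ne M) G₁ := by
    have hφπ : E.φ π ≠ 0 := (map_ne_zero_iff _ E.inj).mpr hπ.ne_zero
    refine ⟨E.φ π ^ t / (E.φ π ^ v) ^ p, div_ne_zero (pow_ne_zero _ hφπ)
      (pow_ne_zero _ (zpow_ne_zero _ hφπ)), ?_⟩
    have h1 := congrArg ((toLS E).comp (rTop A L hζ p m').subtype) hz
    simp only [g, al, RingHom.comp_apply, map_div₀, map_mul, map_pow, map_zpow₀,
      Subfield.coe_subtype, coe_algebraMap_fld₀, hfb] at h1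
    have hπs : toLS E (algebraMap (rBase A L) (Fld E) π) = HahnSeries.C (E.φ π) :=
      toLS_algebraMap E π
    have hbser' : toLS E (toFld E b) = GalRep.expand M (NeZero.ne M) G₁ := hbser
    refine h1.trans ?_
    rw [show toLS (embR A L hζ) (algebraMap (rBase A L) (Fld (embR A L hζ)) (rUnif hq hA)) =
        HahnSeries.C (E.φ π) from hπs,
      show toLS (embR A L hζ) (toFld (embR A L hζ) b) = GalRep.expand M (NeZero.ne M) G₁ from hbser']
    simp only [map_div₀, map_pow, map_zpow₀]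
    ring
  -- contraction
  have hsupp : ∀ i : ℤ, ¬ (M : ℤ) ∣ i → s.coeff i = 0 := fun i hi => E.inj (by
    rw [map_zero, ← lmap_coeff, hs, hzc, HahnSeries.C_mul_eq_smul, HahnSeries.coeff_smul,
      expand_coeff_of_not_dvd _ _ _ _ hi, smul_zero])
  let sA : LaurentSeries A := HahnSeries.ofSuppBddBelow
    (fun i => baseA A L (s.coeff ((M : ℤ) * i))) ⟨min s.order 0, fun i hi => by
      by_contra hlt
      rw [not_le, lt_min_iff] at hlt
      refine hi ?_
      have : (1 : ℤ) ≤ M := by exact_mod_cast NeZero.pos M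
      show baseA A L (s.coeff ((M : ℤ) * i)) = 0
      rw [HahnSeries.coeff_eq_zero_of_lt_order (by nlinarith), map_zero]⟩
  have hsAc : ∀ i : ℤ, sA.coeff i = baseA A L (s.coeff ((M : ℤ) * i)) := fun i => rfl
  have hsA : lmap (qbarToC.comp A.subtype) sA = HahnSeries.C c * G₁ := by
    ext i
    rw [lmap_coeff, hsAc, HahnSeries.C_mul_eq_smul, HahnSeries.coeff_smul]
    show E.φ (s.coeff ((M : ℤ) * i)) = _
    rw [← lmap_coeff, hs, hzc, HahnSeries.C_mul_eq_smul, HahnSeries.coeff_smul, expand_coeff_mul]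
  have hyA : lmap (residue A) sA = y := by
    ext i
    rw [lmap_coeff, hsAc]
    show res (s.coeff ((M : ℤ) * i)) = _
    rw [← lmap_coeff, ← hρs, hρy, hM, Nat.cast_mul, mul_assoc, expand_coeff_mul, qExpand_coeff_mul]
  have hpS : ∀ w : PowerSeries (ResidueField A),
      HahnSeries.ofPowerSeries ℤ _ w * y = thetaL y →
      ∀ ℓ : ℕ, ℓ.Prime → ¬ ℓ ∣ m → ℓ ∉ S → ∀ n : ℕ, PowerSeries.coeff (n * ℓ) w +
        (if ℓ ∣ n then (ℓ : ResidueField A) * PowerSeries.coeff (n / ℓ) w else 0) =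
          a ℓ * PowerSeries.coeff n w := fun w hwy => by
    refine hdlog c sA hc ?_ (by rw [hyA]; exact hy0) w (by rw [hyA]; exact hwy)
    rw [hsA]
    exact ((HasQSeries.const 1 c).mul hG₁).congr (.of_forall fun τ => rfl)
  -- the logarithmic derivative vanishes
  have hθ : thetaL y = 0 := by
    refine thetaL_eq_zero_of_ord (redIndependent_of_not_dvd hA hpm) hpm y hy hy0
      (fun Q => ?_) S hmS a hpS hno
    refine hdiv_of_roots_triple (K := redFld m' A) hw res (residue_baseA_surjective hq hA) ρ hker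
      (fun o => hcst o _) hj hK
      (fun y' hy' => qExpand_mem_redFld A hA h2 (by omega) hmm hy')
      (fun Wv hWk hne => ?_) (fun R hR => ?_) hzU.1 hzroots y hy hy0 hρy Q
    · obtain ⟨u, hu0, hu1, hgen, n, hn0, hJ⟩ := exists_tame_char_three A hA hp3 h2 (by omega) Wv
        (fun x c' hx => by
          rw [show x = ⟨HahnSeries.C c', hx ▸ x.2⟩ from Subtype.ext hx]
          exact hWk c' _) hne
      refine ⟨u, hu0, hu1, hgen, n, hn0, fun J hJ' => ?_⟩
      rcases hJ with ⟨c', x, hx, hxv, hn⟩ | ⟨hn, x, hx, hxv⟩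
      · refine Or.inl ⟨c', ⟨_, C_mem_redFld A c'⟩, rfl, ?_, hn⟩
        rw [show J - (⟨_, C_mem_redFld A c'⟩ : redFld m' A) = x from Subtype.ext (by
          rw [hx, ← hJ']; rfl)]
        exact hxv
      · exact Or.inr ⟨hn, by rw [show J = x from Subtype.ext (hJ'.trans hx.symm)]; exact hxv⟩
    · obtain ⟨r, hr, hrm, hr3⟩ := hneat
      have h := three_dvd_ord_jFullC hA hpm hr hrm hr3 R hR
      subst hp3
      exact_mod_cast h
  -- the root
  obtain ⟨T, hT⟩ := exists_root_of_thetaL_eq_zero rfl hpm' hw res ρ hker (fun o => hcst o _)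
    hzU.1 hs hρs hzU hρy hθ
  refine ⟨T * al π ^ v, ?_⟩
  convert hT using 2
  rw [hz, mul_pow, div_div_eq_mul_div]

end Fermat.Agent.R59.AtP
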