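/-
S59, unit F1p: power reductions of an eigen Kummer function at `p = 3`, with a prime `r ≡ 2 (mod 3)`
in the level (no elliptic points of order three, so the order of `j` is divisible by `3` at `j = 0`).
-/
import Fermat.Agent.GalRep.Wild.EigenBoth
import Fermat.Agent.R59.Lower.AtP.EigenThree

set_option autoImplicit false
set_option linter.style.haveILetI false
set_option linter.unusedSectionVars false

noncomputable section

namespace Fermat.Agent.R59.AtP

open IsLocalRing UpperHalfPlane CongruenceSubgroup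
open Fermat.Agent.ModField
open Fermat.Agent.NewVec
open Fermat.Agent.GalRep Fermat.Agent.GalRep.Level
open Fermat.Agent.GalRep.InertiaBase
open Fermat.Agent.GalRep.Semistable (ChartsSemi)
open Fermat.Agent.GalRep.WildModel (irreducible_rUnif)
open Fermat.Agent.GalRep.Semistable (alR alR_add alR_heckeHom)
open Fermat.Agent.GalRep.Wild hiding exists_root_eigen exists_root_false_eigen
open Fermat.Agent.Models (IsKummer IsU RootsEverywhere IsSwapAut)
open scoped MatrixGroups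

variable {A : ValuationSubring (AlgebraicClosure ℚ)} {L : IntermediateField ℚ (AlgebraicClosure ℚ)}
  [FiniteDimensional ℚ L] [Normal ℚ L]
  {p m m' : ℕ} [Fact p.Prime] [NeZero (p * m')] [NeZero (p * m)] [NeZero m] [NeZero m']

set_option maxHeartbeats 1000000 in
/-- `GalRep.Wild.exists_root_eigen` at `p = 3`. -/
theorem exists_root_eigen_three (hA : A.LiesOverPrime p) (hp3 : p = 3) (hpm' : ¬ p ∣ m')
    (hneat : ∃ r : ℕ, r.Prime ∧ r ∣ m ∧ r % 3 = 2)
    (h2 : 2 ∣ m') (h6 : 6 ≤ m') (hmm : m ∣ m') (hζ : zetaQ (p * m') ∈ L)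
    (hcharts : ChartsSemi A p m') [IsDiscreteValuationRing (rBase A L)]
    (S : Finset ℕ) (hmS : ∀ r : ℕ, r.Prime → r ∣ m → r ∈ S) (hpS : p ∈ S) (a : ℕ → ℤ)
    (hno : ∀ θ : CuspForm.heckeAlgebra m 2 (↑S : Set ℕ) →+* ResidueField A,
      ∃ (ℓ : ℕ) (hℓ : ℓ.Prime) (hℓm : ¬ ℓ ∣ m) (hℓS : ℓ ∉ (↑S : Set ℕ)),
        θ (CuspForm.heckeAlgebra.T hℓ hℓm hℓS) ≠ (a ℓ : ResidueField A))
    {χ : ParHom (p * m) (ZMod p)}
    (heig : ∀ l : GoodPrime (p * m), (l : ℕ) ∉ S → heckeHomAt l χ = a (l : ℕ) • χ)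
    {F : ℍ → ℂ} (hF : IsRepG (Gamma0 (p * m)) p χ F)
    {b : bddMF (embR A L hζ)} (hb : ((b : MF (p * m')) : ℍ → ℂ) = F ^ p)
    {f : rTop A L hζ p m'} (hf0 : f ≠ 0) (hfb : (f : Fld (embR A L hζ)) = toFld (embR A L hζ) b)
    {t : ℕ}
    (hK : IsKummer (model₀ (rBase A L) (embR A L hζ) p m') (rUnif (Fact.out : p.Prime) hA)
      (twoP (rBase A L) (embR A L hζ) p m' (irreducible_rUnif (Fact.out : p.Prime) hA)) p
      (algebraMap (rBase A L) _ (rUnif (Fact.out : p.Prime) hA) ^ t * f))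
    (hroots : RootsEverywhere (model₀ (rBase A L) (embR A L hζ) p m') p
      (algebraMap (rBase A L) _ (rUnif (Fact.out : p.Prime) hA) ^ t * f)) :
    ∃ T : Bool → rTop A L hζ p m', ∀ i,
      T i ^ p / (algebraMap (rBase A L) _ (rUnif (Fact.out : p.Prime) hA) ^ t * f) - 1 ∈
        (twoP (rBase A L) (embR A L hζ) p m'
          (irreducible_rUnif (Fact.out : p.Prime) hA) i).nonunits := by
  classical
  have hpm : ¬ p ∣ m := fun h => hpm' (h.trans hmm)
  obtain ⟨g, hg⟩ := exists_lowerRow (Fact.out : p.Prime) hpm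
  obtain ⟨g', hg'⟩ := exists_lowerRow (Fact.out : p.Prime) hpm'
  haveI : NeZero p := ⟨(Fact.out : p.Prime).ne_zero⟩
  let W := wOp (O := rBase A L) (E := embR A L hζ) (p := p) (m := m') rfl hpm' hg'
  have hWs : IsSwapAut (model₀ (rBase A L) (embR A L hζ) p m')
      (twoP (rBase A L) (embR A L hζ) p m' (irreducible_rUnif (Fact.out : p.Prime) hA)) W :=
    isSwapAut_wOp rfl hpm' hg' (irreducible_rUnif (Fact.out : p.Prime) hA)
      (fun δ => Ordinary.comp_rTop hA hpm' hcharts δ)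
  -- at infinity
  obtain ⟨T₀, hT₀⟩ := exists_root_false_eigen_three hA hp3 hpm' hneat h2 h6 hmm hζ hcharts S hmS
    (fun ℓ => (a ℓ : ResidueField A)) hno hF hb hf0 hfb
    (fun c sA hc hs h0 w hw ℓ hℓ hℓm hℓS n => dlog_hyp hA S hpS a hF heig c sA hc hs h0 w hw ℓ hℓ
      hℓm hℓS n) hroots (hK.ord false)
  -- the translated class
  have hWt : W (algebraMap (rBase A L) _ (rUnif (Fact.out : p.Prime) hA) ^ t * f) =
      algebraMap (rBase A L) _ (rUnif (Fact.out : p.Prime) hA) ^ t * W f := by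
    rw [map_mul, map_pow, wOp_algebraMap]
  obtain ⟨b', hb', hWb⟩ := Ordinary.exists_al_rep (n := p) hg (mul_dvd_mul_left p hmm) hmm hg' hF hb
    (x := (W f : Fld (embR A L hζ))) (by rw [← hfb]; exact toLS_wOp rfl hpm' hg' f)
  have heig' : ∀ l : GoodPrime (p * m), (l : ℕ) ∉ S →
      heckeHomAt l (alR hg χ) = a (l : ℕ) • alR hg χ := fun l hl =>
    alR_eigen hg l (heig l hl)
  have hrootsW : RootsEverywhere (model₀ (rBase A L) (embR A L hζ) p m') p
      (algebraMap (rBase A L) _ (rUnif (Fact.out : p.Prime) hA) ^ t * W f) :=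
    (congrArg (RootsEverywhere (model₀ (rBase A L) (embR A L hζ) p m') p) hWt).mp <| hroots.map W.toRingHom (fun _ hb₀ => (hWs.chart₀ _).mpr hb₀)
      fun _ hb₁ => (hWs.near _).mpr (Models.Model.le_nearSub _ hb₁)
  obtain ⟨G, hG⟩ := hK.ord true
  have hordW := isU_of_swap W (fun z => hWs.swap false z) hG
  rw [map_div₀, map_pow, hWt] at hordW
  obtain ⟨T₁, hT₁⟩ := exists_root_false_eigen_three hA hp3 hpm' hneat h2 h6 hmm hζ hcharts S hmS
    (fun ℓ => (a ℓ : ResidueField A)) hno (Semistable.alR_rep hg hF) hb'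
    ((map_ne_zero W).mpr hf0) hWb.symm
    (fun c sA hc hs h0 w hw ℓ hℓ hℓm hℓS n => dlog_hyp hA S hpS a (Semistable.alR_rep hg hF) heig'
      c sA hc hs h0 w hw ℓ hℓ hℓm hℓS n) hrootsW ⟨W G, hordW⟩
  refine ⟨fun i => bif i then W.symm T₁ else T₀, fun i => ?_⟩
  cases i with
  | false => exact hT₀
  | true =>
    refine (hWs.swap false _).mp ?_
    simp only [cond_true, map_sub, map_one, map_div₀, map_pow, RingEquiv.apply_symm_apply, hWt]
    exact hT₁

end Fermat.Agent.R59.AtP
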