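/-
S59, unit F1p: at a multiplicative `p` with `p ∣ v_p(Δ)` a wild element of inertia moves some
normalised abscissa of `W[p]` at least as far as `ζ_p - 1` (`EC/Local/Peu` on the normal form at
the node).
-/
import Fermat.Agent.R59.TateW.Sign
import Fermat.Agent.R59.TateW.TorsionUnr
import Fermat.Agent.R59.Mazur.Basic

set_option autoImplicit false
set_option linter.style.haveILetI false
set_option linter.unusedSectionVars false

noncomputable section

namespace Fermat.Agent.R59.AtP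

open WeierstrassCurve WeierstrassCurve.Affine.Point
open Fermat.Agent.EC Fermat.Agent.ConductorMatch
open scoped WeierstrassCurve.Affine

local notation "Qb" => AlgebraicClosure ℚ
local notation "GQ" => (AlgebraicClosure ℚ) ≃ₐ[ℚ] (AlgebraicClosure ℚ)

section NF

variable {L : Type*} [Field L] [IsAlgClosed L] [CharZero L] [DecidableEq L]
variable {A : ValuationSubring L}

local notation "v" => A.valuation

omit [IsAlgClosed L] [CharZero L] [DecidableEq L] in
/-- The discriminant of a normal form has the value of its parameter. -/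
theorem val_c_eq_val_Δ {V : WeierstrassCurve L} {C : VariableChange L} {c : A}
    (hc : v (algebraMap A L c) < 1) (hC : C • V = (tateNF c).map (algebraMap A L))
    (hu : v (C.u : L) = 1) : v (algebraMap A L c) = v V.Δ := by
  have h := congrArg WeierstrassCurve.Δ hC
  rw [variableChange_Δ,
    show ((tateNF c).map (algebraMap A L)).Δ =
      -(algebraMap A L c) * (1 + 432 * algebraMap A L c) by
      simp [tateNF, WeierstrassCurve.Δ, WeierstrassCurve.b₂, WeierstrassCurve.b₄,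
        WeierstrassCurve.b₆, WeierstrassCurve.b₈]
      ring] at h
  have h' := congrArg v h
  rw [map_mul, map_pow, Units.val_inv_eq_inv_val, map_inv₀, hu, inv_one, one_pow, one_mul,
    map_mul v (-(algebraMap A L c)), Valuation.map_neg,
    A.valuation.map_one_add_of_lt, mul_one] at h'
  · exact h'.symm
  · exact val_mul_lt_one' _ (by exact_mod_cast val_natCast_le_one (A := A) 432) hc

end NF

variable (W : WeierstrassCurve ℤ) {p : ℕ} [Fact p.Prime] {A : ValuationSubring (AlgebraicClosure ℚ)}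

set_option maxHeartbeats 2000000 in
/-- An abscissa moved at least as far as `ζ_p - 1`. -/
theorem exists_movedW (hΔ : W.Δ ≠ 0) (hW : W.IsSemistableModel) (hp2 : p ≠ 2)
    (hA : A.LiesOverPrime p) (hmul : (p : ℤ) ∣ W.Δ) (hflat : p ∣ padicValInt p W.Δ) {σ : GQ}
    (hσ : σ ∈ A.inertiaSubgroupIn ℚ) (hne : ∃ x : ETors W p, σ • x ≠ x)
    (hfix : ∀ x : ETors W p, σ • (σ • x - x) = σ • x - x) :
    ∃ φ : Qb, A.valuation φ ≤ 1 ∧
      (∀ g ∈ A.inertiaSubgroupIn ℚ, (∀ y : ETors W p, g • y = y) → g φ = φ) ∧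
      A.valuation (p : Qb) ≤ A.valuation (σ φ - φ) ^ (p - 1) := by
  classical
  have hp : p.Prime := Fact.out
  have hodd : Odd p := hp.odd_of_ne_two hp2
  have hp3 : 3 ≤ p := by
    have := hp.two_le
    omega
  haveI := isElliptic_pts W hΔ
  haveI := charP_residue hp hA
  have hin := actsInertially_of_mem hσ
  set WA := W.map (Int.castRingHom A) with hWA
  set V := WA.map (algebraMap A Qb) with hVdef
  haveI : V.IsElliptic := by
    rw [hVdef, hWA, ← baseChange_eq_map W A]; infer_instance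
  have hv2 : A.valuation (2 : Qb) = 1 := by
    simpa using val_intCast_eq_one (A := A) hp hA (n := 2) (fun h0 => hp2
      ((Nat.prime_dvd_prime_iff_eq hp Nat.prime_two).1 (by exact_mod_cast h0)))
  have hd : A.valuation (algebraMap A Qb WA.Δ) < 1 := by
    rw [hWA, map_Δ, eq_intCast, map_intCast]; exact val_intCast_lt_one hA hmul
  have hd0 : WA.Δ ≠ 0 := by
    rw [hWA, map_Δ, eq_intCast]; exact_mod_cast hΔ
  have hc4 : A.valuation (algebraMap A Qb WA.c₄) = 1 := by
    rw [hWA, map_c₄, eq_intCast, map_intCast]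
    exact val_intCast_eq_one hp hA (hW p hp hmul)
  obtain ⟨C, c, hc0, hc, hC, hu, hr, hCfix⟩ := exists_normal_node (F := ℚ) WA hd hd0 hc4 hv2
  haveI : ((tateNF c).map (algebraMap A Qb)).IsElliptic := by rw [← hC]; infer_instance
  set T := (tateNF c).map (algebraMap A Qb) with hT
  have hV' : ∀ z : ℤ, ∀ g : GQ, g (algebraMap A Qb (Int.castRingHom A z)) =
      algebraMap A Qb (Int.castRingHom A z) := fun z g => by simp
  obtain ⟨j₀, hj₀⟩ := hflat
  set w : Qb := (p : Qb) ^ j₀ with hw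
  have hwc : A.valuation (algebraMap A Qb c) = A.valuation w ^ p := by
    rw [val_c_eq_val_Δ hc hC hu, map_Δ, hWA, map_Δ, eq_intCast, map_intCast,
      val_intCast_padicValInt hp hA hΔ, hj₀, hw, map_pow, ← pow_mul, mul_comm]
  have hcf : ∀ g ∈ A.inertiaSubgroupIn ℚ,
      g C.u = C.u ∧ g C.r = C.r ∧ g C.s = C.s ∧ g C.t = C.t ∧
        g (algebraMap A Qb c) = algebraMap A Qb c := fun g hg => by
    have hI := actsInertially_of_mem hg
    obtain ⟨gr, gt, gc, hε⟩ := hCfix g hI.valuation_eq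
      (hV' _ g) (hV' _ g) (hV' _ g) (hV' _ g) (hV' _ g)
    rcases hε with ⟨gu, gs⟩ | ⟨-, -, hI'⟩
    · exact ⟨gu, gr, gs, gt, gc⟩
    · exact absurd hI hI'
  -- the points in the normal form
  have key : ∀ (V' : WeierstrassCurve Qb) (hV'' : C • V = V'), ∃ Φ : V.toAffine.Point →+ V'.toAffine.Point,
      Function.Injective Φ ∧ (∀ (a b : Qb) (h : V.toAffine.Nonsingular a b),
        ∃ h', Φ (Affine.Point.some a b h) = Affine.Point.some (vcX C a) (vcY C a b) h') ∧
      ∀ Q : V.toAffine.Point, IsBigPoint A (Φ Q) ↔ IsBigPoint A Q := by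
    rintro _ rfl
    exact ⟨vcHom C, vcHom_injective C, fun a b h => ⟨_, vcHom_some C h⟩,
      fun Q => isBigPoint_vcHom_iff C hu hr Q⟩
  obtain ⟨Φ₀, hΦ₀inj, hΦ₀s, hΦ₀big⟩ := key T hC
  let Φ : ETors W p →+ T.toAffine.Point :=
    (Φ₀.comp (toPlace W A)).comp (Submodule.torsionBy ℤ (Pts W) (p : ℤ)).toAddSubgroup.subtype
  have hΦinj : Function.Injective Φ :=
    hΦ₀inj.comp ((toPlace_injective W A).comp Subtype.val_injective)
  let H : AddSubgroup (ETors W p) := (redKernel A (tateNF c)).comap Φ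
  have hmemH : ∀ y : ETors W p, y ∈ H ↔ IsBigPoint A (Φ y) := fun y => Iff.rfl
  have hp0 : ∀ y : ETors W p, p • y = 0 := fun y => Subtype.ext (by
    rw [Submodule.coe_smul_of_tower, ← natCast_zsmul]
    exact (Submodule.mem_torsionBy_iff _ _).1 y.2)
  have htor : ∀ y : ETors W p, p • Φ y = 0 := fun y => by
    rw [← map_nsmul, hp0, _root_.map_zero]
  have hvc : ∀ g ∈ A.inertiaSubgroupIn ℚ, ∀ a b : Qb,
      g (vcX C a) = vcX C (g a) ∧ g (vcY C a b) = vcY C (g a) (g b) := by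
    intro g hg a b
    obtain ⟨gu, gr, gs, gt, -⟩ := hcf g hg
    constructor
    · rw [vcX, vcX, map_div₀ g, map_sub, gr, map_pow, gu]
    · rw [vcY, vcY, map_div₀ g, map_sub, map_sub, map_mul, map_sub, gs, gr, gt, map_pow, gu]
  have hcoord : ∀ (g : GQ), g ∈ A.inertiaSubgroupIn ℚ → ∀ (y : ETors W p) (a b : Qb)
      (h : T.toAffine.Nonsingular a b), Φ y = Affine.Point.some a b h →
      ∃ h', Φ (g • y) = Affine.Point.some (g a) (g b) h' := by
    intro g hg y a b h e
    obtain ⟨P, hP⟩ := y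
    rcases P with _ | ⟨a₀, b₀, h₀⟩
    · exact absurd (e.symm.trans (by show Φ₀ (toPlace W A 0) = 0; rw [_root_.map_zero, _root_.map_zero]))
        (Affine.Point.some_ne_zero h)
    obtain ⟨h₀', e₀⟩ := algEquiv_smul_some (K := Qb) (W.map (Int.castRingHom ℚ)).toAffine g h₀
    have g₀ : V.toAffine.Nonsingular a₀ b₀ :=
      cast (by rw [hVdef, hWA, baseChange_eq_map W A]) h₀
    have g₁ : V.toAffine.Nonsingular (g a₀) (g b₀) :=
      cast (by rw [hVdef, hWA, baseChange_eq_map W A]) h₀'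
    obtain ⟨h', e'⟩ := hΦ₀s a₀ b₀ g₀
    obtain ⟨h'', e''⟩ := hΦ₀s (g a₀) (g b₀) g₁
    have ea : Φ₀ (Affine.Point.some a₀ b₀ g₀) = Affine.Point.some a b h := e
    rw [e', Affine.Point.some.injEq] at ea
    obtain ⟨q1, q2⟩ := hvc g hg a₀ b₀
    rw [← ea.1, ← ea.2]
    refine ⟨q1 ▸ q2 ▸ h'', ?_⟩
    show Φ₀ (toPlace W A (g • (Affine.Point.some a₀ b₀ h₀ : Pts W))) = _
    rw [e₀]
    show Φ₀ (Affine.Point.some (g a₀) (g b₀) g₁) = _
    rw [e'', Affine.Point.some.injEq]
    exact ⟨q1.symm, q2.symm⟩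
  have hsmall : ∀ (x y : Qb) (h : T.toAffine.Nonsingular x y), p • Affine.Point.some x y h = 0 →
      ¬ IsBigPoint A (Affine.Point.some x y h) → A.valuation x < 1 := fun x y h t hb => by
    rw [isBigPoint_some, not_lt] at hb
    exact val_lt_one_of_torsion (k := 1) hc h (by rwa [pow_one]) hb
  have hsub : ∀ g ∈ A.inertiaSubgroupIn ℚ, ∀ y : ETors W p, g • y - y ∈ H := by
    intro g hg y
    rw [hmemH, map_sub]
    rcases e : Φ y with _ | ⟨a, b, h⟩
    · have hy : y = 0 := hΦinj (e.trans (_root_.map_zero Φ).symm)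
      rw [hy, smul_zero, _root_.map_zero]
      exact (redKernel A (tateNF c)).sub_mem isBigPoint_zero isBigPoint_zero
    · obtain ⟨h', e'⟩ := hcoord g hg y a b h e
      rw [e']
      by_cases hb : IsBigPoint A (Affine.Point.some a b h)
      · refine (redKernel A (tateNF c)).sub_mem ?_ hb
        show IsBigPoint A (Affine.Point.some (g a) (g b) h')
        rw [isBigPoint_some] at hb ⊢
        rwa [(actsInertially_of_mem hg).valuation_eq]
      · refine isBigPoint_sub_conj hc0 hc hodd hv2 (actsInertially_of_mem hg).valuation_eq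
          (k := 1) h h' ?_ ?_ ?_
        · rw [pow_one, ← e, htor]
        · rw [pow_one, ← e', htor]
        · rwa [isBigPoint_some, not_lt] at hb
  have hHp : ∀ {j : ℕ}, ¬ p ∣ j → ∀ {y : ETors W p}, j • y ∈ H → y ∈ H := by
    intro j hj y hy
    obtain ⟨i, -, hi⟩ := Nat.exists_mul_mod_eq_one_of_coprime
      (hp.coprime_iff_not_dvd.2 hj).symm hp.one_lt
    have := H.nsmul_mem hy i
    rwa [← mul_nsmul', mul_comm, ← Nat.mod_add_div (j * i) p, add_nsmul, hi, one_nsmul, mul_nsmul,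
      hp0, nsmul_zero, add_zero] at this
  obtain ⟨x, hxH, hxne⟩ : ∃ x : ETors W p, x ∉ H ∧ σ • x ≠ x := by
    obtain ⟨-, hex⟩ := exists_sign (F := ℚ) (p := p) WA hd hd0 hc4 hp2
    obtain ⟨a, b, h, t, ha⟩ := hex
    have g : ((W.map (Int.castRingHom ℚ)).toAffine⁄Qb).Nonsingular a b :=
      cast (by rw [baseChange_eq_map W A]) h
    have hP : p • (Affine.Point.some a b g : Pts W) = 0 := by
      refine toPlace_injective W A ?_
      rw [map_nsmul, _root_.map_zero]
      exact t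
    set x₀ : ETors W p := ⟨Affine.Point.some a b g, (Submodule.mem_torsionBy_iff _ _).2
      (by rw [natCast_zsmul]; exact hP)⟩ with hx₀
    have hx₀H : x₀ ∉ H := fun hb => by
      have h1 : IsBigPoint A (Φ₀ (Affine.Point.some a b h)) := (hmemH x₀).1 hb
      rw [hΦ₀big, isBigPoint_some] at h1
      exact not_lt.2 ha h1
    obtain ⟨x, hx⟩ := hne
    by_cases hxH : x ∈ H
    · by_cases h0 : σ • x₀ = x₀
      · refine ⟨x₀ + x, fun hb => hx₀H ((H.add_mem_cancel_right hxH).1 hb), fun e => hx ?_⟩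
        rw [smul_add, h0] at e
        exact add_left_cancel e
      · exact ⟨x₀, hx₀H, h0⟩
    · exact ⟨x, hxH, hx⟩
  set Q₀ : ETors W p := σ • x - x with hQ₀
  have hQ₀0 : Q₀ ≠ 0 := sub_ne_zero.2 hxne
  have hQbig : Q₀ ∈ H := hsub σ hσ x
  have hzero : ∀ {j : ℕ}, j • Q₀ = 0 → p ∣ j := fun {j} e => by
    rw [← Nat.cast_smul_eq_nsmul (ZMod p), smul_eq_zero] at e
    exact (ZMod.natCast_eq_zero_iff _ _).1 (e.resolve_right hQ₀0)
  have hjQ : ∀ j : ℕ, ¬ p ∣ j → ∃ (a b : Qb) (h : T.toAffine.Nonsingular a b),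
      Φ (j • Q₀) = Affine.Point.some a b h ∧ 1 < A.valuation a := by
    intro j hj
    have hb : IsBigPoint A (Φ (j • Q₀)) := (hmemH _).1 (H.nsmul_mem hQbig j)
    rcases e : Φ (j • Q₀) with _ | ⟨a, b, h⟩
    · exact absurd (hzero (hΦinj (e.trans (_root_.map_zero Φ).symm))) hj
    rw [e, isBigPoint_some] at hb
    exact ⟨a, b, h, rfl, hb⟩
  obtain ⟨M, hM⟩ := hodd
  have hndvd : ∀ j, j ∈ Finset.Icc 1 M → ¬ p ∣ j := fun j hj h => by
    rw [Finset.mem_Icc] at hj
    have := Nat.le_of_dvd (by omega) h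
    omega
  let xQ : ℕ → Qb := fun j =>
    if h : ¬ p ∣ j then (hjQ j h).choose else 0
  have hxQ : ∀ j, ¬ p ∣ j → ∃ (b : Qb) (h : T.toAffine.Nonsingular (xQ j) b),
      Φ (j • Q₀) = Affine.Point.some (xQ j) b h ∧ 1 < A.valuation (xQ j) := fun j hj => by
    simp only [xQ, dif_pos hj]
    exact (hjQ j hj).choose_spec
  obtain ⟨j, hjI, hjmin⟩ := (Finset.Icc 1 M).exists_min_image (fun i => A.valuation (xQ i))
    (Finset.nonempty_Icc.2 (by omega))
  have hinj : Set.InjOn xQ (Finset.Icc 1 M : Finset ℕ) := by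
    intro i hi k hk e
    rw [Finset.mem_coe] at hi hk
    obtain ⟨bi, hbi, ei, -⟩ := hxQ i (hndvd i hi)
    obtain ⟨bk, hbk, ek, -⟩ := hxQ k (hndvd k hk)
    rw [Finset.mem_Icc] at hi hk
    rcases (Affine.Point.X_eq_iff (h₁ := hbi) (h₂ := hbk)).1 e with e' | e'
    · rw [← ei, ← ek] at e'
      have := hΦinj e'
      rw [← Nat.cast_smul_eq_nsmul (ZMod p) i, ← Nat.cast_smul_eq_nsmul (ZMod p) k] at this
      have h' : (i : ZMod p) = k := smul_left_injective (ZMod p) hQ₀0 this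
      rw [ZMod.natCast_eq_natCast_iff] at h'
      exact Nat.ModEq.eq_of_lt_of_lt h' (by omega) (by omega)
    · rw [← ei, ← ek, ← map_neg] at e'
      have := hΦinj e'
      rw [eq_neg_iff_add_eq_zero, ← add_nsmul] at this
      have := Nat.le_of_dvd (by omega) (hzero this)
      omega
  have hprod := prod_abscissae_le_of_eq (V := T) (W := tateNF c) rfl (m := M) (by omega)
    ((Finset.Icc 1 M).image xQ) (by
      intro a ha
      obtain ⟨i, hi, rfl⟩ := Finset.mem_image.1 ha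
      obtain ⟨b, hb, e, h1⟩ := hxQ i (hndvd i hi)
      exact ⟨h1, b, hb, by rw [← hM, ← e, htor]⟩)
  rw [Finset.prod_image hinj, ← hM] at hprod
  have hmin : A.valuation (p : Qb) * A.valuation (xQ j) ^ M ≤ 1 := by
    refine le_trans (mul_le_mul' le_rfl ?_) hprod
    refine le_trans (le_of_eq ?_) (Finset.prod_le_prod' hjmin)
    rw [Finset.prod_const, Nat.card_Icc, Nat.add_sub_cancel]
  -- the position of the point
  rcases ex : Φ x with _ | ⟨x₁, y₁, h₁⟩
  · exact absurd ((hmemH x).2 (ex ▸ isBigPoint_zero)) hxH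
  have hnb : ∀ i : ℕ, ¬ p ∣ i → ¬ IsBigPoint A (i • Affine.Point.some x₁ y₁ h₁) := fun i hi hb =>
    hxH (hHp hi ((hmemH _).2 (by rw [map_nsmul, ex]; exact hb)))
  have t : p • Affine.Point.some x₁ y₁ h₁ = 0 := by rw [← ex, htor]
  have hsing : TateSing c p (Affine.Point.some x₁ y₁ h₁) := fun i hi => by
    obtain ⟨a, b, h, e, -⟩ := smul_not_big hnb hi
    have t' : p • Affine.Point.some a b h = 0 := by rw [← e, smul_comm, t, nsmul_zero]
    exact ⟨a, b, h, e, hsmall a b h t' (e ▸ hnb i hi), t'⟩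
  have hx₁ : A.valuation x₁ < 1 :=
    hsmall x₁ y₁ h₁ t (by simpa using hnb 1 hp.not_dvd_one)
  obtain ⟨k, hk⟩ := tate_position_of_sing hc0 hc ⟨M, hM⟩ h₁ t hsing hx₁
  have hC2 := tate_c_lt_sq_of_sing hc0 hc ⟨M, hM⟩ h₁ hsing hx₁
  have hxw : A.valuation x₁ = A.valuation (w ^ k) := by
    rw [map_pow]
    refine (pow_left_inj₀ zero_le zero_le hp.ne_zero).1 ?_
    rw [hk, hwc, ← pow_mul, ← pow_mul, mul_comm]
  have hψ : A.valuation (2 * y₁ + x₁) = A.valuation (w ^ k) := by
    rw [← hxw]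
    refine (pow_left_inj₀ zero_le zero_le two_ne_zero).1 ?_
    have he := (Affine.equation_iff ..).1 h₁.1
    simp only [hT, tateNF, WeierstrassCurve.map, map_one, _root_.map_zero, one_mul, zero_mul,
      add_zero] at he
    have hb' : (2 * y₁ + x₁) ^ 2 = x₁ ^ 2 + (4 * x₁ ^ 3 + 4 * algebraMap A Qb c) := by
      linear_combination 4 * he
    have h4 : A.valuation (4 : Qb) = 1 := by
      rw [show (4 : Qb) = 2 * 2 by norm_num, map_mul, hv2, one_mul]
    rw [← map_pow, hb', Valuation.map_add_eq_of_lt_left, map_pow]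
    rw [map_pow]
    refine val_add_lt _ ?_ ?_
    · rw [map_mul, h4, one_mul, map_pow]
      refine pow_lt_pow_right_of_lt_one₀ (zero_lt_iff.2 fun e0 => ?_) hx₁ (by norm_num)
      rw [e0, zero_pow two_ne_zero] at hC2
      exact not_lt_zero hC2
    · rw [map_mul, h4, one_mul]; exact hC2
  have hjp := hndvd j hjI
  obtain ⟨b₂, h₂, e₂, hbig₂⟩ := hxQ j hjp
  obtain ⟨xa, ya, xs, ys, ha, hs, hea, hes, hdiff⟩ := tate_addSub_diff hv2 h₁ h₂ hx₁.le hbig₂
  -- the translates are conjugate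
  have hfixj : ∀ n : ℕ, σ • (n • Q₀) = n • Q₀ := fun n => by rw [smul_comm, hfix]
  set y : ETors W p := x - j • Q₀ with hy
  have hpow : ∀ n : ℕ, (σ ^ n) • y = y + n • Q₀ := by
    intro n
    induction n with
    | zero => rw [pow_zero, one_smul, zero_nsmul, add_zero]
    | succ n ih =>
      rw [pow_succ', mul_smul, ih, smul_add, hfixj, hy, smul_sub, hfixj, succ_nsmul]
      rw [show σ • x = x + Q₀ by rw [hQ₀, add_sub_cancel]]
      abel
  have hΦy : Φ y = Affine.Point.some xs ys hs := by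
    rw [← hes, ← ex, ← e₂, ← map_sub]
  have hiter : ∀ n : ℕ, (σ ^ n : GQ) xs = (σ : Qb → Qb)^[n] xs := fun n => by
    induction n with
    | zero => rfl
    | succ n ih => rw [Function.iterate_succ_apply', ← ih, pow_succ']; rfl
  have hat : ∀ (n : ℕ) (a b : Qb) (h : T.toAffine.Nonsingular a b),
      Φ (y + n • Q₀) = Affine.Point.some a b h → (σ : Qb → Qb)^[n] xs = a := by
    intro n a b h e
    obtain ⟨h', e'⟩ := hcoord (σ ^ n) (pow_mem hσ n) y xs ys hs hΦy
    rw [hpow, e, Affine.Point.some.injEq] at e'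
    rw [← hiter]
    exact e'.1.symm
  have hxa : (σ : Qb → Qb)^[2 * j] xs = xa := hat _ xa ya ha (by
    rw [← hea, ← ex, ← e₂, ← map_add]
    congr 1
    rw [hy, two_mul, add_nsmul]
    abel)
  have hwk : A.valuation (w ^ k) ≠ 0 := by
    rw [_root_.map_ne_zero, hw]
    exact pow_ne_zero _ (pow_ne_zero _ (Nat.cast_ne_zero.2 hp.ne_zero))
  have hwfix : ∀ g : GQ, g (w ^ k) = w ^ k := fun g => by simp [hw]
  refine ⟨xs / w ^ k, ?_, fun g hg hgy => ?_, ?_⟩
  · have hx1' : (σ : Qb → Qb)^[j] xs = x₁ := hat _ x₁ y₁ h₁ (by rw [hy, sub_add_cancel, ex])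
    rw [map_div₀, ← val_iterate hin xs j, hx1', hxw, div_self hwk]
  · obtain ⟨h', e'⟩ := hcoord g hg y xs ys hs hΦy
    rw [hgy y, hΦy, Affine.Point.some.injEq] at e'
    rw [map_div₀ g, ← e'.1, hwfix]
  · have hle : A.valuation (xs - xa) ≤ A.valuation (σ xs - xs) := by
      rw [← Valuation.map_neg, neg_sub, ← hxa]
      exact val_iterate_sub_le hin xs _
    rw [map_div₀ σ, hwfix, ← sub_div, map_div₀, show p - 1 = 2 * M by omega, pow_mul, div_pow]
    have hx2 : A.valuation (xQ j) ≠ 0 := (zero_lt_one.trans hbig₂).ne'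
    have h1 : (A.valuation (xQ j))⁻¹ ≤ A.valuation (σ xs - xs) ^ 2 / A.valuation (w ^ k) ^ 2 := by
      rw [le_div_iff₀ (zero_lt_iff.2 (pow_ne_zero 2 hwk)), ← hψ, ← hdiff, mul_comm,
        mul_inv_cancel_right₀ hx2]
      exact pow_le_pow_left₀ zero_le hle 2
    refine le_trans ?_ (pow_le_pow_left₀ zero_le h1 M)
    rw [inv_pow, ← one_div, le_div_iff₀ (zero_lt_iff.2 (pow_ne_zero M hx2))]
    exact hmin

end Fermat.Agent.R59.AtP
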