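/-
S59, unit F1p: the image of inertia on `W[p]` when the trace is `1 + ω` and a wild element moves
`W[p]`, the index of ramification of a level field and the bound on the wild break.
-/
import Fermat.Agent.R59.Lower.AtP.WildMoved
import Fermat.Agent.R59.TateW.Flat
import Fermat.Agent.FlatBound.Ram.Main
import Fermat.Agent.EC.Local.WildField

set_option autoImplicit false
set_option linter.style.haveILetI false
set_option linter.unusedSectionVars false

noncomputable section

namespace Fermat.Agent.R59.AtP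

open WeierstrassCurve WeierstrassCurve.Affine.Point
open scoped WeierstrassCurve.Affine
open Fermat.Agent.GalRep.InertiaBase
open Fermat.Agent.NewVec
open Fermat.Agent.MCurve.Flat (HasFlatModel)

local notation "Qb" => AlgebraicClosure ℚ
local notation "GQ" => (AlgebraicClosure ℚ) ≃ₐ[ℚ] (AlgebraicClosure ℚ)

variable (W : WeierstrassCurve ℤ) (p : ℕ) [Fact p.Prime]
  [((W.map (Int.castRingHom ℚ))⁄(AlgebraicClosure ℚ)).IsElliptic]
variable {A : ValuationSubring (AlgebraicClosure ℚ)}

set_option quotPrecheck false in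
local notation "ρW" =>
  galoisRepModuleEnd (K := Qb) ℚ (W.map (Int.castRingHom ℚ)).toAffine p

variable (hp2 : p ≠ 2) (hΔ : W.Δ ≠ 0)
include hp2 hΔ

/-- A wild element is unipotent. -/
theorem smul_sub_fix {τ : GQ} (htr : trE W p τ = 2) (hω : omg p τ = 1) (x : ETors W p) :
    τ • (τ • x - x) = τ • x - x := by
  have h := DFunLike.congr_fun (eRel p W hp2 hΔ τ) (τ • x)
  rw [hω, htr, LinearMap.add_apply, one_smul, LinearMap.smul_apply, Module.End.one_apply,
    galoisRepModuleEnd_apply, galoisRepModuleEnd_apply, inv_smul_smul, two_smul,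
    ← eq_sub_iff_add_eq] at h
  rw [smul_sub, h]
  abel

/-- The image of inertia is triangular, with the characters `1` and `ω`. -/
theorem exists_borel (htr : ∀ s ∈ A.inertiaSubgroupIn ℚ, trE W p s = omg p s + 1) {τ : GQ}
    (hτ : τ ∈ A.inertiaSubgroupIn ℚ) (hω : omg p τ = 1) (hne : τ ∉ eKer p W) :
    ∃ (bs : Module.Basis (Fin 2) (ZMod p) (ETors W p)) (b : GQ → ZMod p),
      τ • bs 0 = bs 0 ∧ τ • bs 1 = bs 0 + bs 1 ∧
      ((∀ s ∈ A.inertiaSubgroupIn ℚ, s • bs 0 = omg p s • bs 0 ∧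
          s • bs 1 = b s • bs 0 + bs 1) ∨
        (∀ s ∈ A.inertiaSubgroupIn ℚ, s • bs 0 = bs 0 ∧
          s • bs 1 = b s • bs 0 + omg p s • bs 1)) := by
  classical
  have hrk := finrank_eTors p W
  haveI : Module.Finite (ZMod p) (ETors W p) := Module.finite_of_finrank_eq_succ hrk
  obtain ⟨x, hx⟩ : ∃ x : ETors W p, τ • x ≠ x := by
    by_contra h
    push Not at h
    exact hne h
  set Q := τ • x - x with hQ
  have hQ0 : Q ≠ 0 := sub_ne_zero.2 hx
  have hτQ : τ • Q = Q := smul_sub_fix W p hp2 hΔ (by rw [htr τ hτ, hω]; norm_num) hω x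
  have hτx : τ • x = Q + x := by rw [hQ, sub_add_cancel]
  have hli : LinearIndependent (ZMod p) ![Q, x] := by
    rw [LinearIndependent.pair_iff]
    intro a b hab
    have h1 := congrArg (fun z => τ • z) hab
    simp only [smul_zero, smul_add, smul_comm τ, hτQ, hτx] at h1
    have hb : b • Q = 0 := by
      rw [← hab] at h1
      simpa [add_left_comm, add_comm] using h1
    have hb0 := (smul_eq_zero.1 hb).resolve_right hQ0
    subst hb0
    rw [zero_smul, add_zero, smul_eq_zero] at hab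
    exact ⟨hab.resolve_right hQ0, rfl⟩
  let bs := basisOfLinearIndependentOfCardEqFinrank hli (by rw [hrk]; rfl)
  have hbs0 : bs 0 = Q := by simp [bs]
  have hbs1 : bs 1 = x := by simp [bs]
  let a : GQ → ZMod p := fun s => bs.repr (s • Q) 0
  let c : GQ → ZMod p := fun s => bs.repr (s • Q) 1
  let b : GQ → ZMod p := fun s => bs.repr (s • x) 0
  let d : GQ → ZMod p := fun s => bs.repr (s • x) 1
  have htrM : ∀ g : GQ, trE W p g = a g + d g := fun g => by
    rw [trE, galoisTrace_def, LinearMap.trace_eq_matrix_trace (ZMod p) bs, Matrix.trace_fin_two,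
      LinearMap.toMatrix_apply, LinearMap.toMatrix_apply, hbs0, hbs1]
    rfl
  have hdetM : ∀ g : GQ, omg p g = a g * d g - b g * c g := fun g => by
    rw [← det_eq_omg p W hp2 hΔ g, ← LinearMap.det_toMatrix bs, Matrix.det_fin_two]
    simp only [LinearMap.toMatrix_apply, hbs0, hbs1]
    rfl
  have hc : ∀ s ∈ A.inertiaSubgroupIn ℚ, c s = 0 := fun s hs => by
    have h1 := htr _ (mul_mem hs hτ)
    rw [omg_mul, hω, mul_one, ← htr s hs, htrM, htrM] at h1
    simp only [a, d, c, mul_smul, hτQ, hτx, smul_add, map_add, Finsupp.add_apply] at h1 ⊢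
    linear_combination h1
  have hQs : ∀ s ∈ A.inertiaSubgroupIn ℚ, s • Q = a s • Q := fun s hs => by
    conv_lhs => rw [← bs.sum_repr (s • Q), Fin.sum_univ_two, hbs0, hbs1,
      show bs.repr (s • Q) 1 = 0 from hc s hs, zero_smul, add_zero]
  have hxs : ∀ s, s • x = b s • Q + d s • x := fun s => by
    conv_lhs => rw [← bs.sum_repr (s • x), Fin.sum_univ_two, hbs0, hbs1]
  have had : ∀ s ∈ A.inertiaSubgroupIn ℚ, a s + d s = omg p s + 1 := fun s hs => by
    rw [← htrM, htr s hs]
  have hroot : ∀ s ∈ A.inertiaSubgroupIn ℚ, a s = omg p s ∨ a s = 1 := fun s hs => by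
    have h1 : (a s - omg p s) * (a s - 1) = 0 := by
      have h2 := hdetM s
      rw [hc s hs, mul_zero, sub_zero] at h2
      linear_combination (a s) * had s hs + h2
    rcases mul_eq_zero.1 h1 with h | h
    · exact Or.inl (sub_eq_zero.1 h)
    · exact Or.inr (sub_eq_zero.1 h)
  have hmul : ∀ s ∈ A.inertiaSubgroupIn ℚ, ∀ t ∈ A.inertiaSubgroupIn ℚ,
      a (s * t) = a s * a t := fun s hs t ht => by
    have h1 : bs.repr (a (s * t) • Q) 0 = bs.repr ((a s * a t) • Q) 0 := by
      rw [← hQs _ (mul_mem hs ht), mul_smul s t Q, hQs t ht, smul_comm s (a t) Q, hQs s hs,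
        smul_smul, mul_comm]
    rw [← hbs0, map_smul, map_smul, Module.Basis.repr_self] at h1
    simpa using h1
  refine ⟨bs, b, hbs0.symm ▸ hτQ, by rw [hbs0, hbs1, hτx], ?_⟩
  rw [hbs0, hbs1]
  by_cases hall : ∀ s ∈ A.inertiaSubgroupIn ℚ, a s = omg p s
  · refine Or.inl fun s hs => ⟨by rw [hQs s hs, hall s hs], ?_⟩
    rw [hxs s, show d s = 1 by linear_combination had s hs - hall s hs, one_smul]
  · push Not at hall
    obtain ⟨s₀, hs₀, hne₀⟩ := hall
    have h1 : a s₀ = 1 := (hroot s₀ hs₀).resolve_left hne₀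
    have hall' : ∀ s ∈ A.inertiaSubgroupIn ℚ, a s = 1 := fun t ht => by
      by_contra hne'
      have h2 : a t = omg p t := (hroot t ht).resolve_right hne'
      have h3 := hroot _ (mul_mem hs₀ ht)
      rw [hmul _ hs₀ _ ht, h1, one_mul, omg_mul, h2] at h3
      rcases h3 with h3 | h3
      · exact hne₀ (h1.trans (mul_right_cancel₀ (omg_ne_zero p t) (by rw [one_mul]; exact h3)))
      · exact hne' (h2.trans h3)
    refine Or.inr fun s hs => ⟨by rw [hQs s hs, hall' s hs, one_smul], ?_⟩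
    rw [hxs s, show d s = omg p s by linear_combination had s hs - hall' s hs]

variable {L : IntermediateField ℚ (AlgebraicClosure ℚ)} [FiniteDimensional ℚ L] [Normal ℚ L]

/-- The index is at most `p (p - 1)`. -/
theorem rIdx_le (hA : A.LiesOverPrime p)
    (htr : ∀ s ∈ A.inertiaSubgroupIn ℚ, trE W p s = omg p s + 1)
    {τ : GQ} (hτ : τ ∈ A.inertiaSubgroupIn ℚ) (hω : omg p τ = 1) (hne : τ ∉ eKer p W)
    (hL : ∀ s ∈ A.inertiaSubgroupIn ℚ, s ∈ eKer p W → ∀ y ∈ L, s y = y) :
    rIdx (L := L) (Fact.out : p.Prime) hA ≤ p * (p - 1) := by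
  classical
  have hp : p.Prime := Fact.out
  haveI : Normal ℚ Qb := IsGalois.to_normal
  haveI : Normal (inertiaFld A) Qb := Normal.tower_top_of_normal ℚ _ _
  obtain ⟨bs, b, -, -, hform⟩ := exists_borel W p hp2 hΔ htr hτ hω hne
  rw [← finrank_rFld (L := L) hp hA,
    ← AlgHom.natCard_of_splits (inertiaFld A) (rFld A L) Qb fun _ => IsAlgClosed.splits _]
  have hext : ∀ f : rFld A L →ₐ[inertiaFld A] Qb,
      ∃ s ∈ A.inertiaSubgroupIn ℚ, ∀ x : rFld A L, s (x : Qb) = f x := fun f => by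
    obtain ⟨g, hg⟩ : ∃ g : Qb →ₐ[inertiaFld A] Qb, ∀ x : rFld A L, g (x : Qb) = f x :=
      ⟨f.liftNormal Qb, fun x => f.liftNormal_commutes Qb x⟩
    obtain ⟨s, hs, hsg⟩ := exists_inertia_eq A L
      (σ := (AlgEquiv.ofBijective g (Algebra.IsAlgebraic.algHom_bijective g)).restrictScalars ℚ)
      fun y hy => g.commutes ⟨y, hy⟩
    exact ⟨s, hs, fun x => (hsg x x.2).trans (hg x)⟩
  choose s hs hsf using hext
  let d : (rFld A L →ₐ[inertiaFld A] Qb) → (ZMod p)ˣ × ZMod p := fun f =>
    (Units.mk0 (omg p (s f)) (omg_ne_zero p _), b (s f))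
  have hinj : Function.Injective d := fun f g h => by
    obtain ⟨hw, hb⟩ := Prod.ext_iff.1 h
    have hw' : omg p (s f) = omg p (s g) := congrArg Units.val hw
    have hb' : b (s f) = b (s g) := hb
    have hall : ρW (s f) = ρW (s g) := bs.ext fun i => by
      show s f • bs i = s g • bs i
      rcases hform with hform | hform <;>
        obtain ⟨f0, f1⟩ := hform _ (hs f) <;> obtain ⟨g0, g1⟩ := hform _ (hs g) <;>
        fin_cases i <;> simp [f0, f1, g0, g1, hw', hb']
    have hker : (s g)⁻¹ * s f ∈ eKer p W := fun y => by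
      rw [mul_smul, inv_smul_eq_iff]
      exact DFunLike.congr_fun hall y
    refine AlgHom.ext fun x => ?_
    rw [← hsf, ← hsf]
    have hI := mul_mem (inv_mem (hs g)) (hs f)
    have := EC.fix_rFld hI (hL _ hI hker) x.2
    conv_rhs => rw [← this]
    exact ((s g).apply_symm_apply _).symm
  refine (Nat.card_le_card_of_injective d hinj).trans (le_of_eq ?_)
  rw [Nat.card_prod, Nat.card_eq_fintype_card, ZMod.card_units_eq_totient, Nat.totient_prime hp,
    Nat.card_zmod, mul_comm]

/-- A wild element on a level field: index and break. -/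
theorem exists_wild_baseW (hW : W.IsSemistableModel) (hflat : p ∣ padicValInt p W.Δ)
    (hA : A.LiesOverPrime p) (htr : ∀ s ∈ A.inertiaSubgroupIn ℚ, trE W p s = omg p s + 1)
    {τ : A.inertiaSubgroupIn ℚ} (hω : omg p (τ : GQ) = 1) (hne : (τ : GQ) ∉ eKer p W)
    (hEL : eFld p W ≤ L)
    (hL : ∀ s ∈ A.inertiaSubgroupIn ℚ, s ∈ eKer p W → ∀ y ∈ L, s y = y)
    {μ : Qb} (hμL : μ ∈ L) (hμ : IsPrimitiveRoot μ p)
    (hμv : A.valuation (μ - 1) ^ (p - 1) = A.valuation (p : Qb)) :
    rIdx (L := L) (Fact.out : p.Prime) hA = p * (p - 1) ∧ ∃ b : ℕ, 1 ≤ b ∧ b < p ∧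
      A.valuation ((τ : GQ) (rVal A L (rUnif (Fact.out : p.Prime) hA)) /
          rVal A L (rUnif (Fact.out : p.Prime) hA) - 1) =
        A.valuation (rVal A L (rUnif (Fact.out : p.Prime) hA)) ^ b := by
  classical
  have hp : p.Prime := Fact.out
  obtain ⟨bs, β, hτ0, hτ1, -⟩ := exists_borel W p hp2 hΔ htr τ.2 hω hne
  have hkerL : ∀ s : GQ, (∀ y ∈ L, s y = y) → s ∈ eKer p W := fun s hs =>
    (fix_eFld_iff p W).1 fun y hy => hs y (hEL hy)
  have hpow : ∀ n : ℕ, ((τ : GQ) ^ n) • bs 1 = (n : ZMod p) • bs 0 + bs 1 := by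
    intro n
    induction n with
    | zero => rw [pow_zero, one_smul, Nat.cast_zero, zero_smul, zero_add]
    | succ n ih =>
      rw [pow_succ', mul_smul, ih, smul_add, smul_comm (τ : GQ) (n : ZMod p) (bs 0), hτ0, hτ1,
        Nat.cast_succ, add_smul, one_smul, add_assoc]
  have hpow0 : ∀ n : ℕ, ((τ : GQ) ^ n) • bs 0 = bs 0 := by
    intro n
    induction n with
    | zero => rw [pow_zero, one_smul]
    | succ n ih => rw [pow_succ', mul_smul, ih, hτ0]
  have hdvd : ∀ n : ℕ, ((τ : GQ) ^ n) ∈ eKer p W → p ∣ n := fun n hn => by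
    have h := hn (bs 1)
    rw [hpow, add_eq_right, smul_eq_zero] at h
    exact (ZMod.natCast_eq_zero_iff _ _).1 (h.resolve_right (bs.ne_zero 0))
  have hker : (τ : GQ) ^ p ∈ eKer p W := fun y => by
    have h : ρW ((τ : GQ) ^ p) = 1 := bs.ext fun i => by
      show ((τ : GQ) ^ p) • bs i = bs i
      fin_cases i
      · exact hpow0 p
      · show ((τ : GQ) ^ p) • bs 1 = bs 1
        rw [hpow, ZMod.natCast_self, zero_smul, zero_add]
    exact DFunLike.congr_fun h y
  have hper : ∀ y ∈ rFld A L, ((τ ^ p : A.inertiaSubgroupIn ℚ) : GQ) y = y := fun y hy =>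
    EC.fix_rFld (τ ^ p).2 (hL _ (τ ^ p).2 (by rw [SubgroupClass.coe_pow]; exact hker)) hy
  have hmov : ∃ y ∈ rFld A L, (τ : GQ) y ≠ y := by
    by_contra hcon
    push Not at hcon
    exact hne (hkerL _ fun y hy => hcon y (mem_rFld_of_mem A _ hy))
  obtain ⟨hpe, b, hb1, hbv, hbφ⟩ := exists_break (L := L) hp hA hper hmov
  set e := rIdx (L := L) hp hA with he
  set vπ := A.valuation (rVal A L (rUnif (L := L) hp hA)) with hvπ
  have hvπ0 : (0 : A.ValueGroup) < vπ :=
    zero_lt_iff.mpr (by simpa [vπ] using rUnif_ne (L := L) hp hA)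
  have hanti := pow_right_strictAnti₀ hvπ0 (val_rUnif_lt (L := L) hp hA)
  have hvp : A.valuation (p : Qb) = vπ ^ e := (val_rUnif_pow (L := L) hp hA).symm
  obtain ⟨k, hk⟩ := exists_val_rFld hp hA (L := L)
    (sub_mem (mem_rFld_of_mem A L hμL) (one_mem _))
    (sub_ne_zero.mpr (hμ.ne_one hp.one_lt))
  have hdvd1 : (p - 1) ∣ e := by
    rw [hk, ← hvπ, hvp, ← zpow_natCast, ← zpow_mul, ← zpow_natCast vπ] at hμv
    have hinj := (zpow_right_strictAnti₀ hvπ0 (val_rUnif_lt (L := L) hp hA)).injective hμv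
    exact Int.natCast_dvd_natCast.mp ⟨k, by rw [← hinj, mul_comm]⟩
  have hp3 : 3 ≤ p := by
    have := hp.two_le
    omega
  have heq : e = p * (p - 1) := by
    refine le_antisymm (rIdx_le W p hp2 hΔ hA htr τ.2 hω hne hL)
      (Nat.le_of_dvd (rIdx_pos hp hA) ?_)
    refine Nat.Coprime.mul_dvd_of_dvd_of_dvd ?_ hpe hdvd1
    exact (Nat.Prime.coprime_iff_not_dvd hp).mpr fun hdv => by
      have := Nat.le_of_dvd (by omega) hdv
      omega
  refine ⟨heq, b, hb1, ?_, hbv⟩
  by_cases hmul : (p : ℤ) ∣ W.Δ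
  · obtain ⟨φ, hφ1, hφfix, hφ⟩ := exists_movedW W hΔ hW hp2 hA hmul hflat τ.2
      (by
        by_contra h
        push Not at h
        exact hne h)
      (fun x => smul_sub_fix W p hp2 hΔ (by rw [htr _ τ.2, hω]; norm_num) hω x)
    have hφL : φ ∈ rFld A L :=
      mem_rFld_of_fixed A _ fun s hs hsL => hφfix s hs (hkerL s hsL)
    have h1 := hφ.trans (pow_le_pow_left₀ zero_le (hbφ φ hφL hφ1) _)
    rw [hvp, ← pow_mul] at h1
    have hle : (b + 1) * (p - 1) ≤ e := hanti.le_iff_ge.mp h1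
    rw [heq] at hle
    have := Nat.le_of_mul_le_mul_right hle (by omega)
    omega
  · haveI : Finite (ETors W p) :=
      EC.finite_torsionBy ((W.map (Int.castRingHom ℚ))⁄Qb) p hp.one_le
    have hfm : HasFlatModel (ETors W p) p := by
      have h := hasFlatModel_tors (W := W) hp2 hmul 1
      rwa [pow_one] at h
    obtain ⟨X⟩ := FlatBound.nonempty_chart hA hfm
    set ξ := FlatBound.unif (p := p) hA X.splitFld with hξ
    have hfixξ : ∀ s ∈ A.inertiaSubgroupIn ℚ, s ∈ eKer p W → s ξ = ξ := fun s hs hk =>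
      X.fix_unif hA (fun y hy => (mem_inertiaFld A).mp hy s hs) hk
    have hξL : ξ ∈ rFld A L :=
      mem_rFld_of_fixed A _ fun s hs hsL => hfixξ s hs (hkerL s hsL)
    haveI : Normal ℚ X.splitFld := by
      haveI : Normal ℚ Qb := IsGalois.to_normal
      refine IntermediateField.normal_iff_forall_map_le'.mpr fun σ => ?_
      rw [FlatBound.Chart.splitFld, IntermediateField.adjoin_map]
      refine IntermediateField.adjoin.mono _ _ _ ?_
      rintro _ ⟨_, ⟨⟨i, x⟩, rfl⟩, rfl⟩
      exact ⟨(i, (σ : GQ) • x), (X.equi (σ : GQ) i x).symm⟩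
    have hEq : rFld A X.splitFld = rFld A L := by
      refine le_antisymm (fun y hy => mem_rFld_of_fixed A _ fun s hs hsL => ?_)
        (fun y hy => mem_rFld_of_fixed A _ fun s hs hsL => ?_)
      · refine EC.fix_rFld hs (fun z hz => ?_) hy
        induction hz using IntermediateField.adjoin_induction with
        | mem z hz =>
          obtain ⟨⟨i, x⟩, rfl⟩ := hz
          exact X.fix_iff.mpr (hkerL s hsL) i x
        | algebraMap q => exact s.commutes q
        | add a c _ _ ha hc => rw [map_add, ha, hc]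
        | inv a _ ha => rw [map_inv₀, ha]
        | mul a c _ _ ha hc => rw [map_mul, ha, hc]
      · exact EC.fix_rFld hs (hL s hs fun x => X.fix_iff.mp
          (fun i x => hsL _ (X.value_mem i x)) x) hy
    have heX : rIdx (L := X.splitFld) hp hA = e := by
      haveI := finite_rFld A X.splitFld
      rw [← finrank_rFld (L := X.splitFld) hp hA, hEq, finrank_rFld (L := L) hp hA]
    have hvξ : A.valuation ξ = vπ := by
      refine (pow_left_inj₀ zero_le zero_le (rIdx_pos (L := L) hp hA).ne').mp ?_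
      rw [← he, ← hvp, ← heX, hξ, FlatBound.val_unif_pow]
    have hξ1 : A.valuation ξ ≤ 1 := (FlatBound.val_unif_lt_one hA).le
    have hin := EC.actsInertially_of_mem τ.2
    have hiter : ∀ n : ℕ, ((τ : GQ) ^ n) ξ = ((τ : GQ) : Qb → Qb)^[n] ξ := fun n => by
      induction n with
      | zero => rfl
      | succ n ih => rw [Function.iterate_succ_apply', ← ih, pow_succ']; rfl
    have hfixn : ∀ n : ℕ, ((τ : GQ) ^ n) ξ = ξ → p ∣ n := fun n hn =>
      hdvd n fun x => X.fix_of_unif hA (pow_mem τ.2 n) hn x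
    let O := FlatBound.orbit (p := p) hA X.splitFld
    let T := (Finset.Ico 1 p).image fun n => ((τ : GQ) ^ n) ξ
    have hTO : T ⊆ O \ {ξ} := fun η hη => by
      obtain ⟨n, hn, rfl⟩ := Finset.mem_image.1 hη
      rw [Finset.mem_Ico] at hn
      refine Finset.mem_sdiff.2 ⟨(FlatBound.mem_orbit hA).2 ⟨_, pow_mem τ.2 n, rfl⟩, ?_⟩
      rw [Finset.mem_singleton]
      intro h
      have := Nat.le_of_dvd (by omega) (hfixn n h)
      omega
    have hTinj : Set.InjOn (fun n => ((τ : GQ) ^ n) ξ) (Finset.Ico 1 p : Finset ℕ) := by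
      intro i hi j hj hij
      rw [Finset.mem_coe, Finset.mem_Ico] at hi hj
      wlog hle : i ≤ j generalizing i j
      · exact (this hj hi hij.symm (le_of_not_ge hle)).symm
      by_contra hne'
      obtain ⟨d, rfl⟩ := Nat.exists_eq_add_of_le hle
      simp only at hij
      rw [pow_add, AlgEquiv.mul_apply] at hij
      have := Nat.le_of_dvd (by omega) (hfixn d ((((τ : GQ) ^ i).injective hij).symm))
      omega
    have hTcard : T.card = p - 1 := by
      rw [Finset.card_image_of_injOn hTinj, Nat.card_Ico]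
    have hOcard : (O \ {ξ}).card = e - 1 := by
      rw [Finset.card_sdiff_of_subset (Finset.singleton_subset_iff.2 (FlatBound.unif_mem_orbit hA)),
        Finset.card_singleton, FlatBound.card_orbit hA, heX]
    have hTb : ∀ η ∈ T, A.valuation (η - ξ) ≤ vπ ^ (b + 1) := fun η hη => by
      obtain ⟨n, -, rfl⟩ := Finset.mem_image.1 hη
      rw [hiter]
      exact (EC.val_iterate_sub_le hin ξ n).trans (hbφ ξ hξL hξ1)
    have hOb : ∀ η ∈ O \ {ξ}, A.valuation (η - ξ) ≤ vπ := fun η hη =>
      (A.valuation.map_sub _ _).trans (max_le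
        (((FlatBound.val_orbit hA (Finset.mem_sdiff.1 hη).1)).trans hvξ).le hvξ.le)
    have h1mem : ((τ : GQ) ^ 1) ξ ∈ T :=
      Finset.mem_image.2 ⟨1, Finset.mem_Ico.2 ⟨le_rfl, hp.one_lt⟩, rfl⟩
    have hηO := Finset.mem_sdiff.1 (hTO h1mem)
    have hbound := X.ram_bound hA
      (fun x => Subtype.ext (by
        rw [Submodule.coe_smul_of_tower, ← natCast_zsmul]
        exact (Submodule.mem_torsionBy_iff _ _).1 x.2))
      hηO.1 (Finset.notMem_singleton.1 hηO.2)
    have hprod : ∏ η ∈ O \ {ξ}, A.valuation (η - ξ) ≤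
        vπ ^ ((b + 1) * (p - 1) + (e - p)) := by
      rw [← Finset.prod_sdiff hTO, pow_add, pow_mul, mul_comm]
      refine mul_le_mul' ?_ ?_
      · rw [← hTcard]
        exact Finset.prod_le_pow_card _ _ _ hTb
      · have hc : ((O \ {ξ}) \ T).card = e - p := by
          rw [Finset.card_sdiff_of_subset hTO, hOcard, hTcard]; omega
        rw [← hc]
        exact Finset.prod_le_pow_card _ _ _ fun η hη => hOb η (Finset.mem_sdiff.1 hη).1
    have h2 := hbound.trans (pow_le_pow_left₀ zero_le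
      (mul_le_mul' (hTb _ h1mem) hprod) (p - 1))
    rw [hvp, ← pow_add, ← pow_mul, ← pow_mul] at h2
    have hle : (b + 1 + ((b + 1) * (p - 1) + (e - p))) * (p - 1) ≤ e * p := hanti.le_iff_ge.mp h2
    rw [heq] at hle
    obtain ⟨q, hq⟩ : ∃ q, p = q + 1 := ⟨p - 1, by omega⟩
    rw [show p * (p - 1) * p = (p * p) * (p - 1) by ring] at hle
    have h3 := Nat.le_of_mul_le_mul_right hle (by omega)
    rw [hq] at h3 ⊢
    simp only [Nat.add_sub_cancel] at h3
    have h4 : q + 1 ≤ (q + 1) * q := Nat.le_mul_of_pos_right _ (by omega)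
    obtain ⟨r, hr⟩ := Nat.exists_eq_add_of_le h4
    have hr' : (q + 1) * q - (q + 1) = r := by omega
    rw [hr'] at h3
    by_contra hb
    push Not at hb
    nlinarith [Nat.mul_le_mul_right q hb]

end Fermat.Agent.R59.AtP
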