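/-
S59, unit F1p: when wild inertia moves `W[p]` and `W[p]` is flat at `p`, the field of `W[p]` and the
roots of unity is totally ramified of index `p (p - 1)` over the tame part, with a wild element of
small break (`EC/Local/WildField`, `GalRep/WildModel/Aut`).
-/
import Fermat.Agent.R59.Lower.AtP.WildIdx
import Fermat.Agent.R59.Mazur.Basic
import Fermat.Agent.GalRep.WildModel.Aut
import Fermat.Agent.GalRep.Semistable.SemiModel
import Mathlib.NumberTheory.Padics.PadicVal.Basic

set_option autoImplicit false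
set_option linter.style.haveILetI false
set_option linter.unusedSectionVars false

noncomputable section

namespace Fermat.Agent.R59.AtP

open IsLocalRing WeierstrassCurve WeierstrassCurve.Affine.Point
open scoped WeierstrassCurve.Affine
open Fermat.Agent.GalRep.InertiaBase
open Fermat.Agent.GalRep.Semistable (ChartsSemi)
open Fermat.Agent.NewVec
open Fermat.Agent.Models (IsWildAut)
open Fermat.Agent.ModField

local notation "Qb" => AlgebraicClosure ℚ

/-- The field of `W[p]` and of the roots of unity of order `M`. -/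
def atLevel (W : WeierstrassCurve ℤ) (p : ℕ) [Fact p.Prime] (M : ℕ) [NeZero M] :
    IntermediateField ℚ (AlgebraicClosure ℚ) :=
  eFld p W ⊔ IntermediateField.adjoin ℚ ({zetaQ M} : Set (AlgebraicClosure ℚ))

variable (W : WeierstrassCurve ℤ) (p M : ℕ) [Fact p.Prime] [NeZero M]
  [((W.map (Int.castRingHom ℚ))⁄(AlgebraicClosure ℚ)).IsElliptic]

instance finite_atLevel : FiniteDimensional ℚ (atLevel W p M) :=
  haveI := finite_eFld p W
  IntermediateField.finiteDimensional_sup _ _

instance normal_atLevel : Normal ℚ (atLevel W p M) :=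
  @IntermediateField.normal_sup ℚ (AlgebraicClosure ℚ) _ _ _ _ _ (normal_eFld p W)
    (GalRep.WildModel.normal_adjoin_zetaQ M)

theorem zetaQ_mem_atLevel : zetaQ M ∈ atLevel W p M :=
  (le_sup_right : _ ≤ atLevel W p M) (IntermediateField.mem_adjoin_simple_self ℚ _)

theorem eFld_le_atLevel : eFld p W ≤ atLevel W p M := le_sup_left

/-- An element of inertia fixing `W[p]` fixes the level field. -/
theorem fix_atLevel (hp2 : p ≠ 2) (hΔ : W.Δ ≠ 0) {A : ValuationSubring (AlgebraicClosure ℚ)}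
    (hA : A.LiesOverPrime p) {m : ℕ} (hM : M = p * m) (hm : ¬ p ∣ m)
    {s : (AlgebraicClosure ℚ) ≃ₐ[ℚ] (AlgebraicClosure ℚ)} (hs : s ∈ A.inertiaSubgroupIn ℚ)
    (hk : s ∈ eKer p W) : ∀ y ∈ atLevel W p M, s y = y := by
  suffices h : atLevel W p M ≤ IntermediateField.fixedField (Subgroup.zpowers s) from fun y hy =>
    (IntermediateField.mem_fixedField_iff _ _).mp (h hy) s (Subgroup.mem_zpowers s)
  have hfix : ∀ y : Qb, s y = y → y ∈ IntermediateField.fixedField (Subgroup.zpowers s) :=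
    fun y hy => (IntermediateField.mem_fixedField_iff _ _).mpr fun g hg =>
      (Subgroup.zpowers_le.mpr (show s ∈ MulAction.stabilizer _ y from hy)) hg
  refine sup_le (fun y hy => hfix y ((fix_eFld_iff p W).mpr hk y hy))
    (IntermediateField.adjoin_le_iff.mpr (Set.singleton_subset_iff.mpr (hfix _ ?_)))
  have hp : p.Prime := Fact.out
  have hz := (isPrimitiveRoot_zetaQ M).pow_eq_one
  obtain ⟨a, b, hab⟩ := ((hp.coprime_iff_not_dvd).mpr hm).isCoprime
  have h0 : zetaQ M ≠ 0 := (isPrimitiveRoot_zetaQ M).ne_zero (NeZero.ne M)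
  have hsplit : zetaQ M = (zetaQ M ^ p) ^ a * (zetaQ M ^ m) ^ b := by
    rw [← zpow_natCast, ← zpow_natCast _ m, ← zpow_mul, ← zpow_mul, ← zpow_add₀ h0,
      show (p : ℤ) * a + (m : ℤ) * b = 1 by rw [mul_comm, mul_comm (m : ℤ)]; exact hab, zpow_one]
  have h1 : s (zetaQ M ^ p) = zetaQ M ^ p :=
    (mem_inertiaFld A).mp (root_mem_inertiaFld A hp hA hm (by rw [← pow_mul, ← hM, hz])) s hs
  have h2 : s (zetaQ M ^ m) = zetaQ M ^ m :=
    (omg_eq_one_iff p).mp (omg_of_mem_eKer p W hp2 hΔ hk) _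
      (by rw [← pow_mul, mul_comm, ← hM, hz])
  conv_lhs => rw [hsplit, map_mul, map_zpow₀, map_zpow₀, h1, h2, ← hsplit]

/-- The wild automorphism of the model over the field of `W[p]`. -/
theorem exists_wildAutW (hΔ : W.Δ ≠ 0) (hW : W.IsSemistableModel) (hp2 : p ≠ 2)
    (hflat : p ∣ padicValInt p W.Δ) {A : ValuationSubring (AlgebraicClosure ℚ)}
    (hA : A.LiesOverPrime p)
    (htr : ∀ s ∈ A.inertiaSubgroupIn ℚ, trE W p s = omg p s + 1)
    (hex : ∃ s ∈ A.inertiaSubgroupIn ℚ, omg p s = 1 ∧ s ∉ eKer p W)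
    {m : ℕ} [NeZero (p * m)] (hM : M = p * m) (hm : ¬ p ∣ m)
    [IsDiscreteValuationRing (rBase A (atLevel W p M))] (hcharts : ChartsSemi A p m) :
    rIdx (L := atLevel W p M) (Fact.out : p.Prime) hA = p * (p - 1) ∧
      ∃ (τ : A.inertiaSubgroupIn ℚ) (b : ℕ) (β : rBase A (atLevel W p M)),
        omg p (τ : AlgebraicClosure ℚ ≃ₐ[ℚ] AlgebraicClosure ℚ) = 1 ∧ b < p ∧
        IsWildAut (model₀ (rBase A (atLevel W p M))
            (embR A (atLevel W p M) (zetaQ_mem_atLevel W p M)) p m)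
          (rUnif (Fact.out : p.Prime) hA)
          (algebraMap (wTop A M p m)
            (rTop A (atLevel W p M) (zetaQ_mem_atLevel W p M) p m)).fieldRange
          (tauTop (zetaQ_mem_atLevel W p M) hM τ) b β := by
  obtain ⟨s, hs, hω, hne⟩ := hex
  have hp : p.Prime := Fact.out
  obtain ⟨he, b, hb1, hbp, hv⟩ := exists_wild_baseW (L := atLevel W p M) W p hp2 hΔ hW hflat hA htr
    (τ := ⟨s, hs⟩) hω hne (eFld_le_atLevel W p M)
    (fun g hg hk => fix_atLevel W p M hp2 hΔ hA hM hm hg hk)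
    (pow_mem (zetaQ_mem_atLevel W p M) m) (isPrimitiveRoot_mu hp hM) (val_mu_sub_one hp hA hM)
  obtain ⟨β, hβ, h1, h2⟩ := GalRep.WildModel.exists_beta hp hA (σ := ⟨s, hs⟩) hv
  subst hM
  exact ⟨he, ⟨s, hs⟩, b, β, hω, hbp,
    GalRep.WildModel.isWildAut_model₀ rfl hp hA hm hcharts.1 hcharts.2 hb1 hβ h1 h2⟩

end Fermat.Agent.R59.AtP
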