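/-
S59, unit F1p: a class fixed by a tame element has a trivialisation modulo the uniformiser: its
exponent is constant (a unit index, or a wild element moving it by fixed classes), hence zero.
-/
import Fermat.Agent.R59.Lower.AtP.OmegaClimb
import Fermat.Agent.R59.Lower.AtP.WildAuto
import Fermat.Agent.R59.Lower.AtP.Roots
import Fermat.Agent.R59.Lower.AtP.Exponent
import Fermat.Agent.GalRep.Wild.WildPart

set_option autoImplicit false
set_option linter.style.haveILetI false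
set_option linter.unusedSectionVars false

noncomputable section

namespace Fermat.Agent.R59.AtP

open UpperHalfPlane CongruenceSubgroup IsLocalRing
open WeierstrassCurve WeierstrassCurve.Affine.Point
open scoped WeierstrassCurve.Affine
open Fermat.Agent.Galois (GQ)
open Fermat.Agent.GalRep Fermat.Agent.GalRep.Level
open Fermat.Agent.GalRep.InertiaBase
open Fermat.Agent.GalRep.Ordinary
open Fermat.Agent.GalRep.WildModel (irreducible_rUnif)
open Fermat.Agent.ModField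
open Fermat.Agent.NewVec
open Fermat.Agent.Models (ExpEq)
open scoped MatrixGroups

local notation "Qb" => AlgebraicClosure ℚ

variable {A : ValuationSubring (AlgebraicClosure ℚ)}
  {p m m' : ℕ} [Fact p.Prime] [NeZero p] [NeZero (p * m')] [NeZero (p * m)] [NeZero m] [NeZero m']
  {g g' : SL(2, ℤ)} (S : OrdSetup A p m m' g g')

/-- The arithmetic input: level `m` carries no such system, an auxiliary prime, neatness at `3`. -/
structure Input (S : OrdSetup A p m m' g g') (T : Finset ℕ) (a : ℕ → ℤ)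
    (l : GoodPrime (p * m)) : Prop where
  h6 : 6 ≤ m'
  odd : p = 3 ∨ 5 ≤ p
  neat : p = 3 → ∃ r : ℕ, r.Prime ∧ r ∣ m ∧ r % 3 = 2
  hmS : ∀ r : ℕ, r.Prime → r ∣ m → r ∈ T
  hpS : p ∈ T
  hno : ∀ θ : CuspForm.heckeAlgebra m 2 (↑T : Set ℕ) →+* ResidueField A,
    ∃ (ℓ : ℕ) (hℓ : ℓ.Prime) (hℓm : ¬ ℓ ∣ m) (hℓS : ℓ ∉ (↑T : Set ℕ)),
      θ (CuspForm.heckeAlgebra.T hℓ hℓm hℓS) ≠ (a ℓ : ResidueField A)
  hl : ((l : ℕ) : ZMod (p * m')) = 1
  hlS : (l : ℕ) ∉ T
  hla : (a (l : ℕ) : ZMod p) ≠ ((l : ℕ) : ZMod p) + 1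

variable {S} {T : Finset ℕ} {a : ℕ → ℤ} {l : GoodPrime (p * m)} (D : Input S T a l)
  {χ : ParHom (p * m) (ZMod p)}
  (heig : ∀ l : GoodPrime (p * m), (l : ℕ) ∉ T → heckeHomAt l χ = a (l : ℕ) • χ)

include D heig

set_option maxHeartbeats 1000000 in
/-- A constant exponent gives a trivialisation modulo the uniformiser. -/
theorem goodAt_one_of_exp {L : IntermediateField ℚ (AlgebraicClosure ℚ)} [FiniteDimensional ℚ L]
    [Normal ℚ L] {hζ : zetaQ (p * m') ∈ L} [IsDiscreteValuationRing (rBase A L)]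
    {F : ℍ → ℂ} (hF : IsRepG (Gamma0 (p * m)) p χ F)
    {b : bddMF (embR A L hζ)} (hb : ((b : MF (p * m')) : ℍ → ℂ) = F ^ p)
    {f : rTop A L hζ p m'} (hf0 : f ≠ 0) (hfb : (f : Fld (embR A L hζ)) = toFld (embR A L hζ) b)
    {s : ℕ}
    (hs₀ : ExpEq (model₀ (rBase A L) (embR A L hζ) p m').B₀ (rUnif (Fact.out : p.Prime) S.hA)
      (twoP (rBase A L) (embR A L hζ) p m' (irreducible_rUnif (Fact.out : p.Prime) S.hA))
      (rIdx (L := L) (Fact.out : p.Prime) S.hA)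
      (algebraMap (wTop A (p * m') p m') (rTop A L hζ p m')).fieldRange p f s)
    (hs₁ : ExpEq (model₀ (rBase A L) (embR A L hζ) p m').B₁ (rUnif (Fact.out : p.Prime) S.hA)
      (twoP (rBase A L) (embR A L hζ) p m' (irreducible_rUnif (Fact.out : p.Prime) S.hA))
      (rIdx (L := L) (Fact.out : p.Prime) S.hA)
      (algebraMap (wTop A (p * m') p m') (rTop A L hζ p m')).fieldRange p f s) :
    GoodAt S.hA hζ χ 1 := by
  have hw := S.isWild (hζ := hζ)
  have hN : p * m ∣ p * m' := mul_dvd_mul_left p S.hmm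
  obtain ⟨hoff₀, hoff₁⟩ := S.off_roots (hζ := hζ) hN hF hb hf0 hfb
  have hle := (heig l D.hlS).trans (Int.cast_smul_eq_zsmul (ZMod p) _ χ).symm
  have h01 : ∀ (B : Subalgebra (rBase A L) (rTop A L hζ p m')),
      B = (model₀ (rBase A L) (embR A L hζ) p m').B₀ ∨ B = (model₀ (rBase A L) (embR A L hζ) p m').B₁ →
      ExpEq B (rUnif (Fact.out : p.Prime) S.hA)
        (twoP (rBase A L) (embR A L hζ) p m' (irreducible_rUnif (Fact.out : p.Prime) S.hA))
        (rIdx (L := L) (Fact.out : p.Prime) S.hA)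
        (algebraMap (wTop A (p * m') p m') (rTop A L hζ p m')).fieldRange p f 0 := by
    rintro B (rfl | rfl) <;> rcases D.odd with h3 | h5
    · exact (expEq_zero_three (Fact.out : p.Prime) S.hA h3 S.hpm' S.hm2 D.h6 hζ S.hcharts hN l D.hl
        (a := (a (l : ℕ) : ZMod p)) D.hla hle hF hb hf0 hfb hs₀ hs₁).1
    · exact (WildModel.expEq_zero (Fact.out : p.Prime) S.hA h5 S.hpm' hζ S.hcharts hN l D.hl
        (a := (a (l : ℕ) : ZMod p)) D.hla hle hF hb hf0 hfb hs₀ hs₁).1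
    · exact (expEq_zero_three (Fact.out : p.Prime) S.hA h3 S.hpm' S.hm2 D.h6 hζ S.hcharts hN l D.hl
        (a := (a (l : ℕ) : ZMod p)) D.hla hle hF hb hf0 hfb hs₀ hs₁).2
    · exact (WildModel.expEq_zero (Fact.out : p.Prime) S.hA h5 S.hpm' hζ S.hcharts hN l D.hl
        (a := (a (l : ℕ) : ZMod p)) D.hla hle hF hb hf0 hfb hs₀ hs₁).2
  obtain ⟨t, ht⟩ := hw.exists_scaling hf0 hoff₀ hoff₁ (Or.inr (h01 _ (Or.inl rfl)))
  have hroots := hw.roots_of_expEq_zero ht (hw.expEq_scale t (h01 _ (Or.inl rfl)))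
    (hw.expEq_scale t (h01 _ (Or.inr rfl)))
  obtain ⟨U, hU⟩ : ∃ U : Bool → rTop A L hζ p m', ∀ i,
      U i ^ p / (algebraMap (rBase A L) _ (rUnif (Fact.out : p.Prime) S.hA) ^ t * f) - 1 ∈
        (twoP (rBase A L) (embR A L hζ) p m'
          (irreducible_rUnif (Fact.out : p.Prime) S.hA) i).nonunits := by
    rcases D.odd with h3 | h5
    · exact exists_root_eigen_three S.hA h3 S.hpm' (D.neat h3) S.hm2 D.h6 S.hmm hζ S.hcharts T
        D.hmS D.hpS a D.hno heig hF hb hf0 hfb ht hroots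
    · exact Wild.exists_root_eigen S.hA h5 S.hpm' S.hm2 D.h6 S.hmm hζ S.hcharts T
        D.hmS D.hpS a D.hno heig hF hb hf0 hfb ht hroots
  refine ⟨F, b, f, rUnif (Fact.out : p.Prime) S.hA ^ t, hF, hb, hfb, hf0,
    pow_ne_zero _ hw.irreducible.ne_zero, ?_⟩
  rw [map_pow]
  exact hw.triv_one hroots hU

set_option maxHeartbeats 1000000 in
/-- Inertia fixing the roots of unity fixes the class. -/
theorem goodAt_one_unit {L : IntermediateField ℚ (AlgebraicClosure ℚ)} [FiniteDimensional ℚ L]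
    [Normal ℚ L] {hζ : zetaQ (p * m') ∈ L} [IsDiscreteValuationRing (rBase A L)]
    (hL : L ≤ IntermediateField.adjoin ℚ ({zetaQ (p * m')} : Set (AlgebraicClosure ℚ)))
    (hfix : ∀ s ∈ A.inertiaSubgroupIn ℚ, (∀ x ∈ L, s x = x) →
      (kummerGalois (p * m) p).galois s χ = χ) :
    GoodAt S.hA hζ χ 1 := by
  have hq : p.Prime := Fact.out
  have hw := S.isWild (hζ := hζ)
  have he : rIdx (L := L) hq S.hA = p - 1 := rIdx_cyclotomic S.hA rfl S.hpm' hζ hL
  obtain ⟨F, b, f, hF, hb, hfb, hf0⟩ := S.exists_kummer (hζ := hζ) (mul_dvd_mul_left p S.hmm) χ hfix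
  obtain ⟨hoff₀, hoff₁⟩ := S.off_roots (hζ := hζ) (mul_dvd_mul_left p S.hmm) hF hb hf0 hfb
  obtain ⟨s, hs₀, hs₁⟩ := hw.exists_exp_const_unit
    (by rw [he]; exact Nat.not_dvd_of_pos_of_lt (Nat.sub_pos_of_lt hq.one_lt) (Nat.sub_lt hq.pos one_pos))
    hf0 hoff₀ hoff₁
  exact goodAt_one_of_exp D heig hF hb hf0 hfb hs₀ hs₁

set_option maxHeartbeats 1000000 in
/-- A wild element moves the class by fixed classes. -/
theorem goodAt_one_wild {W : WeierstrassCurve ℤ}
    [((W.map (Int.castRingHom ℚ))⁄(AlgebraicClosure ℚ)).IsElliptic]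
    [IsDiscreteValuationRing (rBase A (atLevel W p (p * m')))]
    (hauto : rIdx (L := atLevel W p (p * m')) (Fact.out : p.Prime) S.hA = p * (p - 1) ∧
      ∃ (τ : A.inertiaSubgroupIn ℚ) (b : ℕ) (β : rBase A (atLevel W p (p * m'))),
        omg p (τ : GQ) = 1 ∧ b < p ∧
        Models.IsWildAut (model₀ (rBase A (atLevel W p (p * m')))
            (embR A (atLevel W p (p * m')) (zetaQ_mem_atLevel W p (p * m'))) p m')
          (rUnif (Fact.out : p.Prime) S.hA)
          (algebraMap (wTop A (p * m') p m')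
            (rTop A (atLevel W p (p * m')) (zetaQ_mem_atLevel W p (p * m')) p m')).fieldRange
          (tauTop (zetaQ_mem_atLevel W p (p * m')) rfl τ) b β)
    (hfix : ∀ s ∈ A.inertiaSubgroupIn ℚ, (∀ x ∈ atLevel W p (p * m'), s x = x) →
      (kummerGalois (p * m) p).galois s χ = χ)
    (hrel : ∀ τ ∈ A.inertiaSubgroupIn ℚ, omg p τ = 1 →
      (kummerGalois (p * m) p).galois τ ((kummerGalois (p * m) p).galois τ χ) + χ =
        2 • (kummerGalois (p * m) p).galois τ χ) :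
    GoodAt S.hA (zetaQ_mem_atLevel W p (p * m')) χ 1 := by
  classical
  have hp : p.Prime := Fact.out
  set L := atLevel W p (p * m')
  have hζ : zetaQ (p * m') ∈ L := zetaQ_mem_atLevel W p (p * m')
  obtain ⟨he, τ, b₀, β, hτω, hbp, haut⟩ := hauto
  have hw := S.isWild (hζ := hζ)
  have hN : p * m ∣ p * m' := mul_dvd_mul_left p S.hmm
  obtain ⟨F, b, f, hF, hb, hfb, hf0⟩ := S.exists_kummer (hζ := hζ) hN χ hfix
  obtain ⟨hoff₀, hoff₁⟩ := S.off_roots (hζ := hζ) hN hF hb hf0 hfb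
  obtain ⟨t, hK⟩ := hw.exists_scaling hf0 hoff₀ hoff₁ (Or.inl (Dvd.intro _ he.symm))
  obtain ⟨F₁, b₁, hF₁, hb₁, he₁⟩ := WildModel.exists_conj_kummerFun rfl hN hF hb hfb τ
  obtain ⟨F₂, b₂, hF₂, hb₂, he₂⟩ := WildModel.exists_conj_kummerFun rfl hN hF₁ hb₁ he₁ τ
  obtain ⟨c, H, hH⟩ : ∃ (c : rBase A L) (H : rTop A L hζ p m'),
      tauTop hζ rfl τ (tauTop hζ rfl τ f) * f =
        algebraMap (rBase A L) _ c * tauTop hζ rfl τ f ^ 2 * H ^ p := by
    have h21 := hF₂.mul hF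
    rw [hrel τ τ.2 hτω] at h21
    obtain ⟨c, H, -, -, hHmem, hcH⟩ := exists_pow_of_rep_eq (b₁ := b₁ ^ 2) (b₂ := b₂ * b) hN
      (fun γ hγ => WildModel.levelG_le_gamma0 hp S.hpm' hN hγ) (hF₁.pow 2) h21
      (by rw [SubmonoidClass.coe_pow, SubmonoidClass.coe_pow, hb₁, ← pow_mul, ← pow_mul, mul_comm])
      (by rw [Subring.coe_mul, MulMemClass.coe_mul, hb₂, hb, ← mul_pow])
    refine ⟨c, ⟨H, hHmem⟩, Subtype.ext ?_⟩
    simp only [Subfield.coe_mul, SubmonoidClass.coe_pow, coe_algebraMap_fld₀, he₁, he₂, hfb]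
    rw [← map_mul, ← map_pow]
    exact hcH
  obtain ⟨v, hv⟩ := exists_rAct_rUnif (L := L) hp S.hA τ
  let v' := Units.map (rAct L τ).toMonoidHom v
  have hfr := Wild.exists_fix_ratio (τ := tauTop hζ rfl τ) hw.pi_ne_zero (v := v) (v' := v')
    (by rw [tauTop_algebraMap, hv]) (tauTop_algebraMap rfl τ _) hf0 hH t
  obtain ⟨s, hs₀, hs₁⟩ := hw.exists_exp_wild he haut hbp hK hfr
  exact goodAt_one_of_exp D heig hF hb hf0 hfb (Wild.expEq_unscale hp.pos hw.pi_ne_zero t hs₀)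
    (Wild.expEq_unscale hp.pos hw.pi_ne_zero t hs₁)

end Fermat.Agent.R59.AtP
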